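import Fermat.Agent.Nod.FrobKum
import Fermat.Agent.ALCoh.Kill
import Fermat.Agent.GalRep.LocalFrob

/-!
# Frobenius at `q ‖ N` on the Hecke modules
-/

set_option autoImplicit false
set_option linter.style.haveILetI false
set_option linter.unusedSectionVars false

noncomputable section

namespace Fermat.Agent.Nod

open Fermat.Agent.GalRep Fermat.Agent.Kum ModularCurve AlgebraicCurve Fermat.Agent.ModPoly
  Fermat.Agent.HeckeHom Fermat.Agent.SemiSt Fermat.Agent.ALCoh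

theorem coe_incl' {N p : ℕ} [NeZero N] [Fact p.Prime] {S : Set ℕ} (hpS : p ∈ S)
    (hNS : ∀ q : ℕ, q.Prime → q ∣ N → q ∈ S) (a : CuspForm.heckeAlgebra N 2 S) :
    (GalRep.incl (p := p) hpS hNS a).1 = a.1 := by
  rw [GalRep.incl]
  exact Subalgebra.coe_inclusion _ _

theorem actL_incl {N p : ℕ} [NeZero N] [Fact p.Prime] {S : Set ℕ} (hpS : p ∈ S)
    (hNS : ∀ q : ℕ, q.Prime → q ∣ N → q ∈ S) (a : CuspForm.heckeAlgebra N 2 S) (φ : LZ N) :
    actL N (badSet N p) (GalRep.incl (p := p) hpS hNS a) φ = actL N S a φ :=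
  castP_injective (by rw [castP_actL, castP_actL, actC_apply, actC_apply, coe_incl'])

theorem frobRel_smul {G R X : Type*} [Group G] [CommRing R] [AddCommGroup X] [Module R X]
    (ρ : G →* Module.End R X) (Φ : G) (a : R) (n m : ℕ) {x y : X} (hy : a • x = y)
    (h : ρ Φ (ρ Φ (ρ Φ (ρ Φ y))) - n • ρ Φ (ρ Φ y) + m • y = 0) :
    1 • a • (ρ Φ (ρ Φ (ρ Φ (ρ Φ x))) - n • ρ Φ (ρ Φ x) + m • x) = 0 := by
  subst hy
  rw [one_smul, smul_add, smul_sub, smul_comm a n, smul_comm a m, ← h]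
  simp only [map_smul]

section

variable {p q M : ℕ} [Fact p.Prime] [hq : Fact q.Prime] [NeZero M] {S : Set ℕ}

theorem frobAt_rhoX (ι : AlgebraicClosure ℚ →+* ℂ) {m : ℕ} [NeZero m] (hqM : ¬ q ∣ M)
    (hm : ¬ q ∣ m) (hpS : p ∈ S)
    (hNS : ∀ l : ℕ, l.Prime → l ∣ M * q → l ∈ S) (a : CuspForm.heckeAlgebra (M * q) 2 S)
    (hkill : ∀ φ : LZ (M * q), tr (dvd_mul_right M q) ℤ (actL (M * q) S a φ).1 = 0 ∧
      tr (dvd_mul_right M q) ℤ (wop (dvd_mul_left q M) (coprime_of_not_dvd hq.out hqM) ℤ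
        (actL (M * q) S a φ).1) = 0) :
    letI := modX (M * q) m p
    FrobAt 1 q (GalRep.incl (p := p) hpS hNS a) (rhoX (M * q) ι m p) := by
  letI := modX (M * q) m p
  intro A hA Φ hΦ x
  obtain ⟨φ, rfl⟩ := mkX_surjective x
  have e1 : (GalRep.incl (p := p) hpS hNS a • (mkX φ : XL (M * q) m)) =
      mkX (actL (M * q) S a φ) := by
    rw [← actL_incl hpS hNS a φ]
    rfl
  refine frobRel_smul (rhoX (M * q) ι m p) Φ _ (q ^ 2 + 1) (q ^ 2) e1 ?_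
  exact rhoF_frob_toric ι hA hqM hΦ hm (actL (M * q) S a φ) (hkill φ).1 (hkill φ).2

end

/-- **The action of Frobenius at `q ‖ N`.** -/
theorem hasFrob {N p q : ℕ} [NeZero N] [Fact p.Prime] (hq : q.Prime) (hqp : q ≠ p)
    (hqN : q ∣ N) (hq2 : ¬ q ^ 2 ∣ N) {S : Set ℕ} (hS : S.Finite) (hpS : p ∈ S)
    (hNS : ∀ q : ℕ, q.Prime → q ∣ N → q ∈ S)
    {g : CuspForm (CongruenceSubgroup.Gamma0 N) 2} (hg : g.IsNewform)
    (θ : CuspForm.heckeAlgebra N 2 S →+* ℂ)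
    (hθ : ∀ (l : ℕ) (hl : l.Prime) (hlN : ¬ l ∣ N) (hlS : l ∉ S),
      θ (CuspForm.heckeAlgebra.T hl hlN hlS) = ModularFormClass.qCoeff g l) :
    ∃ a : CuspForm.heckeAlgebra N 2 S, θ a ≠ 0 ∧
      HasFrob N p q (S := S) (GalRep.incl (p := p) hpS hNS a) := by
  haveI : Fact q.Prime := ⟨hq⟩
  have hp : p ≠ 0 := (Fact.out : p.Prime).ne_zero
  obtain ⟨M, h⟩ := hqN
  rw [mul_comm] at h
  subst h
  haveI : NeZero M := ⟨left_ne_zero_of_mul (NeZero.ne (M * q))⟩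
  have hqM : ¬ q ∣ M := fun h => hq2 (by
    rw [pow_two]
    exact mul_dvd_mul_right h q)
  obtain ⟨a, ha, hkill⟩ := exists_kill_tr hg hS hNS θ hθ (dvd_mul_right M q)
    (fun h => hq.one_lt.ne' (Nat.eq_of_mul_eq_mul_left (NeZero.pos M) (by rw [mul_one, ← h])))
    (dvd_mul_left q M) (coprime_of_not_dvd hq hqM)
  refine ⟨a, ha, ?_⟩
  obtain ⟨ι⟩ := RedMod.exists_ιC
  obtain ⟨c, hc⟩ := isBGM_rhoX (N := M * q) p ι
  refine ⟨1, one_pos, fun n => ?_⟩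
  obtain ⟨m, hm⟩ : ∃ m : ℕ, m = p ^ (n + c) := ⟨_, rfl⟩
  haveI : NeZero m := ⟨by rw [hm]; exact pow_ne_zero _ hp⟩
  letI := modX (M * q) m p
  have hqm : ¬ q ∣ m := fun h => hqp
    ((Nat.prime_dvd_prime_iff_eq hq Fact.out).1 (hq.dvd_of_dvd_pow (hm ▸ h)))
  exact ⟨XL (M * q) m, inferInstance, inferInstance, rhoX (M * q) ι m p, hc n m hm,
    frobAt_rhoX ι hqM hqm hpS hNS a hkill⟩

end Fermat.Agent.Nod
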