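import Fermat.Agent.Nod.Classify
import Fermat.Agent.Red.Genus

/-!
# Nodal reduction models
-/

set_option autoImplicit false
set_option linter.style.haveILetI false
set_option linter.unusedSectionVars false

namespace Fermat.Agent.Nod

open AlgebraicCurve Fermat.Agent.Curve Fermat.Agent.RR Fermat.Agent.Red Module Polynomial
  IntermediateField

section General

variable {k E : Type*} [Field k] [Field E] [Algebra k E] [IsAlgClosed k] [FunField k E]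

theorem poleZero_of {t : E} (ht : Transcendental k t) :
    PoleZero t (poleDiv k t) (zeroDiv k t) (finrank k⟮t⟯ E) where
  hP := poleDiv_apply t
  hZ := zeroDiv_apply t
  dP := degree_poleDiv ht
  dZ := degree_zeroDiv ht
  pos := finrank_pos ht

/-- membership in `L(aP+bZ)` in terms of regularity -/
theorem mem_DD_iff {t : E} (ht : Transcendental k t) (a b : ℕ) (x : E) :
    x ∈ riemannRochSpace (DD k t a b) ↔ Reg k t (t ^ b * x) ∧ Reg k t⁻¹ (t⁻¹ ^ a * x) := by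
  have ht0 : t ≠ 0 := fun h => ht (h ▸ isAlgebraic_zero)
  rcases eq_or_ne x 0 with rfl | hx0
  · rw [mul_zero, mul_zero]
    exact ⟨fun _ => ⟨fun v _ => Ge.zero v 0, fun v _ => Ge.zero v 0⟩, fun _ => zero_mem _⟩
  have e1 : ∀ v : Place k E, v.ord (t ^ b * x) = b * v.ord t + v.ord x := by
    intro v
    rw [v.ord_mul (pow_ne_zero _ ht0) hx0, ord_pow]
  have e2 : ∀ v : Place k E, v.ord (t⁻¹ ^ a * x) = -(a * v.ord t) + v.ord x := by
    intro v
    rw [v.ord_mul (pow_ne_zero _ (inv_ne_zero ht0)) hx0, ord_pow, v.ord_inv]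
    ring
  have n1 : t ^ b * x ≠ 0 := mul_ne_zero (pow_ne_zero _ ht0) hx0
  have n2 : t⁻¹ ^ a * x ≠ 0 := mul_ne_zero (pow_ne_zero _ (inv_ne_zero ht0)) hx0
  constructor
  · intro hx
    constructor
    · intro v hv
      have h1 := (mem_L.1 hx v).le_ord hx0
      rw [DD_apply, max_eq_right (by linarith), max_eq_left hv] at h1
      right
      rw [e1]
      linarith
    · intro v hv
      rw [v.ord_inv] at hv
      have h1 := (mem_L.1 hx v).le_ord hx0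
      rw [DD_apply, max_eq_left hv, max_eq_right (by linarith)] at h1
      right
      rw [e2]
      linarith
  · rintro ⟨h1, h2⟩
    rw [mem_L]
    intro v
    right
    rw [DD_apply]
    rcases le_total 0 (v.ord t) with hv | hv
    · have h3 := (h1 v hv).le_ord n1
      rw [max_eq_right (by linarith), max_eq_left hv]
      rw [e1] at h3
      linarith
    · have h3 := (h2 v (by rw [v.ord_inv]; linarith)).le_ord n2
      rw [max_eq_left (by linarith), max_eq_right hv]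
      rw [e2] at h3
      linarith

theorem DD_inv (t : E) (a b : ℕ) : DD k t⁻¹ a b = DD k t b a := by
  ext v
  rw [DD_apply, DD_apply, v.ord_inv, neg_neg]
  ring

theorem inv_pow_mul_mem_L_DD {t : E} {x : E} {a b : ℕ} (n : ℕ)
    (hx : x ∈ riemannRochSpace (DD k t (a + n) b)) :
    t⁻¹ ^ n * x ∈ riemannRochSpace (DD k t a (b + n)) := by
  have h := mul_mem_L_DD (k := k) (t := t⁻¹) (a := b) (b := a) (x := x) n (by rwa [DD_inv])
  rwa [DD_inv] at h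

theorem reg_iff_isIntegralElem [CharZero k] {t : E} (ht : Transcendental k t) (x : E) :
    Reg k t x ↔ (aeval t : k[X] →ₐ[k] E).toRingHom.IsIntegralElem x := by
  haveI := fd (K := k) ht
  rw [isIntegralElem_iff t ht]
  constructor
  · intro h v hv
    rcases h v hv with h | h
    · rw [h, v.ord_zero]
    · exact h
  · intro h v hv
    exact Or.inr (h v hv)

end General

variable {A K F k E₁ E₂ : Type*} [CommRing A] [IsDomain A] [ValuationRing A]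
  [Field K] [Algebra A K] [IsFractionRing A K] [Field F] [Algebra K F] [Algebra A F]
  [IsScalarTower A K F] [Field k] [Algebra A k] [Field E₁] [Field E₂] [Algebra k E₁]
  [Algebra k E₂] [Algebra A E₁] [Algebra A E₂] [IsScalarTower A k E₁] [IsScalarTower A k E₂]
  [IsAlgClosed K] [IsAlgClosed k] [CharZero K] [FunField K F] [FunField k E₁] [FunField k E₂]

section Integral

theorem isIntegralElem_fst {s : E₁ × E₂} {r : E₁ × E₂}
    (h : (aeval s : k[X] →ₐ[k] (E₁ × E₂)).toRingHom.IsIntegralElem r) :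
    (aeval s.1 : k[X] →ₐ[k] E₁).toRingHom.IsIntegralElem r.1 := by
  obtain ⟨P, hP, hP'⟩ := h
  refine ⟨P, hP, ?_⟩
  have h1 := congrArg (RingHom.fst E₁ E₂) hP'
  rw [hom_eval₂, map_zero] at h1
  have h2 : (RingHom.fst E₁ E₂).comp (aeval s : k[X] →ₐ[k] (E₁ × E₂)).toRingHom =
      (aeval s.1 : k[X] →ₐ[k] E₁).toRingHom := by
    apply RingHom.ext
    intro q
    exact (aeval_algHom_apply (AlgHom.fst k E₁ E₂) s q).symm
  rw [h2] at h1
  exact h1

theorem isIntegralElem_snd {s : E₁ × E₂} {r : E₁ × E₂}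
    (h : (aeval s : k[X] →ₐ[k] (E₁ × E₂)).toRingHom.IsIntegralElem r) :
    (aeval s.2 : k[X] →ₐ[k] E₂).toRingHom.IsIntegralElem r.2 := by
  obtain ⟨P, hP, hP'⟩ := h
  refine ⟨P, hP, ?_⟩
  have h1 := congrArg (RingHom.snd E₁ E₂) hP'
  rw [hom_eval₂, map_zero] at h1
  have h2 : (RingHom.snd E₁ E₂).comp (aeval s : k[X] →ₐ[k] (E₁ × E₂)).toRingHom =
      (aeval s.2 : k[X] →ₐ[k] E₂).toRingHom := by
    apply RingHom.ext
    intro q
    exact (aeval_algHom_apply (AlgHom.snd k E₁ E₂) s q).symm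
  rw [h2] at h1
  exact h1

end Integral

variable {ι₀ : Type*} [Fintype ι₀] [Nonempty ι₀] (G : GaussData A K F k (E₁ × E₂) ι₀)

/-- the reduction of the parameter -/
def tb : E₁ × E₂ := G.π ⟨G.t, G.ht⟩

theorem aeval_fst (s : E₁ × E₂) (q : k[X]) : (aeval s q).1 = aeval s.1 q :=
  (aeval_algHom_apply (AlgHom.fst k E₁ E₂) s q).symm

theorem aeval_snd (s : E₁ × E₂) (q : k[X]) : (aeval s q).2 = aeval s.2 q :=
  (aeval_algHom_apply (AlgHom.snd k E₁ E₂) s q).symm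

theorem transcendental_tb_fst : Transcendental k (tb G).1 := by
  rw [transcendental_iff]
  intro q hq
  by_contra hq0
  have h1 := (G.isUnit_t q hq0).map (RingHom.fst E₁ E₂)
  have h2 : (RingHom.fst E₁ E₂) (aeval (G.π ⟨G.t, G.ht⟩) q) = 0 := by
    change (aeval (tb G) q).1 = 0
    rw [aeval_fst, hq]
  rw [h2] at h1
  exact not_isUnit_zero h1

theorem transcendental_tb_snd : Transcendental k (tb G).2 := by
  rw [transcendental_iff]
  intro q hq
  by_contra hq0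
  have h1 := (G.isUnit_t q hq0).map (RingHom.snd E₁ E₂)
  have h2 : (RingHom.snd E₁ E₂) (aeval (G.π ⟨G.t, G.ht⟩) q) = 0 := by
    change (aeval (tb G) q).2 = 0
    rw [aeval_snd, hq]
  rw [h2] at h1
  exact not_isUnit_zero h1

theorem tb_inv : tb G.inv = ((tb G).1⁻¹, (tb G).2⁻¹) := by
  have h := G.π_inv_t
  have h1 : (tb G).1 * (tb G.inv).1 = 1 := congrArg Prod.fst h
  have h2 : (tb G).2 * (tb G.inv).2 = 1 := congrArg Prod.snd h
  exact Prod.ext (eq_inv_of_mul_eq_one_right h1) (eq_inv_of_mul_eq_one_right h2)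

variable (hk : Function.Surjective (algebraMap A k))
variable (hspan : ∀ x : F, ∃ q : K[X], q ≠ 0 ∧ ∃ P : ι₀ → K[X], aeval G.t q * x = G.comb P)

/-- the reductions of integral elements -/
def BB (s : F) : Subalgebra k (E₁ × E₂) where
  carrier := {r | ∃ x : F, ∃ hx : x ∈ G.W,
    (aeval s : K[X] →ₐ[K] F).toRingHom.IsIntegralElem x ∧ G.π ⟨x, hx⟩ = r}
  mul_mem' := by
    rintro _ _ ⟨x, hx, hx', rfl⟩ ⟨y, hy, hy', rfl⟩
    exact ⟨x * y, mul_mem hx hy, hx'.mul _ hy', map_mul G.π ⟨x, hx⟩ ⟨y, hy⟩⟩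
  add_mem' := by
    rintro _ _ ⟨x, hx, hx', rfl⟩ ⟨y, hy, hy', rfl⟩
    exact ⟨x + y, add_mem hx hy, hx'.add _ hy', map_add G.π ⟨x, hx⟩ ⟨y, hy⟩⟩
  algebraMap_mem' := by
    intro c
    obtain ⟨a, rfl⟩ := hk c
    refine ⟨algebraMap A F a, G.W.algebraMap_mem a, ?_, ?_⟩
    · refine ⟨X - C (C (algebraMap A K a)), monic_X_sub_C _, ?_⟩
      rw [eval₂_sub, eval₂_X, eval₂_C]
      change algebraMap A F a - aeval s (C (algebraMap A K a)) = 0
      rw [aeval_C, ← IsScalarTower.algebraMap_apply A K F, sub_self]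
    · have := G.π.commutes a
      rw [IsScalarTower.algebraMap_apply A k (E₁ × E₂)] at this
      exact this

include hk hspan in
/-- reduction maps `L(aP+bZ)` into `L(aP+bZ) × L(aP+bZ)` -/
theorem π_mem_DD {a b : ℕ} {x : F} (hx : x ∈ G.W) (hxL : x ∈ riemannRochSpace (DD K G.t a b)) :
    (G.π ⟨x, hx⟩).1 ∈ riemannRochSpace (DD k (tb G).1 a b) ∧
      (G.π ⟨x, hx⟩).2 ∈ riemannRochSpace (DD k (tb G).2 a b) := by
  have htr := G.transcendental
  rw [mem_DD_iff htr] at hxL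
  obtain ⟨h1, h2⟩ := hxL
  rw [reg_iff_isIntegralElem htr] at h1
  rw [reg_iff_isIntegralElem (RR.transcendental_inv htr)] at h2
  have h3 := G.isIntegralElem_π hk hspan htr (x := G.t ^ b * x) (mul_mem (pow_mem G.ht b) hx) h1
  have h4 : (⟨G.t ^ b * x, mul_mem (pow_mem G.ht b) hx⟩ : G.W) = ⟨G.t, G.ht⟩ ^ b * ⟨x, hx⟩ := rfl
  rw [h4, map_mul, map_pow] at h3
  have h5 := G.inv.isIntegralElem_π hk (G.inv_hspan hspan) (RR.transcendental_inv htr)
    (x := G.t⁻¹ ^ a * x) (mul_mem (pow_mem G.inv_t_mem a) hx) h2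
  have h6 : (⟨G.t⁻¹ ^ a * x, mul_mem (pow_mem G.inv_t_mem a) hx⟩ : G.W) =
    ⟨G.t⁻¹, G.inv_t_mem⟩ ^ a * ⟨x, hx⟩ := rfl
  change (aeval (tb G.inv) : k[X] →ₐ[k] (E₁ × E₂)).toRingHom.IsIntegralElem
      (G.π ⟨G.t⁻¹ ^ a * x, mul_mem (pow_mem G.inv_t_mem a) hx⟩) at h5
  rw [h6, map_mul, map_pow] at h5
  have h7 : G.π ⟨G.t⁻¹, G.inv_t_mem⟩ = tb G.inv := rfl
  rw [h7, tb_inv] at h5
  rw [mem_DD_iff (transcendental_tb_fst G), mem_DD_iff (transcendental_tb_snd G)]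
  refine ⟨⟨fun v hv => ?_, fun v hv => ?_⟩, ⟨fun v hv => ?_, fun v hv => ?_⟩⟩
  · exact Ge.of_le (ord_nonneg_of_isIntegralElem v hv (isIntegralElem_fst h3))
  · exact Ge.of_le (ord_nonneg_of_isIntegralElem v hv (isIntegralElem_fst h5))
  · exact Ge.of_le (ord_nonneg_of_isIntegralElem v hv (isIntegralElem_snd h3))
  · exact Ge.of_le (ord_nonneg_of_isIntegralElem v hv (isIntegralElem_snd h5))

include hspan in
theorem reg_of_mem_BB {r : E₁ × E₂} (hr : r ∈ BB G hk G.t) :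
    Reg k (tb G).1 r.1 ∧ Reg k (tb G).2 r.2 := by
  obtain ⟨x, hx, hx', rfl⟩ := hr
  have h3 := G.isIntegralElem_π hk hspan G.transcendental hx hx'
  exact ⟨fun v hv => Ge.of_le (ord_nonneg_of_isIntegralElem v hv (isIntegralElem_fst h3)),
    fun v hv => Ge.of_le (ord_nonneg_of_isIntegralElem v hv (isIntegralElem_snd h3))⟩

variable {ι : Type*} [Finite ι] (𝒩 : Nodes k E₁ E₂ ι)

/-- The candidate nodes are away from zeros and poles of `t̄`. -/
structure NodPos : Prop where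
  hv : ∀ j, (𝒩.v j).ord (tb G).1 = 0
  hw : ∀ j, (𝒩.w j).ord (tb G).2 = 0

/-- Hypotheses for a nodal model. -/
structure NodHyp : Prop extends NodPos G 𝒩 where
  glue0 : ∀ r : E₁ × E₂, Reg k (tb G).1 r.1 → Reg k (tb G).2 r.2 → r ∈ glue 𝒩 1 →
    r ∈ BB G hk G.t
  glueInf : ∀ r : E₁ × E₂, Reg k (tb G).1⁻¹ r.1 → Reg k (tb G).2⁻¹ r.2 → r ∈ glue 𝒩 1 →
    r ∈ BB G hk G.t⁻¹

/-- the set of actual nodes -/
def nodeSet (s : F) : Set ι := {j | ∀ r ∈ BB G hk s, val (𝒩.v j) r.1 = val (𝒩.w j) r.2}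

variable {G hk 𝒩}

theorem BB_iff (H : NodHyp G hk 𝒩) (hspan : ∀ x : F, ∃ q : K[X], q ≠ 0 ∧ ∃ P : ι₀ → K[X],
    aeval G.t q * x = G.comb P) (r : E₁ × E₂) :
    r ∈ BB G hk G.t ↔ Reg k (tb G).1 r.1 ∧ Reg k (tb G).2 r.2 ∧
      r ∈ glue (𝒩.restrict (nodeSet G hk 𝒩 G.t)) 1 :=
  mem_iff_of_glue 𝒩 (transcendental_tb_fst G) (transcendental_tb_snd G) H.hv H.hw
    (BB G hk G.t) (fun _ hr => reg_of_mem_BB G hk hspan hr) H.glue0 (fun _ => Iff.rfl) r

theorem BB_inv_iff (H : NodHyp G hk 𝒩) (hspan : ∀ x : F, ∃ q : K[X], q ≠ 0 ∧ ∃ P : ι₀ → K[X],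
    aeval G.t q * x = G.comb P) (r : E₁ × E₂) :
    r ∈ BB G hk G.t⁻¹ ↔ Reg k (tb G).1⁻¹ r.1 ∧ Reg k (tb G).2⁻¹ r.2 ∧
      r ∈ glue (𝒩.restrict (nodeSet G hk 𝒩 G.t⁻¹)) 1 := by
  refine mem_iff_of_glue 𝒩 (RR.transcendental_inv (transcendental_tb_fst G))
    (RR.transcendental_inv (transcendental_tb_snd G)) ?_ ?_
    (BB G hk G.t⁻¹) (fun r hr => ?_) H.glueInf (fun _ => Iff.rfl) r
  · intro j
    rw [Place.ord_inv, H.hv, neg_zero]
  · intro j
    rw [Place.ord_inv, H.hw, neg_zero]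
  · have := reg_of_mem_BB G.inv hk (G.inv_hspan hspan) hr
    rwa [tb_inv] at this

theorem mem_BB_of_mem_DD {r : E₁ × E₂} {n : ℕ} {x : F} (hx : x ∈ G.W)
    (hxL : x ∈ riemannRochSpace (DD K G.t n 0)) (hr : G.π ⟨x, hx⟩ = r) : r ∈ BB G hk G.t :=
  ⟨x, hx, (reg_iff_isIntegralElem G.transcendental x).1 (reg_of_mem_DD hxL), hr⟩

theorem exists_DD_of_mem_BB {r : E₁ × E₂} (hr : r ∈ BB G hk G.t) : ∃ n : ℕ, ∃ x : F,
    ∃ hx : x ∈ G.W, x ∈ riemannRochSpace (DD K G.t n 0) ∧ G.π ⟨x, hx⟩ = r := by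
  obtain ⟨x, hx, hx', hr⟩ := hr
  obtain ⟨n, hn⟩ := exists_mem_DD G.transcendental
    ((reg_iff_isIntegralElem G.transcendental x).2 hx')
  exact ⟨n, x, hx, hn, hr⟩

theorem exists_DD_of_mem_BB_inv {r : E₁ × E₂} (hr : r ∈ BB G hk G.t⁻¹) : ∃ n : ℕ, ∃ x : F,
    ∃ hx : x ∈ G.W, x ∈ riemannRochSpace (DD K G.t 0 n) ∧ G.π ⟨x, hx⟩ = r := by
  obtain ⟨x, hx, hx', hr⟩ := hr
  have htr := RR.transcendental_inv (K := K) G.transcendental
  obtain ⟨n, hn⟩ := exists_mem_DD htr ((reg_iff_isIntegralElem htr x).2 hx')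
  rw [DD_inv] at hn
  exact ⟨n, x, hx, hn, hr⟩

theorem pow_tb_mul {x : F} (hx : x ∈ G.W) (n : ℕ) :
    G.π ⟨G.t ^ n * x, mul_mem (pow_mem G.ht n) hx⟩ = tb G ^ n * G.π ⟨x, hx⟩ := by
  have h4 : (⟨G.t ^ n * x, mul_mem (pow_mem G.ht n) hx⟩ : G.W) = ⟨G.t, G.ht⟩ ^ n * ⟨x, hx⟩ := rfl
  rw [h4, map_mul, map_pow]
  rfl

theorem inv_pow_tb_mul {x : F} (hx : x ∈ G.W) (n : ℕ) :
    G.π ⟨G.t⁻¹ ^ n * x, mul_mem (pow_mem G.inv_t_mem n) hx⟩ =
      tb G.inv ^ n * G.π ⟨x, hx⟩ := by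
  have h4 : (⟨G.t⁻¹ ^ n * x, mul_mem (pow_mem G.inv_t_mem n) hx⟩ : G.W) =
    ⟨G.t⁻¹, G.inv_t_mem⟩ ^ n * ⟨x, hx⟩ := rfl
  rw [h4, map_mul, map_pow]
  rfl

/-- The value of `t̄` agrees at actual nodes. -/
theorem val_tb_eq {j : ι} (hj : j ∈ nodeSet G hk 𝒩 G.t) :
    val (𝒩.v j) (tb G).1 = val (𝒩.w j) (tb G).2 := by
  refine hj _ ⟨G.t, G.ht, ?_, rfl⟩
  rw [← reg_iff_isIntegralElem G.transcendental]
  intro v hv
  exact Ge.of_le hv

theorem val_tb_ne (H : NodPos G 𝒩) (j : ι) : val (𝒩.v j) (tb G).1 ≠ 0 ∧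
    val (𝒩.w j) (tb G).2 ≠ 0 := by
  constructor
  · rw [val_ne_zero_iff (Ge.of_le (H.hv j).ge)]
    · exact H.hv j
    · intro h
      exact transcendental_tb_fst G (h ▸ isAlgebraic_zero)
  · rw [val_ne_zero_iff (Ge.of_le (H.hw j).ge)]
    · exact H.hw j
    · intro h
      exact transcendental_tb_snd G (h ▸ isAlgebraic_zero)

theorem ge_of_DD_fst (H : NodPos G 𝒩) (j : ι) {a b : ℕ} {x : E₁}
    (hx : x ∈ riemannRochSpace (DD k (tb G).1 a b)) : Ge (𝒩.v j) 0 x := by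
  have := mem_L.1 hx (𝒩.v j)
  rwa [DD_eq_zero (H.hv j), neg_zero] at this

theorem ge_of_DD_snd (H : NodPos G 𝒩) (j : ι) {a b : ℕ} {x : E₂}
    (hx : x ∈ riemannRochSpace (DD k (tb G).2 a b)) : Ge (𝒩.w j) 0 x := by
  have := mem_L.1 hx (𝒩.w j)
  rwa [DD_eq_zero (H.hw j), neg_zero] at this

theorem val_pow_tb_mul (H : NodPos G 𝒩) {j : ι} (hj : val (𝒩.v j) (tb G).1 =
    val (𝒩.w j) (tb G).2) {r : E₁ × E₂} (h1 : Ge (𝒩.v j) 0 r.1) (h2 : Ge (𝒩.w j) 0 r.2) (n : ℕ) :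
    val (𝒩.v j) (tb G ^ n * r).1 = val (𝒩.w j) (tb G ^ n * r).2 ↔
      val (𝒩.v j) r.1 = val (𝒩.w j) r.2 := by
  have e1 : (tb G ^ n * r).1 = (tb G).1 ^ n * r.1 := rfl
  have e2 : (tb G ^ n * r).2 = (tb G).2 ^ n * r.2 := rfl
  have g1 : Ge (𝒩.v j) 0 (tb G).1 := Ge.of_le (H.hv j).ge
  have g2 : Ge (𝒩.w j) 0 (tb G).2 := Ge.of_le (H.hw j).ge
  rw [e1, e2, val_mul (ge_zero_pow g1 n) h1, val_mul (ge_zero_pow g2 n) h2, val_pow g1, val_pow g2,
    hj]
  exact mul_right_inj' (pow_ne_zero _ (val_tb_ne H j).2)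

theorem nodeSet_inv (H : NodHyp G hk 𝒩) (hspan : ∀ x : F, ∃ q : K[X], q ≠ 0 ∧ ∃ P : ι₀ → K[X],
    aeval G.t q * x = G.comb P) : nodeSet G hk 𝒩 G.t⁻¹ = nodeSet G hk 𝒩 G.t := by
  ext j
  constructor
  · intro hj r hr
    obtain ⟨n, x, hx, hxL, rfl⟩ := exists_DD_of_mem_BB hr
    have hxL' := π_mem_DD G hk hspan hx hxL
    -- `t̄⁻¹` has equal values
    have ht1 : val (𝒩.v j) (tb G.inv).1 = val (𝒩.w j) (tb G.inv).2 := by
      refine hj _ ⟨G.t⁻¹, G.inv_t_mem, ?_, rfl⟩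
      rw [← reg_iff_isIntegralElem (RR.transcendental_inv G.transcendental)]
      intro v hv
      exact Ge.of_le hv
    have ht2 : val (𝒩.v j) (tb G).1 = val (𝒩.w j) (tb G).2 := by
      rw [tb_inv] at ht1
      rw [val_inv (H.hv j) (fun h => transcendental_tb_fst G (h ▸ isAlgebraic_zero)),
        val_inv (H.hw j) (fun h => transcendental_tb_snd G (h ▸ isAlgebraic_zero))] at ht1
      exact inv_injective ht1
    have h1 : G.t⁻¹ ^ n * x ∈ riemannRochSpace (DD K G.t 0 n) := by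
      have := inv_pow_mul_mem_L_DD (k := K) (t := G.t) (a := 0) (b := 0) (x := x) n
        (by rwa [zero_add])
      rwa [zero_add] at this
    have h2 : tb G.inv ^ n * G.π ⟨x, hx⟩ ∈ BB G hk G.t⁻¹ := by
      refine ⟨G.t⁻¹ ^ n * x, mul_mem (pow_mem G.inv_t_mem n) hx, ?_, inv_pow_tb_mul hx n⟩
      rw [← reg_iff_isIntegralElem (RR.transcendental_inv G.transcendental)]
      apply reg_of_mem_DD (a := n)
      rwa [DD_inv]
    have h3 := hj _ h2
    rw [← val_pow_tb_mul H.toNodPos ht2 (by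
      have e : (tb G.inv ^ n * G.π ⟨x, hx⟩).1 = (tb G).1⁻¹ ^ n * (G.π ⟨x, hx⟩).1 := by
        rw [tb_inv]; rfl
      rw [e]
      exact ((ge_zero_pow (Ge.of_le (by rw [Place.ord_inv, H.hv, neg_zero])) n).mul
        (ge_of_DD_fst H.toNodPos j hxL'.1)).mono (by norm_num)) (by
      have e : (tb G.inv ^ n * G.π ⟨x, hx⟩).2 = (tb G).2⁻¹ ^ n * (G.π ⟨x, hx⟩).2 := by
        rw [tb_inv]; rfl
      rw [e]
      exact ((ge_zero_pow (Ge.of_le (by rw [Place.ord_inv, H.hw, neg_zero])) n).mul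
        (ge_of_DD_snd H.toNodPos j hxL'.2)).mono (by norm_num)) n] at h3
    have e : tb G ^ n * (tb G.inv ^ n * G.π ⟨x, hx⟩) = G.π ⟨x, hx⟩ := by
      rw [← mul_assoc, ← mul_pow]
      have : tb G * tb G.inv = 1 := G.π_inv_t
      rw [this, one_pow, one_mul]
    rwa [e] at h3
  · intro hj r hr
    obtain ⟨n, x, hx, hxL, rfl⟩ := exists_DD_of_mem_BB_inv hr
    have hxL' := π_mem_DD G hk hspan hx hxL
    have ht2 := val_tb_eq hj
    have h1 : G.t ^ n * x ∈ riemannRochSpace (DD K G.t n 0) := by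
      have := mul_mem_L_DD (k := K) (t := G.t) (a := 0) (b := 0) (x := x) n (by rwa [zero_add])
      rwa [zero_add] at this
    have h2 : tb G ^ n * G.π ⟨x, hx⟩ ∈ BB G hk G.t :=
      mem_BB_of_mem_DD (mul_mem (pow_mem G.ht n) hx) h1 (pow_tb_mul hx n)
    have h3 := hj _ h2
    rwa [val_pow_tb_mul H.toNodPos ht2 (ge_of_DD_fst H.toNodPos j hxL'.1) (ge_of_DD_snd H.toNodPos j hxL'.2)] at h3

end Fermat.Agent.Nod
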