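import Fermat.Agent.Nod.Modular
import Fermat.Agent.SemiSt.Norm

/-!
# Scaling functions modulo `m`-th powers in the nodal model
-/

set_option autoImplicit false
set_option linter.style.haveILetI false
set_option linter.unusedSectionVars false

noncomputable section

namespace Fermat.Agent.Nod

open ModularCurve Polynomial IntermediateField Fermat.Agent.ModPoly Fermat.Agent.Red
  Fermat.Agent.RedMod Fermat.Agent.Cusp Fermat.Agent.SemiSt AlgebraicCurve Fermat.Agent.Curve
  Fermat.Agent.RR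

section

variable {A K k : Type*} [CommRing A] [IsDomain A] [ValuationRing A]
  [Field K] [Algebra A K] [IsFractionRing A K] [Field k] [Algebra A k]

theorem isU_one : IsU A K k (1 : LaurentSeries K) :=
  ⟨one_mem _, by
    have : (⟨1, one_mem _⟩ : WL A K k) = 1 := rfl
    rw [this, map_one]
    exact one_ne_zero⟩

theorem isU_C_unit (u : Aˣ) : IsU A K k (HahnSeries.C (algebraMap A K u) : LaurentSeries K) := by
  refine ⟨const_mem_WL _, ?_⟩
  rw [πL_const]
  intro h
  have h1 : (algebraMap A k (u : A)) = 0 := by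
    have h2 : Function.Injective (HahnSeries.C : k →+* LaurentSeries k) := HahnSeries.C_injective
    exact h2 (h.trans (map_zero _).symm)
  exact ((u.isUnit.map (algebraMap A k)).ne_zero) h1

theorem _root_.Fermat.Agent.SemiSt.IsU.of_eq {x y : LaurentSeries K} (h : IsU A K k x) (e : x = y) : IsU A K k y := e ▸ h

end

section Main

variable (A : Type*) {K : Type*} (k : Type*) [CommRing A] [IsDomain A] [ValuationRing A]
  [Field K] [IsAlgClosed K] [CharZero K] [Algebra A K] [IsFractionRing A K]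
  [Field k] [IsAlgClosed k] [Algebra A k]
  {q M : ℕ} [hq : Fact q.Prime] [NeZero M] (hco : q.Coprime M)

/-- the difference of the valuations of `f` at the two components is the valuation of `c` -/
def Sl (f : FF K (q * M)) (c : K) : Prop :=
  ∃ a : K, a ≠ 0 ∧ IsU A K k (HahnSeries.C a * (f : LaurentSeries K)) ∧
    IsU A K k (HahnSeries.C (a * c⁻¹) * (w K hco f : LaurentSeries K))

variable {A k hco}

theorem w_inv (f : FF K (q * M)) : w K hco f⁻¹ = (w K hco f)⁻¹ := map_inv₀ _ _

theorem coe_inv' {N : ℕ} (f : FF K N) :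
    ((f⁻¹ : FF K N) : LaurentSeries K) = (f : LaurentSeries K)⁻¹ := rfl

theorem coe_mul' {N : ℕ} (f g : FF K N) :
    ((f * g : FF K N) : LaurentSeries K) = (f : LaurentSeries K) * (g : LaurentSeries K) := rfl

theorem Sl.mul {f g : FF K (q * M)} {c d : K} (hf : Sl A k hco f c) (hg : Sl A k hco g d) :
    Sl A k hco (f * g) (c * d) := by
  obtain ⟨a, ha, h1, h2⟩ := hf
  obtain ⟨b, hb, h3, h4⟩ := hg
  refine ⟨a * b, mul_ne_zero ha hb, (h1.mul h3).of_eq ?_, (h2.mul h4).of_eq ?_⟩
  · rw [map_mul, coe_mul']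
    ring
  · rw [map_mul (w K hco), coe_mul', mul_inv]
    simp only [map_mul]
    ring

theorem Sl.inv {f : FF K (q * M)} {c : K} (hf : Sl A k hco f c) : Sl A k hco f⁻¹ c⁻¹ := by
  obtain ⟨a, ha, h1, h2⟩ := hf
  refine ⟨a⁻¹, inv_ne_zero ha, h1.inv.of_eq ?_, h2.inv.of_eq ?_⟩
  · rw [mul_inv, coe_inv', map_inv₀]
  · rw [w_inv, coe_inv', _root_.mul_inv (HahnSeries.C (a * c⁻¹)), ← map_inv₀, _root_.mul_inv a]

theorem Sl.one : Sl A k hco (1 : FF K (q * M)) 1 := by
  refine ⟨1, one_ne_zero, isU_one.of_eq ?_, isU_one.of_eq ?_⟩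
  · rw [map_one, one_mul]; rfl
  · rw [inv_one, mul_one, map_one, one_mul, map_one]; rfl

theorem Sl.pow {f : FF K (q * M)} {c : K} (hf : Sl A k hco f c) (n : ℕ) :
    Sl A k hco (f ^ n) (c ^ n) := by
  induction n with
  | zero => rw [pow_zero, pow_zero]; exact Sl.one
  | succ n ih => rw [pow_succ, pow_succ]; exact ih.mul hf

theorem Sl.unit {f : FF K (q * M)} {c : K} (hf : Sl A k hco f c) (u : Aˣ) :
    Sl A k hco f (c * algebraMap A K u) := by
  obtain ⟨a, ha, h1, h2⟩ := hf
  refine ⟨a, ha, h1, ((isU_C_unit (A := A) (K := K) (k := k) u⁻¹).mul h2).of_eq ?_⟩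
  have e : (algebraMap A K (↑u⁻¹ : A)) = (algebraMap A K u)⁻¹ := by
    apply eq_inv_of_mul_eq_one_left
    rw [← map_mul, Units.inv_mul, map_one]
  rw [e, ← mul_assoc, ← map_mul, mul_inv]
  congr 2
  ring

variable [CharP k q] (hk : Function.Surjective (algebraMap A k)) (hM : (M : k) ≠ 0)

variable (hco)

include hM in
theorem exists_sl {f : FF K (q * M)} (hf : f ≠ 0) : ∃ c : K, c ≠ 0 ∧ Sl A k hco f c := by
  obtain ⟨a, ha, h1⟩ := exists_scale_one (A := A) (k := k) hco hM hf
  have hwf : w K hco f ≠ 0 := fun h => hf (by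
    have := congrArg (w K hco) h
    rwa [w_w, map_zero] at this)
  obtain ⟨b, hb, h2⟩ := exists_scale_one (A := A) (k := k) hco hM hwf
  refine ⟨a / b, div_ne_zero ha hb, a, ha, h1, h2.of_eq ?_⟩
  congr 2
  field_simp

variable [Algebra A (FF K (q * M))] [IsScalarTower A K (FF K (q * M))]
  [Algebra A (FF k M)] [IsScalarTower A k (FF k M)]
  [FunField k (FF k M)] [FunField K (FF K M)] [FunField K (FF K (q * M))]

variable (K) in
/-- the function `j(q τ)^q - j` -/
def x0 : FF K (q * M) := w K hco (jF' K (q * M) ^ q - qe K q M (jF' K M))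

theorem w_x0 : w K hco (x0 K hco) = jF' K (q * M) ^ q - qe K q M (jF' K M) := w_w hco _

theorem x0_mem : x0 K hco ∈ WW A K k hco := w_mem_WW hco (dd_mem_WW hco)

include hk hM in
theorem x0_fst : πL A K k ⟨x0 K hco, (x0_mem (A := A) (k := k) hco).1⟩ ≠ 0 := by
  intro h
  have h1 := sred_w hco hk hM (dd_mem_WW (A := A) (K := K) (k := k) (M := M) hco)
  rw [sred_dd] at h1
  have h2 := congrArg Prod.fst h1
  have h3 : (sred K hco hk hM ⟨w K hco _, w_mem_WW hco (dd_mem_WW (A := A) (K := K) (k := k)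
    (M := M) hco)⟩).1 = 0 := Subtype.ext h
  rw [h3] at h2
  exact (fd k q M).δ_ne_zero h2.symm

include hk hM in
theorem wx0_mem : ∃ h : (w K hco (x0 K hco) : LaurentSeries K) ∈ WL A K k,
    πL A K k ⟨_, h⟩ = 0 := by
  refine ⟨(x0_mem (A := A) (k := k) hco).2, ?_⟩
  have h1 := sred_w hco hk hM (dd_mem_WW (A := A) (K := K) (k := k) (M := M) hco)
  rw [sred_dd] at h1
  have h2 := congrArg Prod.snd h1
  have h3 := congrArg (Subtype.val : FF k M → LaurentSeries k) h2
  exact h3

include hk in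
theorem red_eq_zero_of_not_unit {a : A} (ha : ¬ IsUnit a) : algebraMap A k a = 0 := by
  by_contra h
  exact ha (isUnit_of_red_ne_zero hk h)

include hk hM in
/-- `x0` has a nontrivial slope -/
theorem exists_sl_x0 : ∃ α : A, α ≠ 0 ∧ algebraMap A k α = 0 ∧
    Sl A k hco (x0 K hco) (algebraMap A K α) ∧
    ∀ r b : A, algebraMap A k r = 0 → algebraMap A k b = 0 → α = r * b → 
      Sl A k hco (x0 K hco + algebraMap K _ (algebraMap A K r)) (algebraMap A K r) := by
  have hw0 : w K hco (x0 K hco) ≠ 0 := by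
    intro h
    have h1 : x0 K hco = 0 := by
      have := congrArg (w K hco) h
      rwa [w_w, map_zero] at this
    refine x0_fst (A := A) (K := K) (k := k) (M := M) hco hk hM ?_
    have e : (⟨x0 K hco, (x0_mem (A := A) (K := K) (k := k) (M := M) hco).1⟩ : WL A K k) = 0 :=
      Subtype.ext (congrArg (Subtype.val : FF K (q * M) → LaurentSeries K) h1)
    exact (congrArg (πL A K k) e).trans (map_zero _)
  obtain ⟨c, hc, h2⟩ := exists_scale_one (A := A) (k := k) hco hM hw0
  obtain ⟨h3, h4⟩ := wx0_mem (A := A) (K := K) (k := k) (M := M) hco hk hM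
  have hcA : ¬ ∃ a : A, algebraMap A K a = c := by
    rintro ⟨a, rfl⟩
    obtain ⟨h5, h6⟩ := h2
    apply h6
    rw [πL_mul (const_mem_WL a) h3, h4, mul_zero]
  obtain ⟨α, hα, hα0⟩ := isU_C_inv (A := A) (k := k) hk (c := c⁻¹) (by rwa [inv_inv])
  have hαne : α ≠ 0 := by
    rintro rfl
    rw [map_zero] at hα
    exact inv_ne_zero hc hα.symm
  have hU0 : IsU A K k (x0 K hco : LaurentSeries K) :=
    ⟨(x0_mem (A := A) (K := K) (k := k) (M := M) hco).1,
      x0_fst (A := A) (K := K) (k := k) (M := M) hco hk hM⟩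
  have hcα : c = (algebraMap A K α)⁻¹ := by rw [hα, inv_inv]
  refine ⟨α, hαne, hα0, ⟨1, one_ne_zero, hU0.of_eq ?_, h2.of_eq ?_⟩, ?_⟩
  · rw [map_one, one_mul]
  · rw [one_mul, hcα]
  intro r b hr hb hrb
  have hr0 : algebraMap A K r ≠ 0 := by
    intro h
    apply hαne
    have : r = 0 := IsFractionRing.injective A K (h.trans (map_zero _).symm)
    rw [hrb, this, zero_mul]
  refine ⟨1, one_ne_zero, ?_, ?_⟩
  · obtain ⟨g1, g2⟩ := hU0
    have e : ((x0 K hco + algebraMap K _ (algebraMap A K r) : FF K (q * M)) : LaurentSeries K) =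
        (x0 K hco : LaurentSeries K) + HahnSeries.C (algebraMap A K r) := by
      rw [← algebraMap_eq_C]
      rfl
    rw [map_one, one_mul, e]
    refine ⟨add_mem g1 (const_mem_WL r), ?_⟩
    have e2 : (⟨_, add_mem g1 (const_mem_WL r)⟩ : WL A K k) = ⟨_, g1⟩ + ⟨_, const_mem_WL r⟩ := rfl
    rw [e2, map_add, πL_const, hr, map_zero, add_zero]
    exact g2
  · have e : (w K hco (x0 K hco + algebraMap K _ (algebraMap A K r)) : LaurentSeries K) =
        (w K hco (x0 K hco) : LaurentSeries K) + HahnSeries.C (algebraMap A K r) := by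
      have h := (w K hco).toRingEquiv.toRingHom.map_add (x0 K hco)
        (algebraMap K _ (algebraMap A K r))
      change w K hco (x0 K hco + algebraMap K _ (algebraMap A K r)) = w K hco (x0 K hco) +
        w K hco (algebraMap K _ (algebraMap A K r)) at h
      rw [h, AlgEquiv.commutes, ← algebraMap_eq_C]
      rfl
    obtain ⟨g1, g2⟩ := h2
    have e3 : HahnSeries.C (1 * (algebraMap A K r)⁻¹) *
        (w K hco (x0 K hco + algebraMap K _ (algebraMap A K r)) : LaurentSeries K) =
        HahnSeries.C (algebraMap A K b) * (HahnSeries.C c * (w K hco (x0 K hco) :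
          LaurentSeries K)) + 1 := by
      have hb0 : algebraMap A K b ≠ 0 := by
        intro h
        apply hαne
        have : b = 0 := IsFractionRing.injective A K (h.trans (map_zero _).symm)
        rw [hrb, this, mul_zero]
      have e4 : (algebraMap A K r)⁻¹ = algebraMap A K b * c := by
        rw [hcα, hrb, map_mul]
        field_simp
      have e5 : (HahnSeries.C (algebraMap A K r)⁻¹ : LaurentSeries K) *
          HahnSeries.C (algebraMap A K r) = 1 := by
        rw [← map_mul, inv_mul_cancel₀ hr0, map_one]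
      rw [e, one_mul, mul_add, e5, e4, map_mul]
      ring
    rw [e3]
    have g3 := mul_mem (const_mem_WL (K := K) (k := k) b) g1
    refine ⟨add_mem g3 (one_mem _), ?_⟩
    have e2 : (⟨_, add_mem g3 (one_mem _)⟩ : WL A K k) = ⟨_, g3⟩ + 1 := rfl
    rw [e2, map_add, πL_mul (const_mem_WL b) g1 g3, πL_const, hb, map_zero, zero_mul, map_one,
      zero_add]
    exact one_ne_zero

include hk hM in
/-- every slope is attained -/
theorem exists_of_slope (hrank : ∀ a c : A, algebraMap A k a = 0 → c ≠ 0 → ∃ n : ℕ, c ∣ a ^ n)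
    {c : K} (hc : c ≠ 0) : ∃ g : FF K (q * M), g ≠ 0 ∧ Sl A k hco g c := by
  classical
  obtain ⟨α, hα, hα0, hx0, hxr⟩ := exists_sl_x0 (A := A) (K := K) (k := k) (M := M) hco hk hM
  have hne : ∀ {g : FF K (q * M)} {c : K}, Sl A k hco g c → g ≠ 0 := by
    rintro g c ⟨a, ha, h1, h2⟩ rfl
    apply h1.ne_zero
    exact mul_zero _
  have key : ∀ c : A, c ≠ 0 → ∃ g : FF K (q * M), Sl A k hco g (algebraMap A K c) := by
    intro c hc
    have hex := hrank α c hα0 hc
    set n := Nat.find hex with hn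
    have hdvd : c ∣ α ^ n := Nat.find_spec hex
    rcases Nat.eq_zero_or_pos n with h0 | hpos
    · rw [h0, pow_zero] at hdvd
      obtain ⟨u, rfl⟩ := isUnit_of_dvd_one hdvd
      refine ⟨1, ?_⟩
      have := (Sl.one (A := A) (K := K) (k := k) (hco := hco)).unit u
      rwa [one_mul] at this
    · have hnd : ¬ c ∣ α ^ (n - 1) := Nat.find_min hex (by omega)
      obtain ⟨r, hr⟩ := (ValuationRing.dvd_total c (α ^ (n - 1))).resolve_left hnd
      have hrnu : ¬ IsUnit r := by
        intro hu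
        obtain ⟨u, rfl⟩ := hu
        apply hnd
        refine ⟨↑u⁻¹, ?_⟩
        rw [hr, mul_assoc, Units.mul_inv, mul_one]
      have hrα : r ∣ α := by
        have h1 : α ^ (n - 1) * r ∣ α ^ (n - 1) * α := by
          rw [← hr, ← pow_succ, Nat.sub_add_cancel hpos]
          exact hdvd
        exact (mul_dvd_mul_iff_left (pow_ne_zero _ hα)).1 h1
      obtain ⟨b, hb⟩ := hrα
      by_cases hbu : IsUnit b
      · obtain ⟨u, rfl⟩ := hbu
        refine ⟨x0 K hco ^ (n - 1) * x0 K hco, ?_⟩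
        have h2 := (hx0.pow (n - 1)).mul (hx0.unit u⁻¹)
        have e : algebraMap A K α ^ (n - 1) * (algebraMap A K α * algebraMap A K ↑u⁻¹) =
            algebraMap A K c := by
          rw [hr, map_mul, map_pow]
          congr 1
          rw [hb, ← map_mul, mul_assoc, Units.mul_inv, mul_one]
        rwa [e] at h2
      · refine ⟨x0 K hco ^ (n - 1) * (x0 K hco + algebraMap K _ (algebraMap A K r)), ?_⟩
        have h2 := (hx0.pow (n - 1)).mul (hxr r b (red_eq_zero_of_not_unit hk hrnu)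
          (red_eq_zero_of_not_unit hk hbu) hb)
        have e : algebraMap A K α ^ (n - 1) * algebraMap A K r = algebraMap A K c := by
          rw [hr, map_mul, map_pow]
        rwa [e] at h2
  rcases ValuationRing.isInteger_or_isInteger A c with ⟨a, ha⟩ | ⟨a, ha⟩
  · obtain ⟨g, hg⟩ := key a (by
      rintro rfl
      rw [map_zero] at ha
      exact hc ha.symm)
    rw [ha] at hg
    exact ⟨g, hne hg, hg⟩
  · obtain ⟨g, hg⟩ := key a (by
      rintro rfl
      rw [map_zero] at ha
      exact inv_ne_zero hc ha.symm)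
    rw [ha] at hg
    have := hg.inv
    rw [inv_inv] at this
    exact ⟨_, hne this, this⟩

include hM in
/-- **scaling modulo `m`-th powers** -/
theorem exists_scale_kummer
    (hrank : ∀ a c : A, algebraMap A k a = 0 → c ≠ 0 → ∃ n : ℕ, c ∣ a ^ n) {m : ℕ} (hm : m ≠ 0)
    {f : FF K (q * M)} (hf : f ≠ 0) : ∃ g : FF K (q * M), g ≠ 0 ∧
      ∃ hW : f * g ^ m ∈ WW A K k hco, (sred K hco hk hM ⟨_, hW⟩).1 ≠ 0 ∧
        (sred K hco hk hM ⟨_, hW⟩).2 ≠ 0 := by
  obtain ⟨c, hc, hs⟩ := exists_sl (A := A) (k := k) hco hM hf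
  obtain ⟨d, hd⟩ := IsAlgClosed.exists_pow_nat_eq c (Nat.pos_of_ne_zero hm)
  have hd0 : d ≠ 0 := by
    rintro rfl
    rw [zero_pow hm] at hd
    exact hc hd.symm
  obtain ⟨g, hg, hgs⟩ := exists_of_slope (A := A) (K := K) (k := k) (M := M) hco hk hM hrank
    (inv_ne_zero hd0)
  obtain ⟨a, ha, h1, h2⟩ := hs.mul (hgs.pow m)
  have e : c * d⁻¹ ^ m = 1 := by
    rw [inv_pow, hd, mul_inv_cancel₀ hc]
  rw [e, inv_one, mul_one] at h2
  obtain ⟨a', ha'⟩ := IsAlgClosed.exists_pow_nat_eq a (Nat.pos_of_ne_zero hm)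
  have ha0 : a' ≠ 0 := by
    rintro rfl
    rw [zero_pow hm] at ha'
    exact ha ha'.symm
  have ha0' : algebraMap K (FF K (q * M)) a' ≠ 0 := (_root_.map_ne_zero _).2 ha0
  have e1 : f * (algebraMap K _ a' * g) ^ m = algebraMap K _ a * (f * g ^ m) := by
    rw [mul_pow, ← map_pow, ha']
    ring
  have h1' : IsU A K k ((f * (algebraMap K _ a' * g) ^ m : FF K (q * M)) : LaurentSeries K) :=
    h1.of_eq (by rw [e1, val_algebraMap_mul])
  have h2' : IsU A K k ((w K hco (f * (algebraMap K _ a' * g) ^ m) : FF K (q * M)) :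
      LaurentSeries K) := h2.of_eq (by rw [e1, w_algebraMap_mul])
  obtain ⟨g1, g2⟩ := h1'
  obtain ⟨g3, g4⟩ := h2'
  refine ⟨_, mul_ne_zero ha0' hg, ⟨g1, g3⟩, ?_, ?_⟩
  · intro h
    exact g2 (congrArg Subtype.val h)
  · intro h
    exact g4 (congrArg Subtype.val h)

end Main

end Fermat.Agent.Nod
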