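import Fermat.Agent.Nod.GalAut
import Fermat.Agent.Nod.ScaleM
import Fermat.Agent.Spec.Level
import Fermat.Agent.RedMod.Qbar
import Fermat.Agent.RedMod.Bar
import Fermat.Prelude.Def_EllipticCurve_FrobeniusTrace

/-!
# Inertia acts unipotently on Kummer classes of level `q M`
-/

set_option autoImplicit false
set_option linter.style.haveILetI false
set_option linter.unusedSectionVars false

noncomputable section

namespace Fermat.Agent.Nod

open ModularCurve Polynomial IntermediateField Fermat.Agent.ModPoly Fermat.Agent.Red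
  Fermat.Agent.RedMod Fermat.Agent.Cusp Fermat.Agent.SemiSt AlgebraicCurve Fermat.Agent.Curve
  Fermat.Agent.RR

section Dec

variable {K : Type*} [Field K] [Algebra ℚ K] {A : ValuationSubring K}

/-- the automorphism attached to an element of the decomposition group -/
def decAut (s : A.decompositionSubgroup ℚ) : RedAut A K (IsLocalRing.ResidueField A) where
  τ := MulSemiringAction.toRingEquiv (A.decompositionSubgroup ℚ) A s
  σ := ((s : K ≃ₐ[ℚ] K) : K ≃+* K)
  σb := MulSemiringAction.toRingEquiv (A.decompositionSubgroup ℚ) (IsLocalRing.ResidueField A) s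
  h1 _ := rfl
  h2 _ := rfl

theorem exists_decAut_inertia {σ : K ≃ₐ[ℚ] K} (h : σ ∈ A.inertiaSubgroupIn ℚ) :
    ∃ R : RedAut A K (IsLocalRing.ResidueField A), R.σ = (σ : K ≃+* K) ∧ R.σb = 1 := by
  obtain ⟨s, hs, rfl⟩ := h
  refine ⟨decAut s, rfl, ?_⟩
  apply RingEquiv.ext
  intro x
  exact RingEquiv.congr_fun (MonoidHom.mem_ker.mp hs) x

theorem exists_decAut_frob {q : ℕ} [Fact q.Prime] [CharP (IsLocalRing.ResidueField A) q]
    [PerfectRing (IsLocalRing.ResidueField A) q]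
    {σ : K ≃ₐ[ℚ] K} (h : A.IsFrobeniusAt σ q) :
    ∃ R : RedAut A K (IsLocalRing.ResidueField A), R.σ = (σ : K ≃+* K) ∧
      R.σb = frobeniusEquiv (IsLocalRing.ResidueField A) q := by
  refine ⟨decAut ⟨σ, h.mem_decompositionSubgroup⟩, rfl, ?_⟩
  apply RingEquiv.ext
  intro x
  rw [frobeniusEquiv_apply]
  exact h.smul_residue_eq x

/-- composition -/
def RedAut.comp {A K k : Type*} [CommRing A] [Field K] [Algebra A K] [Field k] [Algebra A k]
    (R R' : RedAut A K k) : RedAut A K k where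
  τ := R'.τ.trans R.τ
  σ := R.σ * R'.σ
  σb := R.σb * R'.σb
  h1 a := by
    change R.σ (R'.σ _) = _
    rw [R'.h1, R.h1]
    rfl
  h2 a := by
    change R.σb (R'.σb _) = _
    rw [R'.h2, R.h2]
    rfl

end Dec

theorem exists_pow_ne (k : Type*) [Field k] [IsAlgClosed k] {n : ℕ} (hn : 1 < n) :
    ∃ b : k, b ^ n ≠ b := by
  by_contra hcon
  push Not at hcon
  haveI : Infinite k := IsAlgClosed.instInfinite
  have h0 : (X ^ n - X : k[X]) ≠ 0 := FiniteField.X_pow_card_sub_X_ne_zero k hn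
  apply h0
  apply Polynomial.funext
  intro x
  simp [hcon x]

section Alg

variable {F : Type*} [Field F]

theorem kummer_identity (S T : F →+* F) (f g : F) (m : ℕ) :
    T (S (f * g ^ m) / (f * g ^ m)) / (S (f * g ^ m) / (f * g ^ m)) =
      (T (S f / f) / (S f / f)) * (T (S g / g) / (S g / g)) ^ m := by
  simp only [map_div₀, map_mul, map_pow]
  simp only [div_eq_mul_inv, mul_inv, mul_pow, inv_pow, inv_inv]
  ring

end Alg

section Main

local notation "Q̄" => AlgebraicClosure ℚ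

attribute [local instance] Spec.algFF

variable {A : ValuationSubring (AlgebraicClosure ℚ)} {q M : ℕ} [hq : Fact q.Prime] [NeZero M]

/-- **Inertia at `q` acts unipotently on Kummer classes of level `q M`.** -/
theorem unip_FF (hA : A.LiesOverPrime q) (hqM : ¬ q ∣ M) {σ τ : Q̄ ≃ₐ[ℚ] Q̄}
    (hσ : σ ∈ A.inertiaSubgroupIn ℚ) (hτ : τ ∈ A.inertiaSubgroupIn ℚ) {m : ℕ} (hm : ¬ q ∣ m)
    {f : FF Q̄ (q * M)} (hf : f ≠ 0) (hD : ∀ v : Place Q̄ (FF Q̄ (q * M)), (m : ℤ) ∣ v.ord f) :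
    ∃ x : FF Q̄ (q * M), x ^ m = act (q * M) (τ : Q̄ ≃+* Q̄) (act (q * M) (σ : Q̄ ≃+* Q̄) f / f) /
      (act (q * M) (σ : Q̄ ≃+* Q̄) f / f) := by
  set k := IsLocalRing.ResidueField A with hkdef
  haveI : CharP k q := RedMod.charP_residue hA
  have hco : q.Coprime M := (Nat.Prime.coprime_iff_not_dvd hq.out).2 hqM
  have hk : Function.Surjective (algebraMap A k) := IsLocalRing.residue_surjective
  have hM : (M : k) ≠ 0 := natCast_residue_ne_zero hA hqM
  have hm' : (m : k) ≠ 0 := natCast_residue_ne_zero hA hm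
  have hm0 : m ≠ 0 := by rintro rfl; exact hm (dvd_zero q)
  haveI := funField_FF (k := k) (M := M) hM
  haveI := funField_FF (k := Q̄) (M := M) (natCast_ne_zero_K Q̄ M)
  haveI := funField_FF (k := Q̄) (M := q * M) (natCast_ne_zero_K Q̄ (q * M))
  have hgen := Spec.rrGenus_eq_level (A := A) (K := Q̄) exists_ιC.some hk hM
  have hrank : ∀ a c : A, algebraMap A k a = 0 → c ≠ 0 → ∃ n : ℕ, c ∣ a ^ n :=
    fun a c => rank_one hA a c
  have hq1 := hq.out.one_lt
  obtain ⟨b', hb'⟩ := exists_pow_ne k (n := q * q) (by nlinarith)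
  obtain ⟨b, rfl⟩ := hk b'
  have H := nodMod_ng (K := Q̄) hco hk hM hgen b hb'
  obtain ⟨g, hg, hW, h1, h2⟩ := exists_scale_kummer (A := A) (k := k) hco hk hM hrank hm0 hf
  obtain ⟨R, hR, hR1⟩ := exists_decAut_inertia hσ
  obtain ⟨R', hR', hR1'⟩ := exists_decAut_inertia hτ
  have hfix := fix_of_eq_one (q := q) (M := M) hR1
  have hfix' := fix_of_eq_one (q := q) (M := M) hR1'
  have hΘ := nodAut_isInertial (K := Q̄) hco hk hM b R hR1 hfix
  have hΘ' := nodAut_isInertial (K := Q̄) hco hk hM b R' hR1' hfix'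
  obtain ⟨x, hx⟩ := NodAut.IsInertial.unip (ng_hspan hco hk hM b) H (exists_nonunit hA) hrank
    hΘ hΘ' hm' (f := f * g ^ m) hW h1 h2 (by
      intro v
      rw [v.ord_mul hf (pow_ne_zero _ hg), ord_pow]
      exact dvd_add (hD v) (dvd_mul_right _ _))
  have hx' : x ^ m = act (q * M) R'.σ (act (q * M) R.σ (f * g ^ m) / (f * g ^ m)) /
      (act (q * M) R.σ (f * g ^ m) / (f * g ^ m)) := hx
  have hid := kummer_identity (act (q * M) R.σ : FF Q̄ (q * M) ≃+* FF Q̄ (q * M)).toRingHom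
    (act (q * M) R'.σ : FF Q̄ (q * M) ≃+* FF Q̄ (q * M)).toRingHom f g m
  have hid' : act (q * M) R'.σ (act (q * M) R.σ (f * g ^ m) / (f * g ^ m)) /
      (act (q * M) R.σ (f * g ^ m) / (f * g ^ m)) =
      (act (q * M) R'.σ (act (q * M) R.σ f / f) / (act (q * M) R.σ f / f)) *
      (act (q * M) R'.σ (act (q * M) R.σ g / g) / (act (q * M) R.σ g / g)) ^ m := hid
  rw [hid', hR, hR'] at hx'
  have hne : act (q * M) (τ : Q̄ ≃+* Q̄) (act (q * M) (σ : Q̄ ≃+* Q̄) g / g) /
      (act (q * M) (σ : Q̄ ≃+* Q̄) g / g) ≠ 0 := by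
    have e1 : act (q * M) (σ : Q̄ ≃+* Q̄) g ≠ 0 := (_root_.map_ne_zero _).2 hg
    exact div_ne_zero ((_root_.map_ne_zero _).2 (div_ne_zero e1 hg)) (div_ne_zero e1 hg)
  refine ⟨x / (act (q * M) (τ : Q̄ ≃+* Q̄) (act (q * M) (σ : Q̄ ≃+* Q̄) g / g) /
      (act (q * M) (σ : Q̄ ≃+* Q̄) g / g)), ?_⟩
  rw [div_pow, hx', mul_div_cancel_right₀ _ (pow_ne_zero _ hne)]

end Main

end Fermat.Agent.Nod
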