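import Fermat.Agent.Nod.Shift
import Fermat.Agent.SemiSt.Model
import Fermat.Agent.Cusp.Places
import Fermat.Prelude.Thm_ModularCurve_coeff_jqModC_neg_one
import Fermat.Prelude.Thm_ModularCurve_coeff_jqModC_pow_of_lt
import Fermat.Prelude.Thm_ModularCurve_coeff_jqModC_pow_self

/-!
# Orders of `j` and `j(q τ)` at the cusps
-/

set_option autoImplicit false
set_option linter.style.haveILetI false
set_option linter.unusedSectionVars false

noncomputable section

namespace Fermat.Agent.Nod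

open ModularCurve Polynomial IntermediateField Fermat.Agent.ModPoly Fermat.Agent.Red
  Fermat.Agent.RedMod Fermat.Agent.Cusp Fermat.Agent.SemiSt AlgebraicCurve Fermat.Agent.Curve
  Fermat.Agent.RR

section Diff

variable (k : Type*) [Field k] (q : ℕ) [NeZero q]

theorem coeff_diff {n : ℤ} (hn : n ≤ -(q : ℤ)) :
    (jqModC k ^ q - qExpand k q (jqModC k)).coeff n = 0 := by
  have hq : (0 : ℤ) < q := by exact_mod_cast NeZero.pos q
  rw [HahnSeries.coeff_sub]
  rcases hn.lt_or_eq with hlt | rfl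
  · rw [coeff_jqModC_pow_of_lt k hlt]
    by_cases hd : (q : ℤ) ∣ n
    · obtain ⟨m, rfl⟩ := hd
      have hm : m < -1 := by nlinarith
      rw [qExpand_coeff_mul, coeff_jqModC_of_lt k hm, sub_self]
    · rw [qExpand_coeff_of_not_dvd q _ hd, sub_self]
  · rw [coeff_jqModC_pow_self k q]
    have e : -(q : ℤ) = q * (-1) := by ring
    rw [e, qExpand_coeff_mul, coeff_jqModC_neg_one, sub_self]

theorem order_diff (h : jqModC k ^ q - qExpand k q (jqModC k) ≠ 0) :
    -((q : ℤ) - 1) ≤ (jqModC k ^ q - qExpand k q (jqModC k)).order := by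
  by_contra hlt
  push Not at hlt
  have h1 := coeff_diff k q (n := (jqModC k ^ q - qExpand k q (jqModC k)).order) (by omega)
  exact coeff_order_ne' h h1

end Diff

section Main

variable {K : Type*} [Field K] [IsAlgClosed K] {q M : ℕ} [hq : Fact q.Prime] [NeZero M]

theorem qe_jF_eq {h : ((pp q * 1 : ℕ+) : ℕ) ∣ q * M} :
    qe K q M (jF' K M) = jm K (pp q * 1) h := by
  have h' : ((pn q * 1 : ℕ+) : ℕ) ∣ q * M := by
    rw [mul_one, coe_pn]; exact dvd_mul_right _ _
  have h1 := qe_jm (k := K) (Q := q) (M := M) (d := 1) (by rw [PNat.one_coe]; exact one_dvd M) h'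
  refine h1.trans (Subtype.ext ?_)
  have : (pn q : ℕ+) = pp q := by
    apply PNat.eq
    rw [coe_pn, coe_pp]
  change Jc 1 (pn q * 1) = Jc 1 (pp q * 1)
  rw [this]

/-- The orders of `j` and `j(q τ)` at the cusps. -/
theorem pole_cases (hN : ((q * M : ℕ) : K) ≠ 0) (v : Place K (FF K (q * M)))
    (hv : v.ord (jF' K (q * M)) < 0) :
    (v.ord (jF' K (q * M)) = q * v.ord (qe K q M (jF' K M))) ∨
    (v.ord (qe K q M (jF' K M)) = q * v.ord (jF' K (q * M)) ∧
      Ge v (((q : ℤ) - 1) * v.ord (jF' K (q * M)))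
        (jF' K (q * M) ^ q - qe K q M (jF' K M))) := by
  haveI := finite_Emb (k := K) (N := q * M) hN
  letI := Fintype.ofFinite (Emb K (q * M))
  obtain ⟨pl, h1, -, h3, -, -⟩ := exists_places (k := K) (N := q * M) hN
  obtain ⟨τ, rfl⟩ := h3 v hv
  set g : ℤ := (Nat.gcd (q * M) (τ.s ^ 2) : ℤ) with hg
  have hg0 : 0 < g := by
    rw [hg]
    exact_mod_cast Nat.gcd_pos_of_pos_left _ (NeZero.pos (q * M))
  have hpm : ((pp q * 1 : ℕ+) : ℕ) ∣ q * M := by
    rw [mul_one, coe_pp]; exact dvd_mul_right _ _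
  obtain ⟨c, e, s, κ, h⟩ := τ.exists_data hN
  have hat := h 1 (one_dvd _)
  obtain ⟨hc1, he1⟩ := τ.c_one hat.map_j
  have hτj : τ.1 (jF' K (q * M)) = Jc 1 (pn (q * M)) := τ.2
  have hj0 : jF' K (q * M) ≠ 0 := jF_ne_zero
  have hq0 : qe K q M (jF' K M) ≠ 0 := by
    intro h0
    have := (qe K q M).toRingHom.injective (h0.trans (map_zero _).symm)
    exact jF_ne_zero this
  have oj := h1 τ _ hj0
  have oq := h1 τ _ hq0
  rw [hτj, order_Jc, coe_pn, ← hg] at oj
  rw [← hg] at oq
  have hqj := qe_jF_eq (K := K) (q := q) (M := M) (h := hpm)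
  rcases hat.next (p := q) hpm with ⟨κ', h'⟩ | ⟨c', e', κ', hc', he', h'⟩
  · right
    have hτq : τ.1 (qe K q M (jF' K M)) = Jc 1 (pp q * pn (q * M)) := by
      rw [hqj]
      refine h'.map_j.trans ?_
      change Jc _ _ = _
      rw [hc1, he1, one_pow]
    rw [hτq, order_Jc, PNat.mul_coe, coe_pp, coe_pn] at oq
    have e1 : (pl τ).ord (qe K q M (jF' K M)) = q * (pl τ).ord (jF' K (q * M)) := by
      apply mul_left_cancel₀ hg0.ne'
      rw [← oq]
      push_cast at oj ⊢
      rw [show g * ((q : ℤ) * (pl τ).ord (jF' K (q * M))) =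
        q * (g * (pl τ).ord (jF' K (q * M))) by ring, ← oj]
      ring
    refine ⟨e1, ?_⟩
    rcases eq_or_ne (jF' K (q * M) ^ q - qe K q M (jF' K M)) 0 with h0 | h0
    · rw [h0]; exact Ge.zero _ _
    right
    have o3 := h1 τ _ h0
    have hτd : τ.1 (jF' K (q * M) ^ q - qe K q M (jF' K M)) =
        Sb 1 (pn (q * M)) (jqModC K ^ q - qExpand K q (jqModC K)) := by
      rw [map_sub, map_pow, hτj, hτq, map_sub, map_pow, ← Sb_one_eq q (pp q) (coe_pp q),
        ← Jc_one_one, Sb_Jc, Sb_Jc, Sb_Jc]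
      simp only [one_pow, mul_one]
      rw [mul_comm (pp q)]
    have hd0 : jqModC K ^ q - qExpand K q (jqModC K) ≠ 0 := by
      intro h00
      rw [h00, map_zero] at hτd
      exact h0 ((map_eq_zero _).1 hτd)
    rw [hτd, order_Sb, ← hg, coe_pn] at o3
    have h5 := order_diff K q hd0
    have hqM : (0 : ℤ) < ((q * M : ℕ) : ℤ) := by exact_mod_cast NeZero.pos (q * M)
    apply le_of_mul_le_mul_left _ hg0
    rw [← o3]
    have h6 : g * (((q : ℤ) - 1) * (pl τ).ord (jF' K (q * M))) =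
        ((q : ℤ) - 1) * (g * (pl τ).ord (jF' K (q * M))) := by ring
    rw [h6, ← oj]
    nlinarith
  · left
    have hτq : τ.1 (qe K q M (jF' K M)) = Jc c' e' := by
      rw [hqj]
      exact h'.map_j
    rw [hτq, order_Jc] at oq
    have he2 : ((q * M : ℕ) : ℤ) = q * (e' : ℕ) := by
      have := congrArg (fun n : ℕ+ => ((n : ℕ) : ℤ)) he'
      rw [he1] at this
      simpa [coe_pn, coe_pp] using this
    apply mul_left_cancel₀ hg0.ne'
    rw [← oj, show g * ((q : ℤ) * (pl τ).ord (qe K q M (jF' K M))) =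
        q * (g * (pl τ).ord (qe K q M (jF' K M))) by ring, ← oq, he2]
    ring

/-- `j(q τ)` is regular where `j` is. -/
theorem ge_qe_jF (v : Place K (FF K (q * M))) (hv : 0 ≤ v.ord (jF' K (q * M))) :
    0 ≤ v.ord (qe K q M (jF' K M)) := by
  let C' : Subalgebra K (FF K (q * M)) :=
    { v.toValuationSubring.toSubring with
      algebraMap_mem' := v.algebraMap_mem' }
  have hpm : ((pp q * 1 : ℕ+) : ℕ) ∣ q * M := by
    rw [mul_one, coe_pp]; exact dvd_mul_right _ _
  rw [qe_jF_eq (h := hpm)]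
  apply ord_nonneg_of_mem
  refine jm_mem_C C' ?_ (mem_of_ord_nonneg v hv) (pp q * 1) hpm
  intro w hw
  have h1 : IsIntegral v.toValuationSubring w := hw
  obtain ⟨y, hy⟩ := IsIntegrallyClosed.isIntegral_iff.1 h1
  rw [← hy]; exact y.2

end Main

end Fermat.Agent.Nod
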