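import Fermat.Agent.Nod.Glue

/-!
# Subalgebras between a glued algebra and its normalisation
-/

set_option autoImplicit false
set_option linter.style.haveILetI false
set_option linter.unusedSectionVars false

namespace Fermat.Agent.Nod

open AlgebraicCurve Fermat.Agent.Curve Fermat.Agent.RR Module

variable {k E E₁ E₂ : Type*} [Field k] [Field E] [Algebra k E] [Field E₁] [Algebra k E₁]
  [Field E₂] [Algebra k E₂] [IsAlgClosed k] [FunField k E₁] [FunField k E₂] [FunField k E]

/-- regular away from the poles of `t` -/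
def Reg (k : Type*) {E : Type*} [Field k] [Field E] [Algebra k E] (t x : E) : Prop :=
  ∀ v : Place k E, 0 ≤ v.ord t → Ge v 0 x

namespace Reg

variable {t x y : E}

omit [IsAlgClosed k] [FunField k E]

theorem add (hx : Reg k t x) (hy : Reg k t y) : Reg k t (x + y) :=
  fun v hv => (hx v hv).add (hy v hv)

theorem sub (hx : Reg k t x) (hy : Reg k t y) : Reg k t (x - y) :=
  fun v hv => (hx v hv).sub (hy v hv)

theorem mul (hx : Reg k t x) (hy : Reg k t y) : Reg k t (x * y) :=
  fun v hv => ((hx v hv).mul (hy v hv)).mono (by norm_num)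

theorem smul (c : k) (hx : Reg k t x) : Reg k t (c • x) :=
  fun v hv => (hx v hv).smul c

theorem one (t : E) : Reg k t 1 := fun v _ => Ge.one v

theorem algebraMap (t : E) (c : k) : Reg k t (algebraMap k E c) := fun v _ => Ge.algebraMap v c

theorem sum {ι : Type*} (s : Finset ι) {f : ι → E} (h : ∀ i ∈ s, Reg k t (f i)) :
    Reg k t (∑ i ∈ s, f i) := fun v hv => Ge.sum s fun i hi => h i hi v hv

end Reg

section PZ

/-- `a P + b Z`. -/
noncomputable def DD (k : Type*) {E : Type*} [Field k] [IsAlgClosed k] [Field E] [Algebra k E]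
    [FunField k E] (t : E) (a b : ℕ) : Divisor k E :=
  a • poleDiv k t + b • zeroDiv k t

theorem DD_apply (t : E) (a b : ℕ) (v : Place k E) :
    DD k t a b v = a * max (-v.ord t) 0 + b * max (v.ord t) 0 := by
  rw [DD, Finsupp.add_apply, Finsupp.smul_apply, Finsupp.smul_apply, poleDiv_apply, zeroDiv_apply]
  simp

theorem DD_mono (t : E) {a b a' b' : ℕ} (ha : a ≤ a') (hb : b ≤ b') : DD k t a b ≤ DD k t a' b' := by
  intro v
  rw [DD_apply, DD_apply]
  have h1 : (a : ℤ) ≤ a' := by exact_mod_cast ha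
  have h2 : (b : ℤ) ≤ b' := by exact_mod_cast hb
  have h3 := mul_le_mul_of_nonneg_right h1 (le_max_right (-v.ord t) 0)
  have h4 := mul_le_mul_of_nonneg_right h2 (le_max_right (v.ord t) 0)
  linarith

theorem DD_eq_zero {t : E} {v : Place k E} (hv : v.ord t = 0) (a b : ℕ) : DD k t a b v = 0 := by
  rw [DD_apply, hv]; simp

theorem degree_DD {t : E} (ht : Transcendental k t) (a b : ℕ) :
    Divisor.degree (DD k t a b) = (a + b) * Module.finrank (IntermediateField.adjoin k {t}) E := by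
  rw [DD, map_add, map_nsmul, map_nsmul, degree_poleDiv ht, degree_zeroDiv ht]
  simp only [nsmul_eq_mul]
  ring

theorem finrank_pos {t : E} (ht : Transcendental k t) :
    0 < Module.finrank (IntermediateField.adjoin k {t}) E := by
  haveI := fd (K := k) ht
  exact Module.finrank_pos

theorem reg_of_mem_DD {t x : E} {a : ℕ} (hx : x ∈ riemannRochSpace (DD k t a 0)) :
    Reg k t x := by
  intro v hv
  refine (mem_L.1 hx v).mono ?_
  rw [DD_apply, max_eq_right (by linarith)]
  simp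

/-- multiplication by powers of `t` -/
theorem mul_mem_L_DD {t : E} {x : E} {a b : ℕ} (n : ℕ)
    (hx : x ∈ riemannRochSpace (DD k t a (b + n))) :
    t ^ n * x ∈ riemannRochSpace (DD k t (a + n) b) := by
  rw [mem_L] at hx ⊢
  intro v
  have h1 := (Ge.of_le (le_refl (v.ord (t ^ n)))).mul (hx v)
  refine h1.mono ?_
  rw [ord_pow, DD_apply, DD_apply]
  push_cast
  rcases le_total 0 (v.ord t) with hv | hv
  · rw [max_eq_right (by linarith), max_eq_left hv]
    linarith
  · rw [max_eq_left (by linarith), max_eq_right hv]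
    linarith

theorem exists_mem_DD {t x : E} (ht : Transcendental k t) (hx : Reg k t x) :
    ∃ n : ℕ, x ∈ riemannRochSpace (DD k t n 0) := by
  classical
  have ht0 : t ≠ 0 := fun h => ht (h ▸ isAlgebraic_zero)
  let S := (finite_ord (K := k) ht0).toFinset
  refine ⟨∑ v ∈ S, (v.ord x).natAbs, ?_⟩
  rw [mem_L]
  intro v
  rcases le_or_gt 0 (v.ord t) with hv | hv
  · refine (hx v hv).mono ?_
    rw [DD_apply, max_eq_right (by linarith)]
    simp
  · right
    rw [DD_apply, max_eq_left (by linarith)]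
    have hmem : v ∈ S := by
      simp only [S, Set.Finite.mem_toFinset]
      exact hv.ne
    have h1 : (v.ord x).natAbs ≤ ∑ v ∈ S, (v.ord x).natAbs :=
      Finset.single_le_sum (f := fun v : Place k E => (v.ord x).natAbs)
        (fun _ _ => Nat.zero_le _) hmem
    set s : ℕ := ∑ v ∈ S, (v.ord x).natAbs with hs
    have h3 : -v.ord x ≤ s := by omega
    have h4 : (s : ℤ) * 1 ≤ s * -v.ord t :=
      mul_le_mul_of_nonneg_left (by omega) (by positivity)
    simp only [Nat.cast_zero, zero_mul, add_zero]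
    linarith

end PZ

/-- **Classification** of algebras between the glued algebra and the normalisation. -/
theorem mem_iff_of_glue {ι : Type*} [Finite ι] (𝒩 : Nodes k E₁ E₂ ι) {t₁ : E₁} {t₂ : E₂}
    (ht₁ : Transcendental k t₁) (ht₂ : Transcendental k t₂)
    (hv : ∀ j, (𝒩.v j).ord t₁ = 0) (hw : ∀ j, (𝒩.w j).ord t₂ = 0)
    (B : Subalgebra k (E₁ × E₂))
    (h1 : ∀ r ∈ B, Reg k t₁ r.1 ∧ Reg k t₂ r.2)
    (h2 : ∀ r : E₁ × E₂, Reg k t₁ r.1 → Reg k t₂ r.2 → r ∈ glue 𝒩 1 → r ∈ B)
    {S : Set ι} (hS : ∀ j, j ∈ S ↔ ∀ r ∈ B, val (𝒩.v j) r.1 = val (𝒩.w j) r.2) (r : E₁ × E₂) :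
    r ∈ B ↔ Reg k t₁ r.1 ∧ Reg k t₂ r.2 ∧ r ∈ glue (𝒩.restrict S) 1 := by
  classical
  haveI := Fintype.ofFinite ι
  have hgv : ∀ {x : E₁}, Reg k t₁ x → ∀ j, Ge (𝒩.v j) 0 x := fun hx j => hx _ (hv j).ge
  have hgw : ∀ {x : E₂}, Reg k t₂ x → ∀ j, Ge (𝒩.w j) 0 x := fun hx j => hx _ (hw j).ge
  constructor
  · intro hr
    obtain ⟨h3, h4⟩ := h1 r hr
    refine ⟨h3, h4, fun j => ⟨hgv h3 _, hgw h4 _, ?_⟩⟩
    rw [Pi.one_apply, one_mul]
    exact (hS j).1 j.2 r hr
  rintro ⟨hr1, hr2, hr3⟩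
  -- idempotent-like elements
  obtain ⟨c₁, hc₁⟩ := exists_riemann (K := k) (F := E₁)
  obtain ⟨c₂, hc₂⟩ := exists_riemann (K := k) (F := E₂)
  have hex1 : ∀ j, ∃ e : E₁, Reg k t₁ e ∧ ∀ i, val (𝒩.v i) e = if i = j then 1 else 0 := by
    intro j
    obtain ⟨x, hx, hx'⟩ := exists_val_of_degree 𝒩.v 𝒩.hv (g := rrGenus k E₁) (c := c₁) hc₁
      (DD k t₁ (c₁ + Fintype.card ι).toNat 0) (fun j => DD_eq_zero (hv j) _ _)
      (by
        rw [degree_DD ht₁]
        have h5 : (1 : ℤ) ≤ Module.finrank (IntermediateField.adjoin k {t₁}) E₁ := by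
          exact_mod_cast finrank_pos ht₁
        have h6 := Int.self_le_toNat (c₁ + Fintype.card ι)
        have h7 : (0 : ℤ) ≤ (c₁ + Fintype.card ι).toNat := by positivity
        push_cast
        nlinarith) (fun i => if i = j then 1 else 0)
    exact ⟨x, reg_of_mem_DD hx, hx'⟩
  have hex2 : ∀ j, ∃ e : E₂, Reg k t₂ e ∧ ∀ i, val (𝒩.w i) e = if i = j then 1 else 0 := by
    intro j
    obtain ⟨x, hx, hx'⟩ := exists_val_of_degree 𝒩.w 𝒩.hw (g := rrGenus k E₂) (c := c₂) hc₂
      (DD k t₂ (c₂ + Fintype.card ι).toNat 0) (fun j => DD_eq_zero (hw j) _ _)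
      (by
        rw [degree_DD ht₂]
        have h5 : (1 : ℤ) ≤ Module.finrank (IntermediateField.adjoin k {t₂}) E₂ := by
          exact_mod_cast finrank_pos ht₂
        have h6 := Int.self_le_toNat (c₂ + Fintype.card ι)
        have h7 : (0 : ℤ) ≤ (c₂ + Fintype.card ι).toNat := by positivity
        push_cast
        nlinarith) (fun i => if i = j then 1 else 0)
    exact ⟨x, reg_of_mem_DD hx, hx'⟩
  choose e he1 he2 using hex1
  choose f hf1 hf2 using hex2
  have hs : ∀ j, j ∉ S → ∃ s ∈ B, ∀ i, val (𝒩.v i) s.1 = (if i = j then 1 else 0) ∧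
      val (𝒩.w i) s.2 = 0 := by
    intro j hj
    rw [hS] at hj
    push Not at hj
    obtain ⟨r₀, hr₀, hne⟩ := hj
    obtain ⟨h3, h4⟩ := h1 r₀ hr₀
    have hef : ((e j, f j) : E₁ × E₂) ∈ B := by
      apply h2 _ (he1 j) (hf1 j)
      intro i
      refine ⟨hgv (he1 j) i, hgw (hf1 j) i, ?_⟩
      change val (𝒩.v i) (e j) = 1 * val (𝒩.w i) (f j)
      rw [he2, hf2, one_mul]
    set c := val (𝒩.w j) r₀.2 with hc
    set d := val (𝒩.v j) r₀.1 - c with hd
    have hd0 : d ≠ 0 := sub_ne_zero.2 hne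
    refine ⟨d⁻¹ • ((e j, f j) * (r₀ - algebraMap k (E₁ × E₂) c)), ?_, fun i => ⟨?_, ?_⟩⟩
    · exact B.smul_mem (B.mul_mem hef (B.sub_mem hr₀ (B.algebraMap_mem c))) _
    · have e1 : (d⁻¹ • ((e j, f j) * (r₀ - algebraMap k (E₁ × E₂) c))).1 =
        d⁻¹ • (e j * (r₀.1 - algebraMap k E₁ c)) := rfl
      have g1 : Ge (𝒩.v i) 0 (r₀.1 - algebraMap k E₁ c) :=
        (hgv h3 i).sub (Ge.algebraMap _ c)
      rw [e1, val_smul _ (((hgv (he1 j) i).mul g1).mono (by norm_num)),
        val_mul (hgv (he1 j) i) g1, he2, val_sub (hgv h3 i) (Ge.algebraMap _ c), val_algebraMap]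
      by_cases hij : i = j
      · subst hij
        rw [if_pos rfl, one_mul, ← hd, inv_mul_cancel₀ hd0]
      · rw [if_neg hij, zero_mul, mul_zero]
    · have e1 : (d⁻¹ • ((e j, f j) * (r₀ - algebraMap k (E₁ × E₂) c))).2 =
        d⁻¹ • (f j * (r₀.2 - algebraMap k E₂ c)) := rfl
      have g1 : Ge (𝒩.w i) 0 (r₀.2 - algebraMap k E₂ c) :=
        (hgw h4 i).sub (Ge.algebraMap _ c)
      rw [e1, val_smul _ (((hgw (hf1 j) i).mul g1).mono (by norm_num)),
        val_mul (hgw (hf1 j) i) g1, hf2, val_sub (hgw h4 i) (Ge.algebraMap _ c), val_algebraMap]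
      by_cases hij : i = j
      · subst hij
        rw [← hc, sub_self, mul_zero, mul_zero]
      · rw [if_neg hij, zero_mul, mul_zero]
  choose! s hsB hs' using hs
  let T : Finset ι := Finset.univ.filter fun j => j ∉ S
  let δ : ι → k := fun j => val (𝒩.v j) r.1 - val (𝒩.w j) r.2
  have hsum : ∑ j ∈ T, δ j • s j ∈ B := B.sum_mem fun j hj =>
    B.smul_mem (hsB j (Finset.mem_filter.1 hj).2) _
  have hregs : ∀ j ∈ T, Reg k t₁ (s j).1 ∧ Reg k t₂ (s j).2 := fun j hj =>
    h1 _ (hsB j (Finset.mem_filter.1 hj).2)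
  have e1 : (∑ j ∈ T, δ j • s j).1 = ∑ j ∈ T, δ j • (s j).1 := by
    rw [Prod.fst_sum]; rfl
  have e2 : (∑ j ∈ T, δ j • s j).2 = ∑ j ∈ T, δ j • (s j).2 := by
    rw [Prod.snd_sum]; rfl
  have hreg1 : Reg k t₁ (∑ j ∈ T, δ j • s j).1 := by
    rw [e1]; exact Reg.sum _ fun j hj => (hregs j hj).1.smul _
  have hreg2 : Reg k t₂ (∑ j ∈ T, δ j • s j).2 := by
    rw [e2]; exact Reg.sum _ fun j hj => (hregs j hj).2.smul _
  have hfin : r - ∑ j ∈ T, δ j • s j ∈ B := by
    apply h2
    · exact hr1.sub hreg1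
    · exact hr2.sub hreg2
    · intro i
      have g1 := hgv hr1 i
      have g2 := hgw hr2 i
      have g3 := hgv hreg1 i
      have g4 := hgw hreg2 i
      refine ⟨g1.sub g3, g2.sub g4, ?_⟩
      rw [Pi.one_apply, one_mul, Prod.fst_sub, Prod.snd_sub, val_sub g1 g3, val_sub g2 g4]
      have e3 : val (𝒩.v i) (∑ j ∈ T, δ j • s j).1 = if i ∈ S then 0 else δ i := by
        rw [e1, val_sum _ fun j hj => (hgv (hregs j hj).1 i).smul _]
        have : ∀ j ∈ T, val (𝒩.v i) (δ j • (s j).1) = if i = j then δ j else 0 := by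
          intro j hj
          rw [val_smul _ (hgv (hregs j hj).1 i), (hs' j (Finset.mem_filter.1 hj).2 i).1]
          split_ifs <;> simp
        rw [Finset.sum_congr rfl this]
        by_cases hi : i ∈ S
        · rw [if_pos hi]
          refine Finset.sum_eq_zero fun j hj => ?_
          rw [if_neg]
          rintro rfl
          exact (Finset.mem_filter.1 hj).2 hi
        · rw [if_neg hi, Finset.sum_ite_eq, if_pos]
          exact Finset.mem_filter.2 ⟨Finset.mem_univ _, hi⟩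
      have e4 : val (𝒩.w i) (∑ j ∈ T, δ j • s j).2 = 0 := by
        rw [e2, val_sum _ fun j hj => (hgw (hregs j hj).2 i).smul _]
        refine Finset.sum_eq_zero fun j hj => ?_
        rw [val_smul _ (hgw (hregs j hj).2 i), (hs' j (Finset.mem_filter.1 hj).2 i).2, mul_zero]
      rw [e3, e4, sub_zero]
      by_cases hi : i ∈ S
      · rw [if_pos hi, sub_zero]
        have := (hr3 ⟨i, hi⟩).2.2
        rw [Pi.one_apply, one_mul] at this
        exact this
      · rw [if_neg hi]
        simp only [δ]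
        ring
  have := B.add_mem hfin hsum
  rwa [sub_add_cancel] at this

end Fermat.Agent.Nod
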