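import Fermat.Agent.Nod.Sym

/-!
# Nodal rigidity
-/

set_option autoImplicit false
set_option linter.style.haveILetI false
set_option linter.unusedSectionVars false

namespace Fermat.Agent.Nod

open AlgebraicCurve Fermat.Agent.Curve Fermat.Agent.RR Fermat.Agent.Red Module Polynomial
  IntermediateField

section General

variable {k E : Type*} [Field k] [Field E] [Algebra k E] [IsAlgClosed k] [FunField k E]

theorem DD_sup' (t : E) {a b n : ℕ} (ha : n ≤ a) (hb : n ≤ b) :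
    DD k t a n ⊔ DD k t n b = DD k t a b := by
  ext v
  rw [Finsupp.sup_apply, DD_apply, DD_apply, DD_apply]
  have h1 : (n : ℤ) ≤ a := by exact_mod_cast ha
  have h2 : (n : ℤ) ≤ b := by exact_mod_cast hb
  rcases le_total 0 (v.ord t) with hv | hv
  · rw [max_eq_right (a := -v.ord t) (by linarith), max_eq_left hv]
    have e1 := mul_le_mul_of_nonneg_right h2 hv
    rw [mul_zero, mul_zero, zero_add, zero_add]
    exact max_eq_right e1
  · rw [max_eq_left (a := -v.ord t) (by linarith), max_eq_right hv]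
    have e1 := mul_le_mul_of_nonneg_right h1 (show 0 ≤ -v.ord t by linarith)
    rw [mul_zero, mul_zero, add_zero, add_zero]
    exact max_eq_left e1

theorem DD_inf' (t : E) {a b n : ℕ} (ha : n ≤ a) (hb : n ≤ b) :
    DD k t a n ⊓ DD k t n b = DD k t n n := by
  ext v
  rw [Finsupp.inf_apply, DD_apply, DD_apply, DD_apply]
  have h1 : (n : ℤ) ≤ a := by exact_mod_cast ha
  have h2 : (n : ℤ) ≤ b := by exact_mod_cast hb
  rcases le_total 0 (v.ord t) with hv | hv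
  · rw [max_eq_right (a := -v.ord t) (by linarith), max_eq_left hv]
    have e1 := mul_le_mul_of_nonneg_right h2 hv
    rw [mul_zero, mul_zero, zero_add, zero_add]
    exact min_eq_left e1
  · rw [max_eq_left (a := -v.ord t) (by linarith), max_eq_right hv]
    have e1 := mul_le_mul_of_nonneg_right h1 (show 0 ≤ -v.ord t by linarith)
    rw [mul_zero, mul_zero, add_zero, add_zero]
    exact min_eq_right e1

/-- `x^m/f` for `x ∈ L(aP+bZ-D)`, `div f = m D`. -/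
theorem pow_mul_inv_mem {t : E} {f : E} (hf : f ≠ 0) {m : ℕ} (hm : m ≠ 0) {D : Divisor k E}
    (hD : ∀ v, (m : ℤ) * D v = v.ord f) {a b : ℕ} {x : E}
    (hx : x ∈ riemannRochSpace (DD k t a b - D)) :
    x ^ m * f⁻¹ ∈ riemannRochSpace (DD k t (m * a) (m * b)) := by
  rcases eq_or_ne x 0 with rfl | hx0
  · rw [zero_pow hm, zero_mul]; exact zero_mem _
  rw [mem_L] at hx ⊢
  intro v
  right
  have h1 := (hx v).le_ord hx0
  have e1 : v.ord (x ^ m * f⁻¹) = m * v.ord x - m * D v := by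
    rw [← div_eq_mul_inv, ord_div v (pow_ne_zero _ hx0) hf, ord_pow, hD]
  rw [Finsupp.sub_apply] at h1
  rw [e1]
  have e2 : DD k t (m * a) (m * b) v = m * DD k t a b v := by
    rw [DD_apply, DD_apply]; push_cast; ring
  rw [e2]
  have hm' : (0 : ℤ) ≤ m := by positivity
  nlinarith [mul_le_mul_of_nonneg_left h1 hm']

theorem mem_DD_of_pow_mem {t : E} {m : ℕ} (hm : m ≠ 0) {a b : ℕ} {x : E}
    (hx : x ^ m ∈ riemannRochSpace (DD k t (m * a) (m * b))) :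
    x ∈ riemannRochSpace (DD k t a b) := by
  rcases eq_or_ne x 0 with rfl | hx0
  · exact zero_mem _
  rw [mem_L] at hx ⊢
  intro v
  right
  have h1 := (hx v).le_ord (pow_ne_zero m hx0)
  have e2 : DD k t (m * a) (m * b) v = m * DD k t a b v := by
    rw [DD_apply, DD_apply]; push_cast; ring
  rw [e2, ord_pow] at h1
  have hm' : (0 : ℤ) < m := by exact_mod_cast Nat.pos_of_ne_zero hm
  have h2 : (m : ℤ) * (-DD k t a b v) ≤ m * v.ord x := by linarith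
  exact le_of_mul_le_mul_left h2 hm'

theorem degree_eq_zero_of {f : E} {m : ℕ} (hm : m ≠ 0) {D : Divisor k E}
    (hD : ∀ v, (m : ℤ) * D v = v.ord f) : Divisor.degree D = 0 := by
  have h1 : m • D = divisor k f := by
    ext v
    rw [divisor_apply, ← hD, Finsupp.smul_apply]
    simp
  have h2 := degree_divisor (K := k) f
  rw [← h1, map_nsmul, nsmul_eq_mul] at h2
  rcases mul_eq_zero.1 h2 with h3 | h3
  · exact absurd (by exact_mod_cast h3) hm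
  · exact h3

end General

variable {A K F k E₁ E₂ : Type*} [CommRing A] [IsDomain A] [ValuationRing A]
  [Field K] [Algebra A K] [IsFractionRing A K] [Field F] [Algebra K F] [Algebra A F]
  [IsScalarTower A K F] [Field k] [Algebra A k] [Field E₁] [Field E₂] [Algebra k E₁]
  [Algebra k E₂] [Algebra A E₁] [Algebra A E₂] [IsScalarTower A k E₁] [IsScalarTower A k E₂]
  [IsAlgClosed K] [IsAlgClosed k] [CharZero K] [FunField K F] [FunField k E₁] [FunField k E₂]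

variable {ι₀ : Type*} [Fintype ι₀] [Nonempty ι₀] {G : GaussData A K F k (E₁ × E₂) ι₀}
  {hk : Function.Surjective (algebraMap A k)}
  {ι : Type*} [Finite ι] {𝒩 : Nodes k E₁ E₂ ι}

variable (G hk 𝒩) in
/-- actual nodes -/
abbrev Nd : Type _ := nodeSet G hk 𝒩 G.t

/-- inverse of a pair -/
noncomputable def pinv (γ : E₁ × E₂) : E₁ × E₂ := (γ.1⁻¹, γ.2⁻¹)

theorem pinv_mul {γ : E₁ × E₂} (h1 : γ.1 ≠ 0) (h2 : γ.2 ≠ 0) : pinv γ * γ = 1 :=
  Prod.ext (inv_mul_cancel₀ h1) (inv_mul_cancel₀ h2)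

theorem pinv_mul_cancel {γ : E₁ × E₂} (h1 : γ.1 ≠ 0) (h2 : γ.2 ≠ 0) (x : E₁ × E₂) :
    pinv γ * (γ * x) = x := by rw [← mul_assoc, pinv_mul h1 h2, one_mul]

theorem mul_pinv_cancel {γ : E₁ × E₂} (h1 : γ.1 ≠ 0) (h2 : γ.2 ≠ 0) (x : E₁ × E₂) :
    γ * (pinv γ * x) = x := by rw [← mul_assoc, mul_comm γ, pinv_mul h1 h2, one_mul]

variable (G hk 𝒩) in
/-- Kummer data with its glueing cocycle -/
structure TwData (m : ℕ) (f : F) (D : Divisor K F) (γ : E₁ × E₂) (ζ : Nd G hk 𝒩 → k) : Prop where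
  hf : f ∈ G.W
  hπ : G.π ⟨f, hf⟩ = γ ^ m
  hD : ∀ v, (m : ℤ) * D v = v.ord f
  h1 : γ.1 ≠ 0
  h2 : γ.2 ≠ 0
  root : ∀ j, ζ j ^ m = 1
  tw : ∀ a b x (hx : x ∈ G.W), x ∈ riemannRochSpace (DD K G.t a b - D) →
    pinv γ * G.π ⟨x, hx⟩ ∈ glue (𝒩.restrict (nodeSet G hk 𝒩 G.t)) ζ

namespace TwData

variable {m : ℕ} {f f' : F} {D D' : Divisor K F} {γ γ' : E₁ × E₂} {ζ ζ' : Nd G hk 𝒩 → k}

theorem ne_zero_f {f : F} {hf : f ∈ G.W} {γ : E₁ × E₂} (hπ : G.π ⟨f, hf⟩ = γ ^ m)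
    (h1 : γ.1 ≠ 0) : f ≠ 0 := by
  rintro rfl
  have h0 : (⟨0, hf⟩ : G.W) = 0 := rfl
  rw [h0, map_zero] at hπ
  have := congrArg Prod.fst hπ
  exact pow_ne_zero m h1 this.symm

variable (hspan : ∀ x : F, ∃ q : K[X], q ≠ 0 ∧ ∃ P : ι₀ → K[X], aeval G.t q * x = G.comb P)
  (H : NodMod G hk hspan 𝒩)

theorem isUnit_f {f : F} {hf : f ∈ G.W} {γ : E₁ × E₂} (hπ : G.π ⟨f, hf⟩ = γ ^ m)
    (h1 : γ.1 ≠ 0) (h2 : γ.2 ≠ 0) : IsUnit (⟨f, hf⟩ : G.W) := by
  apply G.isUnit_of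
  rw [hπ]
  apply IsUnit.pow
  exact Prod.isUnit_iff.2 ⟨IsUnit.mk0 _ h1, IsUnit.mk0 _ h2⟩

theorem inv_f_mem {f : F} {hf : f ∈ G.W} {γ : E₁ × E₂} (hπ : G.π ⟨f, hf⟩ = γ ^ m)
    (h1 : γ.1 ≠ 0) (h2 : γ.2 ≠ 0) : ∃ h : f⁻¹ ∈ G.W, G.π ⟨f⁻¹, h⟩ = (pinv γ) ^ m := by
  obtain ⟨fu, hfu'⟩ := isUnit_f hπ h1 h2
  have hfinv : ((↑fu⁻¹ : G.W) : F) = f⁻¹ := by
    have h1 : ((↑fu : G.W) : F) * ((↑fu⁻¹ : G.W) : F) = 1 := by
      rw [← MulMemClass.coe_mul, Units.mul_inv]; rfl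
    rw [hfu'] at h1
    exact eq_inv_of_mul_eq_one_right h1
  have hmem : f⁻¹ ∈ G.W := by rw [← hfinv]; exact Subtype.prop _
  refine ⟨hmem, ?_⟩
  have e1 : (⟨f⁻¹, hmem⟩ : G.W) = ↑fu⁻¹ := Subtype.ext hfinv.symm
  rw [e1]
  have e2 : G.π ↑fu⁻¹ * G.π ⟨f, hf⟩ = 1 := by rw [← map_mul, ← hfu', Units.inv_mul, map_one]
  have e3 : (pinv γ) ^ m * γ ^ m = 1 := by rw [← mul_pow, pinv_mul h1 h2, one_pow]
  have e4 : IsUnit (γ ^ m) := (Prod.isUnit_iff.2 ⟨IsUnit.mk0 _ h1, IsUnit.mk0 _ h2⟩).pow m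
  rw [hπ] at e2
  exact e4.mul_right_cancel (e2.trans e3.symm)

include hspan H in
/-- the `m`-th power of a normalised reduction is glued -/
theorem pow_mem_GS {f : F} {hf : f ∈ G.W} {γ : E₁ × E₂} (hm : m ≠ 0) (hπ : G.π ⟨f, hf⟩ = γ ^ m)
    (h1 : γ.1 ≠ 0) (h2 : γ.2 ≠ 0) (hD : ∀ v, (m : ℤ) * D v = v.ord f) {a b : ℕ} {x : F}
    (hx : x ∈ G.W) (hxL : x ∈ riemannRochSpace (DD K G.t a b - D)) :
    (pinv γ * G.π ⟨x, hx⟩) ^ m ∈ GS G hk 𝒩 (m * a) (m * b) := by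
  obtain ⟨hfi, hfi'⟩ := inv_f_mem hπ h1 h2
  have h3 := pow_mul_inv_mem (ne_zero_f hπ h1) hm hD hxL
  have h4 : x ^ m * f⁻¹ ∈ G.W := mul_mem (pow_mem hx m) hfi
  have h5 : G.π ⟨x ^ m * f⁻¹, h4⟩ ∈ RS G hk hspan (m * a) (m * b) :=
    (mem_RS hspan).2 ⟨_, h4, h3, rfl⟩
  have h6 : (⟨x ^ m * f⁻¹, h4⟩ : G.W) = ⟨x, hx⟩ ^ m * ⟨f⁻¹, hfi⟩ := rfl
  rw [h6, map_mul, map_pow, hfi', ← mul_pow, mul_comm (G.π ⟨x, hx⟩) (pinv γ)] at h5
  exact RS_le_GS hspan H.toNodPos _ _ h5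

include hspan H in
theorem mem_DD_pinv {f : F} {hf : f ∈ G.W} {γ : E₁ × E₂} (hm : m ≠ 0)
    (hπ : G.π ⟨f, hf⟩ = γ ^ m)
    (h1 : γ.1 ≠ 0) (h2 : γ.2 ≠ 0) (hD : ∀ v, (m : ℤ) * D v = v.ord f) {a b : ℕ} {x : F}
    (hx : x ∈ G.W) (hxL : x ∈ riemannRochSpace (DD K G.t a b - D)) :
    (pinv γ * G.π ⟨x, hx⟩).1 ∈ riemannRochSpace (DD k (tb G).1 a b) ∧
      (pinv γ * G.π ⟨x, hx⟩).2 ∈ riemannRochSpace (DD k (tb G).2 a b) := by
  have h := (pow_mem_GS hspan H hm hπ h1 h2 hD hx hxL).2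
  exact ⟨mem_DD_of_pow_mem hm h.1, mem_DD_of_pow_mem hm h.2⟩

include hspan H in
/-- existence of the glueing cocycle -/
theorem exists_tw {f : F} (hf : f ∈ G.W) {γ : E₁ × E₂} (hm : m ≠ 0) (hπ : G.π ⟨f, hf⟩ = γ ^ m)
    (h1 : γ.1 ≠ 0) (h2 : γ.2 ≠ 0) (hD : ∀ v, (m : ℤ) * D v = v.ord f) :
    ∃ ζ, TwData G hk 𝒩 m f D γ ζ := by
  classical
  -- notation
  let h : ∀ x : F, x ∈ G.W → E₁ × E₂ := fun x hx => pinv γ * G.π ⟨x, hx⟩
  have hge1 : ∀ (j : Nd G hk 𝒩) a b x (hx : x ∈ G.W),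
      x ∈ riemannRochSpace (DD K G.t a b - D) → Ge (𝒩.v j) 0 (h x hx).1 :=
    fun j a b x hx hxL => ge_of_DD_fst H.toNodPos j (mem_DD_pinv hspan H hm hπ h1 h2 hD hx hxL).1
  have hge2 : ∀ (j : Nd G hk 𝒩) a b x (hx : x ∈ G.W),
      x ∈ riemannRochSpace (DD K G.t a b - D) → Ge (𝒩.w j) 0 (h x hx).2 :=
    fun j a b x hx hxL => ge_of_DD_snd H.toNodPos j (mem_DD_pinv hspan H hm hπ h1 h2 hD hx hxL).2
  have hpow : ∀ (j : Nd G hk 𝒩) a b x (hx : x ∈ G.W),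
      x ∈ riemannRochSpace (DD K G.t a b - D) →
      val (𝒩.v j) (h x hx).1 ^ m = val (𝒩.w j) (h x hx).2 ^ m := by
    intro j a b x hx hxL
    have h3 := ((pow_mem_GS hspan H hm hπ h1 h2 hD hx hxL).1 j).2.2
    rw [Pi.one_apply, one_mul] at h3
    rw [← val_pow (hge1 j a b x hx hxL), ← val_pow (hge2 j a b x hx hxL)]
    exact h3
  have key : ∀ j : Nd G hk 𝒩, ∃ ζ : k, ζ ^ m = 1 ∧ ∀ a b x (hx : x ∈ G.W),
      x ∈ riemannRochSpace (DD K G.t a b - D) →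
      val (𝒩.v j) (h x hx).1 = ζ * val (𝒩.w j) (h x hx).2 := by
    intro j
    by_cases hex : ∃ a b x, ∃ hx : x ∈ G.W, x ∈ riemannRochSpace (DD K G.t a b - D) ∧
        val (𝒩.w j) (h x hx).2 ≠ 0
    · obtain ⟨a₀, b₀, x₀, hx₀, hxL₀, hne⟩ := hex
      refine ⟨val (𝒩.v j) (h x₀ hx₀).1 / val (𝒩.w j) (h x₀ hx₀).2, ?_, ?_⟩
      · rw [div_pow, hpow j a₀ b₀ x₀ hx₀ hxL₀, div_self (pow_ne_zero m hne)]
      intro a b x hx hxL
      set β := val (𝒩.w j) (h x₀ hx₀).2 with hβ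
      set c : k := val (𝒩.w j) (h x hx).2 / β with hc
      obtain ⟨cA, hcA⟩ := hk c
      -- `y = x - c x₀`
      have hyW : x - cA • x₀ ∈ G.W := sub_mem hx (G.W.smul_mem hx₀ cA)
      let a' := max a a₀
      let b' := max b b₀
      have hxL' : x ∈ riemannRochSpace (DD K G.t a' b' - D) :=
        L_mono (sub_le_sub_right (DD_mono G.t (le_max_left _ _) (le_max_left _ _)) D) hxL
      have hxL₀' : x₀ ∈ riemannRochSpace (DD K G.t a' b' - D) :=
        L_mono (sub_le_sub_right (DD_mono G.t (le_max_right _ _) (le_max_right _ _)) D) hxL₀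
      have hyL : x - cA • x₀ ∈ riemannRochSpace (DD K G.t a' b' - D) := by
        refine sub_mem hxL' ?_
        rw [← algebraMap_smul K cA x₀]
        exact Submodule.smul_mem _ _ hxL₀'
      have hyh : h (x - cA • x₀) hyW = h x hx - c • h x₀ hx₀ := by
        have e1 : (⟨x - cA • x₀, hyW⟩ : G.W) = ⟨x, hx⟩ - cA • ⟨x₀, hx₀⟩ := rfl
        simp only [h]
        rw [e1, map_sub, map_smul, ← hcA, algebraMap_smul, mul_sub, mul_smul_comm]
      have g1 := hge1 j a b x hx hxL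
      have g2 := hge2 j a b x hx hxL
      have g3 := hge1 j a₀ b₀ x₀ hx₀ hxL₀
      have g4 := hge2 j a₀ b₀ x₀ hx₀ hxL₀
      have e2 : val (𝒩.w j) (h (x - cA • x₀) hyW).2 = 0 := by
        rw [hyh, Prod.snd_sub, Prod.smul_snd, val_sub g2 (g4.smul c), val_smul c g4, ← hβ, hc,
          div_mul_cancel₀ _ hne, sub_self]
      have e3 : val (𝒩.v j) (h (x - cA • x₀) hyW).1 = 0 := by
        have := hpow j a' b' _ hyW hyL
        rw [e2, zero_pow hm] at this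
        exact pow_eq_zero_iff hm |>.1 this
      rw [hyh, Prod.fst_sub, Prod.smul_fst, val_sub g1 (g3.smul c), val_smul c g3, sub_eq_zero]
        at e3
      rw [e3, hc]
      field_simp
    · push Not at hex
      refine ⟨1, one_pow m, fun a b x hx hxL => ?_⟩
      have e2 := hex a b x hx hxL
      have := hpow j a b x hx hxL
      rw [e2, zero_pow hm] at this
      rw [e2, mul_zero]
      exact pow_eq_zero_iff hm |>.1 this
  choose ζ hζ1 hζ2 using key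
  exact ⟨ζ, hf, hπ, hD, h1, h2, hζ1, fun a b x hx hxL j =>
    ⟨hge1 j a b x hx hxL, hge2 j a b x hx hxL, hζ2 j a b x hx hxL⟩⟩

theorem ne_zero (T : TwData G hk 𝒩 m f D γ ζ) : f ≠ 0 := ne_zero_f T.hπ T.h1

/-- the reduction of `L(aP+bZ-D)` normalised by `γ` -/
noncomputable def RV (G : GaussData A K F k (E₁ × E₂) ι₀) (hk : Function.Surjective (algebraMap A k))
    (hspan : ∀ x : F, ∃ q : K[X], q ≠ 0 ∧ ∃ P : ι₀ → K[X], aeval G.t q * x = G.comb P)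
    (D : Divisor K F) (γ : E₁ × E₂) (a b : ℕ) : Submodule k (E₁ × E₂) :=
  ((G.toRedModel hk hspan).rd hk (riemannRochSpace (DD K G.t a b - D))).map
    (LinearMap.mulLeft k (pinv γ))

theorem mem_RV {a b : ℕ} {r : E₁ × E₂} : r ∈ RV G hk hspan D γ a b ↔
    ∃ x : F, ∃ hx : x ∈ G.W, x ∈ riemannRochSpace (DD K G.t a b - D) ∧
      pinv γ * G.π ⟨x, hx⟩ = r := by
  constructor
  · rintro ⟨_, ⟨x, hx, rfl⟩, rfl⟩
    exact ⟨x, hx.1, hx.2, rfl⟩
  · rintro ⟨x, hx, hxL, rfl⟩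
    exact ⟨_, ⟨x, ⟨hx, hxL⟩, rfl⟩, rfl⟩

include hspan H in
/-- the twisted reductions form the twisted glued spaces -/
theorem exists_RV_eq : ∃ n₀ : ℕ, ∀ (m : ℕ) (f : F) (D : Divisor K F) (γ : E₁ × E₂)
    (ζ : Nd G hk 𝒩 → k), m ≠ 0 → TwData G hk 𝒩 m f D γ ζ → ∀ a b, n₀ ≤ a + b →
      RV G hk hspan D γ a b = GG (𝒩.restrict (nodeSet G hk 𝒩 G.t)) ζ
        (DD k (tb G).1 a b) (DD k (tb G).2 a b) := by
  classical
  haveI := Fintype.ofFinite (nodeSet G hk 𝒩 G.t)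
  obtain ⟨n₀, hn₀⟩ := H.eq
  obtain ⟨c, hc⟩ := exists_riemann (K := K) (F := F)
  obtain ⟨c₁, hc₁⟩ := exists_riemann (K := k) (F := E₁)
  have ht := G.transcendental (K := K)
  have ht1 := transcendental_tb_fst G
  refine ⟨n₀ + c.toNat + (c₁ + Fintype.card (nodeSet G hk 𝒩 G.t)).toNat, ?_⟩
  intro m f D γ ζ hm T a b hab
  have hd : (1 : ℤ) ≤ finrank K⟮G.t⟯ F := by exact_mod_cast finrank_pos ht
  have hd1 : (1 : ℤ) ≤ finrank k⟮(tb G).1⟯ E₁ := by exact_mod_cast finrank_pos ht1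
  have hc' := Int.self_le_toNat c
  have hc₁' := Int.self_le_toNat (c₁ + Fintype.card (nodeSet G hk 𝒩 G.t))
  have hab' : (n₀ : ℤ) + c.toNat + (c₁ + Fintype.card (nodeSet G hk 𝒩 G.t)).toNat ≤ a + b := by
    exact_mod_cast hab
  have hn0' : (0 : ℤ) ≤ n₀ := by positivity
  have p1 : (0 : ℤ) ≤ c.toNat := by positivity
  have p2 : (0 : ℤ) ≤ (c₁ + Fintype.card (nodeSet G hk 𝒩 G.t)).toNat := by positivity
  have hdeg0 := degree_eq_zero_of hm T.hD
  have hle : RV G hk hspan D γ a b ≤ GG (𝒩.restrict (nodeSet G hk 𝒩 G.t)) ζ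
        (DD k (tb G).1 a b) (DD k (tb G).2 a b) := by
    intro r hr
    obtain ⟨x, hx, hxL, rfl⟩ := (mem_RV hspan).1 hr
    exact ⟨T.tw a b x hx hxL, mem_DD_pinv hspan H hm T.hπ T.h1 T.h2 T.hD hx hxL⟩
  have hinj : Function.Injective (LinearMap.mulLeft k (pinv γ)) := by
    intro x y hxy
    have : γ * (pinv γ * x) = γ * (pinv γ * y) := congrArg (fun z => γ * z) hxy
    rwa [mul_pinv_cancel T.h1 T.h2, mul_pinv_cancel T.h1 T.h2] at this
  apply Submodule.eq_of_le_of_finrank_eq hle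
  have e1 : finrank k (RV G hk hspan D γ a b) = ell (DD K G.t a b - D) := by
    rw [RV, ← (Submodule.equivMapOfInjective _ hinj _).finrank_eq]
    exact (G.toRedModel hk hspan).finrank_rd hk _
  have e2 : finrank k (RS G hk hspan a b) = ell (DD K G.t a b) :=
    (G.toRedModel hk hspan).finrank_rd hk _
  have e3 := finrank_GG (𝒩.restrict (nodeSet G hk 𝒩 G.t)) hc₁ ζ (DD k (tb G).1 a b)
    (DD k (tb G).2 a b) (fun j => DD_eq_zero (H.hv j) _ _) (fun j => DD_eq_zero (H.hw j) _ _)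
    (by rw [degree_DD ht1]; nlinarith)
  have e4 := finrank_GG (𝒩.restrict (nodeSet G hk 𝒩 G.t)) hc₁ 1 (DD k (tb G).1 a b)
    (DD k (tb G).2 a b) (fun j => DD_eq_zero (H.hv j) _ _) (fun j => DD_eq_zero (H.hw j) _ _)
    (by rw [degree_DD ht1]; nlinarith)
  have e5 : finrank k (RS G hk hspan a b) = finrank k (GG (𝒩.restrict (nodeSet G hk 𝒩 G.t)) 1
      (DD k (tb G).1 a b) (DD k (tb G).2 a b)) := by
    rw [hn₀ a b (by omega)]; rfl
  have e6 := hc (DD K G.t a b) (by rw [degree_DD ht]; nlinarith)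
  have e7 := hc (DD K G.t a b - D) (by rw [map_sub, hdeg0, sub_zero, degree_DD ht]; nlinarith)
  rw [map_sub, hdeg0, sub_zero] at e7
  have e8 : ell (DD K G.t a b - D) = ell (DD K G.t a b) := by
    have : (ell (DD K G.t a b - D) : ℤ) = ell (DD K G.t a b) := by rw [e7, e6]
    exact_mod_cast this
  omega

include hspan H in
/-- at each actual node there are non-vanishing twisted sections -/
theorem exists_ne_zero' (hm : m ≠ 0) (T : TwData G hk 𝒩 m f D γ ζ) (j : Nd G hk 𝒩) :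
    ∃ a x, ∃ hx : x ∈ G.W, x ∈ riemannRochSpace (DD K G.t a 0 - D) ∧
      val (𝒩.w j) (pinv γ * G.π ⟨x, hx⟩).2 ≠ 0 := by
  classical
  haveI := Fintype.ofFinite (nodeSet G hk 𝒩 G.t)
  obtain ⟨n₀, hn₀⟩ := exists_RV_eq hspan H
  obtain ⟨c₁, hc₁⟩ := exists_riemann (K := k) (F := E₁)
  obtain ⟨c₂, hc₂⟩ := exists_riemann (K := k) (F := E₂)
  have ht1 := transcendental_tb_fst G
  have ht2 := transcendental_tb_snd G
  have hd1 : (1 : ℤ) ≤ finrank k⟮(tb G).1⟯ E₁ := by exact_mod_cast finrank_pos ht1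
  have hd2 : (1 : ℤ) ≤ finrank k⟮(tb G).2⟯ E₂ := by exact_mod_cast finrank_pos ht2
  let n := n₀ + (c₁ + Fintype.card (nodeSet G hk 𝒩 G.t)).toNat +
    (c₂ + Fintype.card (nodeSet G hk 𝒩 G.t)).toNat
  have q1 := Int.self_le_toNat (c₁ + Fintype.card (nodeSet G hk 𝒩 G.t))
  have q2 := Int.self_le_toNat (c₂ + Fintype.card (nodeSet G hk 𝒩 G.t))
  have q3 : (n : ℤ) = n₀ + (c₁ + Fintype.card (nodeSet G hk 𝒩 G.t)).toNat +
    (c₂ + Fintype.card (nodeSet G hk 𝒩 G.t)).toNat := by simp only [n]; push_cast; ring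
  have q4 : (0 : ℤ) ≤ n₀ := by positivity
  have q5 : (0 : ℤ) ≤ (c₁ + Fintype.card (nodeSet G hk 𝒩 G.t)).toNat := by positivity
  have q6 : (0 : ℤ) ≤ (c₂ + Fintype.card (nodeSet G hk 𝒩 G.t)).toNat := by positivity
  obtain ⟨y, hy, hy'⟩ := exists_val_of_degree (𝒩.restrict (nodeSet G hk 𝒩 G.t)).w
    (𝒩.restrict (nodeSet G hk 𝒩 G.t)).hw (g := rrGenus k E₂) hc₂ (DD k (tb G).2 n 0)
    (fun j => DD_eq_zero (H.hw j) _ _)
    (by rw [degree_DD ht2]; push_cast; nlinarith) (fun _ => 1)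
  obtain ⟨x, hx, hx'⟩ := exists_val_of_degree (𝒩.restrict (nodeSet G hk 𝒩 G.t)).v
    (𝒩.restrict (nodeSet G hk 𝒩 G.t)).hv (g := rrGenus k E₁) hc₁ (DD k (tb G).1 n 0)
    (fun j => DD_eq_zero (H.hv j) _ _)
    (by rw [degree_DD ht1]; push_cast; nlinarith) ζ
  have hmem : ((x, y) : E₁ × E₂) ∈ GG (𝒩.restrict (nodeSet G hk 𝒩 G.t)) ζ
      (DD k (tb G).1 n 0) (DD k (tb G).2 n 0) := by
    refine ⟨fun i => ⟨ge_of_DD_fst H.toNodPos i hx, ge_of_DD_snd H.toNodPos i hy, ?_⟩, hx, hy⟩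
    have e1 := hx' i
    have e2 := hy' i
    change val ((𝒩.restrict (nodeSet G hk 𝒩 G.t)).v i) x =
      ζ i * val ((𝒩.restrict (nodeSet G hk 𝒩 G.t)).w i) y
    rw [e1, e2, mul_one]
  rw [← hn₀ m f D γ ζ hm T n 0 (by omega)] at hmem
  obtain ⟨z, hz, hzL, hz'⟩ := (mem_RV hspan).1 hmem
  refine ⟨n, z, hz, hzL, ?_⟩
  rw [hz']
  have e2 := hy' j
  change val (𝒩.w j) y = 1 at e2
  change val (𝒩.w j) y ≠ 0
  rw [e2]
  exact one_ne_zero

include hspan H in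
theorem exists_ne_zero (hm : m ≠ 0) (T : TwData G hk 𝒩 m f D γ ζ) (j : Nd G hk 𝒩) :
    ∃ a b x, ∃ hx : x ∈ G.W, x ∈ riemannRochSpace (DD K G.t a b - D) ∧
      val (𝒩.w j) (pinv γ * G.π ⟨x, hx⟩).2 ≠ 0 := by
  obtain ⟨a, x, hx, h⟩ := exists_ne_zero' hspan H hm T j
  exact ⟨a, 0, x, hx, h⟩

include hspan H in
theorem unique (hm : m ≠ 0) (T : TwData G hk 𝒩 m f D γ ζ) (T' : TwData G hk 𝒩 m f D γ ζ') :
    ζ = ζ' := by
  funext j
  obtain ⟨a, b, x, hx, hxL, hne⟩ := exists_ne_zero hspan H hm T j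
  have h1 := (T.tw a b x hx hxL j).2.2
  have h2 := (T'.tw a b x hx hxL j).2.2
  rw [h1] at h2
  exact mul_right_cancel₀ hne h2

theorem zeta_ne_zero (hm : m ≠ 0) (T : TwData G hk 𝒩 m f D γ ζ) (j : Nd G hk 𝒩) : ζ j ≠ 0 := by
  intro h
  have := T.root j
  rw [h, zero_pow hm] at this
  exact zero_ne_one this

include hspan H in
theorem mul (hm : m ≠ 0) (T : TwData G hk 𝒩 m f D γ ζ) (T' : TwData G hk 𝒩 m f' D' γ' ζ') :
    TwData G hk 𝒩 m (f * f') (D + D') (γ * γ') (ζ * ζ') := by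
  have hf : f * f' ∈ G.W := mul_mem T.hf T'.hf
  have hπ : G.π ⟨f * f', hf⟩ = (γ * γ') ^ m := by
    have : (⟨f * f', hf⟩ : G.W) = ⟨f, T.hf⟩ * ⟨f', T'.hf⟩ := rfl
    rw [this, map_mul, T.hπ, T'.hπ, mul_pow]
  have hD : ∀ v, (m : ℤ) * (D + D') v = v.ord (f * f') := by
    intro v
    rw [v.ord_mul T.ne_zero T'.ne_zero, Finsupp.add_apply, mul_add, T.hD, T'.hD]
  obtain ⟨ζ'', T''⟩ := exists_tw (m := m) hspan H hf hm hπ (mul_ne_zero T.h1 T'.h1)
    (mul_ne_zero T.h2 T'.h2) hD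
  have : ζ'' = ζ * ζ' := by
    funext j
    obtain ⟨a, b, x, hx, hxL, hne⟩ := exists_ne_zero hspan H hm T j
    obtain ⟨a', b', x', hx', hxL', hne'⟩ := exists_ne_zero hspan H hm T' j
    have h1 := T.tw a b x hx hxL j
    have h2 := T'.tw a' b' x' hx' hxL' j
    have hxx : x * x' ∈ G.W := mul_mem hx hx'
    have hxxL : x * x' ∈ riemannRochSpace (DD K G.t (a + a') (b + b') - (D + D')) := by
      have := L_mul_mem hxL hxL'
      have e : DD K G.t a b - D + (DD K G.t a' b' - D') =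
          DD K G.t (a + a') (b + b') - (D + D') := by
        ext v
        simp only [Finsupp.add_apply, Finsupp.sub_apply, DD_apply]
        push_cast
        ring
      rwa [e] at this
    have h3 := T''.tw _ _ _ hxx hxxL j
    have e1 : pinv (γ * γ') * G.π ⟨x * x', hxx⟩ =
        (pinv γ * G.π ⟨x, hx⟩) * (pinv γ' * G.π ⟨x', hx'⟩) := by
      have : (⟨x * x', hxx⟩ : G.W) = ⟨x, hx⟩ * ⟨x', hx'⟩ := rfl
      rw [this, map_mul]
      have e2 : pinv (γ * γ') = pinv γ * pinv γ' := by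
        apply Prod.ext
        · exact mul_inv γ.1 γ'.1
        · exact mul_inv γ.2 γ'.2
      rw [e2]; ring
    rw [e1] at h3
    obtain ⟨g1, g2, g3⟩ := h1
    obtain ⟨g4, g5, g6⟩ := h2
    have h4 := h3.2.2
    rw [Prod.fst_mul, Prod.snd_mul, val_mul g1 g4, val_mul g2 g5, g3, g6] at h4
    change _ = ζ'' j * (val (𝒩.w j) _ * val (𝒩.w j) _) at h4
    have h5 : (ζ j * ζ' j) * (val (𝒩.w j) (pinv γ * G.π ⟨x, hx⟩).2 *
        val (𝒩.w j) (pinv γ' * G.π ⟨x', hx'⟩).2) = ζ'' j *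
        (val (𝒩.w j) (pinv γ * G.π ⟨x, hx⟩).2 *
        val (𝒩.w j) (pinv γ' * G.π ⟨x', hx'⟩).2) := by
      rw [← h4]
      change _ = ζ j * val (𝒩.w j) _ * (ζ' j * val (𝒩.w j) _)
      ring
    exact (mul_right_cancel₀ (mul_ne_zero hne hne') h5).symm
  rw [← this]
  exact T''

include hspan H in
theorem one (m : ℕ) : TwData G hk 𝒩 m (1 : F) 0 1 1 where
  hf := one_mem _
  hπ := by
    rw [one_pow]
    exact map_one G.π
  hD := fun v => by simp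
  h1 := one_ne_zero
  h2 := one_ne_zero
  root := fun j => by simp
  tw := by
    intro a b x hx hxL
    rw [sub_zero] at hxL
    have e : pinv (1 : E₁ × E₂) = 1 := Prod.ext inv_one inv_one
    rw [e, one_mul]
    exact (RS_le_GS hspan H.toNodPos a b ((mem_RS hspan).2 ⟨x, hx, hxL, rfl⟩)).1

include hspan H in
theorem inv (hm : m ≠ 0) (T : TwData G hk 𝒩 m f D γ ζ) :
    TwData G hk 𝒩 m f⁻¹ (-D) (pinv γ) ζ⁻¹ := by
  obtain ⟨hf, hπ⟩ := inv_f_mem T.hπ T.h1 T.h2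
  have hD : ∀ v, (m : ℤ) * (-D) v = v.ord f⁻¹ := by
    intro v
    rw [v.ord_inv, ← T.hD, Finsupp.neg_apply]; ring
  obtain ⟨ζ'', T''⟩ := exists_tw (m := m) hspan H hf hm hπ (inv_ne_zero T.h1) (inv_ne_zero T.h2) hD
  have h1 := mul hspan H hm T T''
  rw [mul_inv_cancel₀ T.ne_zero, add_neg_cancel, mul_comm γ, pinv_mul T.h1 T.h2] at h1
  have h2 := unique hspan H hm h1 (one hspan H m)
  have : ζ'' = ζ⁻¹ := by
    funext j
    have := congrFun h2 j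
    rw [Pi.mul_apply, Pi.one_apply] at this
    exact eq_inv_of_mul_eq_one_right this
  rw [← this]
  exact T''

include hspan H in
theorem pow (hm : m ≠ 0) (T : TwData G hk 𝒩 m f D γ ζ) (n : ℕ) :
    TwData G hk 𝒩 m (f ^ n) (n • D) (γ ^ n) (ζ ^ n) := by
  induction n with
  | zero => simpa using one hspan H m
  | succ n ih =>
    rw [pow_succ, succ_nsmul, pow_succ, pow_succ]
    exact mul hspan H hm ih T

include hspan H in
/-- **Nodal rigidity** -/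
theorem rigid (hA : ∃ t : A, t ≠ 0 ∧ ¬ IsUnit t)
    (hrank : ∀ a c : A, algebraMap A k a = 0 → c ≠ 0 → ∃ n : ℕ, c ∣ a ^ n)
    (hm : (m : k) ≠ 0) (T : TwData G hk 𝒩 m f D γ ζ) (ζ₀ : k) (hζ₀ : ζ₀ ^ m = 1)
    (hζ : ∀ j, ζ j = ζ₀) : ∃ x : F, x ^ m = f := by
  classical
  haveI := Fintype.ofFinite (nodeSet G hk 𝒩 G.t)
  have hm0 : m ≠ 0 := by rintro rfl; simp at hm
  have hζ0 : ζ₀ ≠ 0 := by
    rintro rfl
    rw [zero_pow hm0] at hζ₀
    exact zero_ne_one hζ₀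
  -- change `γ`
  let γ' : E₁ × E₂ := (ζ₀ • γ.1, γ.2)
  have hγ'1 : γ'.1 ≠ 0 := smul_ne_zero hζ0 T.h1
  have hγ'2 : γ'.2 ≠ 0 := T.h2
  have hπ' : G.π ⟨f, T.hf⟩ = γ' ^ m := by
    rw [T.hπ]
    apply Prod.ext
    · change γ.1 ^ m = (ζ₀ • γ.1) ^ m
      rw [_root_.smul_pow, hζ₀, one_smul]
    · rfl
  have T' : TwData G hk 𝒩 m f D γ' 1 := by
    refine ⟨T.hf, hπ', T.hD, hγ'1, hγ'2, fun j => by simp, fun a b x hx hxL j => ?_⟩
    obtain ⟨g1, g2, g3⟩ := T.tw a b x hx hxL j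
    have e1 : (pinv γ' * G.π ⟨x, hx⟩).1 = ζ₀⁻¹ • (pinv γ * G.π ⟨x, hx⟩).1 := by
      change (ζ₀ • γ.1)⁻¹ * (G.π ⟨x, hx⟩).1 = ζ₀⁻¹ • (γ.1⁻¹ * (G.π ⟨x, hx⟩).1)
      rw [smul_inv₀, smul_mul_assoc]
    have e2 : (pinv γ' * G.π ⟨x, hx⟩).2 = (pinv γ * G.π ⟨x, hx⟩).2 := rfl
    refine ⟨by rw [e1]; exact g1.smul _, by rw [e2]; exact g2, ?_⟩
    rw [e1, e2, val_smul _ g1, g3, hζ j, Pi.one_apply, one_mul, inv_mul_cancel_left₀ hζ0]
  obtain ⟨n₀, hn₀⟩ := exists_RV_eq hspan H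
  obtain ⟨c₁, hc₁⟩ := exists_riemann (K := k) (F := E₁)
  obtain ⟨c₂, hc₂⟩ := exists_riemann (K := k) (F := E₂)
  have ht1 := transcendental_tb_fst G
  have ht2 := transcendental_tb_snd G
  have hd1 : (1 : ℤ) ≤ finrank k⟮(tb G).1⟯ E₁ := by exact_mod_cast finrank_pos ht1
  have hd2 : (1 : ℤ) ≤ finrank k⟮(tb G).2⟯ E₂ := by exact_mod_cast finrank_pos ht2
  let n := n₀ + (c₁ + Nat.card (nodeSet G hk 𝒩 G.t)).toNat + c₂.toNat
  have q1 := Int.self_le_toNat (c₁ + Nat.card (nodeSet G hk 𝒩 G.t))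
  have q2 := Int.self_le_toNat c₂
  have q3 : (n : ℤ) = n₀ + (c₁ + Nat.card (nodeSet G hk 𝒩 G.t)).toNat + c₂.toNat := by
    simp only [n]; push_cast; ring
  have q4 : (0 : ℤ) ≤ n₀ := by positivity
  have q5 : (0 : ℤ) ≤ (c₁ + Nat.card (nodeSet G hk 𝒩 G.t)).toNat := by positivity
  have q6 : (0 : ℤ) ≤ c₂.toNat := by positivity
  have hγu : IsUnit γ' := Prod.isUnit_iff.2 ⟨IsUnit.mk0 _ hγ'1, IsUnit.mk0 _ hγ'2⟩
  have hone : ∀ a b : ℕ, (1 : E₁ × E₂) ∈ GS G hk 𝒩 a b := by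
    intro a b
    refine ⟨one_mem_glue _, ?_, ?_⟩
    · change (1 : E₁) ∈ riemannRochSpace (DD k (tb G).1 a b)
      rw [mem_L]
      intro v
      refine (Ge.one v).mono ?_
      rw [DD_apply]
      have p1 := le_max_right (-v.ord (tb G).1) 0
      have p2 := le_max_right (v.ord (tb G).1) 0
      have : (0 : ℤ) ≤ a * max (-v.ord (tb G).1) 0 + b * max (v.ord (tb G).1) 0 := by positivity
      linarith
    · change (1 : E₂) ∈ riemannRochSpace (DD k (tb G).2 a b)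
      rw [mem_L]
      intro v
      refine (Ge.one v).mono ?_
      rw [DD_apply]
      have p1 := le_max_right (-v.ord (tb G).2) 0
      have p2 := le_max_right (v.ord (tb G).2) 0
      have : (0 : ℤ) ≤ a * max (-v.ord (tb G).2) 0 + b * max (v.ord (tb G).2) 0 := by positivity
      linarith
  have hsub_mono : ∀ {a b a' b' : ℕ}, a ≤ a' → b ≤ b' →
      riemannRochSpace (DD K G.t a b - D) ≤ riemannRochSpace (DD K G.t a' b' - D) :=
    fun ha hb => L_mono (sub_le_sub_right (DD_mono G.t ha hb) D)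
  have hrd : ∀ a b, n ≤ a + b → ∀ r : E₁ × E₂,
      r ∈ (G.toRedModel hk hspan).rd hk (riemannRochSpace (DD K G.t a b - D)) ↔
        ∃ s ∈ GS G hk 𝒩 a b, r = γ' * s := by
    intro a b hab r
    have heq := hn₀ m f D γ' 1 hm0 T' a b (by omega)
    constructor
    · intro hr
      refine ⟨pinv γ' * r, ?_, (mul_pinv_cancel hγ'1 hγ'2 r).symm⟩
      change pinv γ' * r ∈ GG _ _ _ _
      rw [← heq]
      exact ⟨r, hr, rfl⟩
    · rintro ⟨s, hs, rfl⟩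
      change s ∈ GG _ _ _ _ at hs
      rw [← heq] at hs
      obtain ⟨r, hr, rfl⟩ := hs
      change γ' * (pinv γ' * r) ∈ _
      rw [mul_pinv_cancel hγ'1 hγ'2]
      exact hr
  obtain ⟨x, -, hx⟩ := (G.toRedModel hk hspan).rigidity_abstract hk hA hrank hm T.hf hγu hπ'
    (fun a b => riemannRochSpace (DD K G.t a b)) (fun a b => riemannRochSpace (DD K G.t a b - D))
    (fun ha hb => L_mono (DD_mono G.t ha hb)) (fun ha hb => hsub_mono ha hb)
    (by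
      change (1 : F) ∈ riemannRochSpace (DD K G.t 0 0)
      rw [mem_L]
      intro v
      refine (Ge.one v).mono ?_
      rw [DD_apply]; simp)
    (by
      intro a b c d x y hx hy
      have := L_mul_mem hx hy
      have e : DD K G.t a b + DD K G.t c d = DD K G.t (a + c) (b + d) := by
        ext v
        simp only [Finsupp.add_apply, DD_apply]
        push_cast
        ring
      rwa [e] at this)
    (by
      intro a b c d x y hx hy
      have := L_mul_mem hx hy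
      have e : DD K G.t a b - D + DD K G.t c d = DD K G.t (a + c) (b + d) - D := by
        ext v
        simp only [Finsupp.add_apply, Finsupp.sub_apply, DD_apply]
        push_cast
        ring
      rwa [e] at this)
    (fun hx => pow_mul_inv_mem T.ne_zero hm0 T.hD hx)
    (GS G hk 𝒩) hone n hrd
    (by
      intro a b ha hb s hs
      have key := GG_sup (𝒩.restrict (nodeSet G hk 𝒩 G.t)) (g₁ := rrGenus k E₁)
        (g₂ := rrGenus k E₂) hc₁ hc₂ 1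
        (DD k (tb G).1 a n) (DD k (tb G).1 n b) (DD k (tb G).2 a n) (DD k (tb G).2 n b)
        (fun j => DD_eq_zero (H.hv j) _ _) (fun j => DD_eq_zero (H.hw j) _ _)
        (fun j => DD_eq_zero (H.hv j) _ _) (fun j => DD_eq_zero (H.hw j) _ _)
        (by rw [DD_inf' _ ha hb, degree_DD ht1]; nlinarith)
        (by rw [DD_inf' _ ha hb, degree_DD ht2]; nlinarith)
      rw [DD_sup' _ ha hb, DD_sup' _ ha hb] at key
      change s ∈ GG _ _ _ _ at hs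
      rw [← key] at hs
      obtain ⟨s1, hs1, s2, hs2, h⟩ := Submodule.mem_sup.1 hs
      exact ⟨s1, hs1, s2, hs2, h.symm⟩)
    (by
      rintro a b ha hb x ⟨hx1, hx2⟩
      change x ∈ riemannRochSpace (DD K G.t a n - D) at hx1
      change x ∈ riemannRochSpace (DD K G.t n b - D) at hx2
      have h3 := (mem_L_inf _ _ _).2 ⟨hx1, hx2⟩
      have e : (DD K G.t a n - D) ⊓ (DD K G.t n b - D) = DD K G.t n n - D := by
        have h4 := DD_inf' (k := K) G.t ha hb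
        ext v
        have h5 := congrArg (fun z : Divisor K F => z v) h4
        simp only [Finsupp.inf_apply] at h5
        rw [Finsupp.inf_apply, Finsupp.sub_apply, Finsupp.sub_apply, Finsupp.sub_apply, ← h5]
        exact min_sub_sub_right _ _ _
      rwa [e] at h3)
  exact ⟨x, hx⟩

include hspan H in
/-- Kummer classes with the same reduction data coincide. -/
theorem exists_pow_eq_div (hA : ∃ t : A, t ≠ 0 ∧ ¬ IsUnit t)
    (hrank : ∀ a c : A, algebraMap A k a = 0 → c ≠ 0 → ∃ n : ℕ, c ∣ a ^ n)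
    (hm : (m : k) ≠ 0) (T : TwData G hk 𝒩 m f D γ ζ) (T' : TwData G hk 𝒩 m f' D' γ' ζ) :
    ∃ x : F, x ^ m = f' / f := by
  have hm0 : m ≠ 0 := by rintro rfl; simp at hm
  have h := mul hspan H hm0 T' (inv hspan H hm0 T)
  rw [← div_eq_mul_inv] at h
  refine rigid hspan H hA hrank hm h 1 (one_pow m) fun j => ?_
  exact mul_inv_cancel₀ (zeta_ne_zero hm0 T j)

end TwData

end Fermat.Agent.Nod
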