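import Fermat.Agent.Nod.Transport

/-!
# The action of inertia and Frobenius on Kummer classes of a nodal model
-/

set_option autoImplicit false
set_option linter.style.haveILetI false
set_option linter.unusedSectionVars false

namespace Fermat.Agent.Nod

open AlgebraicCurve Fermat.Agent.Curve Fermat.Agent.RR Fermat.Agent.Red Module Polynomial
  IntermediateField

variable {A K F k E₁ E₂ : Type*} [CommRing A] [IsDomain A] [ValuationRing A]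
  [Field K] [Algebra A K] [IsFractionRing A K] [Field F] [Algebra K F] [Algebra A F]
  [IsScalarTower A K F] [Field k] [Algebra A k] [Field E₁] [Field E₂] [Algebra k E₁]
  [Algebra k E₂] [Algebra A E₁] [Algebra A E₂] [IsScalarTower A k E₁] [IsScalarTower A k E₂]
  [IsAlgClosed K] [IsAlgClosed k] [CharZero K] [FunField K F] [FunField k E₁] [FunField k E₂]

variable {ι₀ : Type*} [Fintype ι₀] [Nonempty ι₀] {G : GaussData A K F k (E₁ × E₂) ι₀}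
  {hk : Function.Surjective (algebraMap A k)}
  {ι : Type*} [Finite ι] {𝒩 : Nodes k E₁ E₂ ι}
  (hspan : ∀ x : F, ∃ q : K[X], q ≠ 0 ∧ ∃ P : ι₀ → K[X], aeval G.t q * x = G.comb P)
  (H : NodMod G hk hspan 𝒩)

theorem exists_divisor {m : ℕ} (hm : m ≠ 0) {f : F} (hf : f ≠ 0)
    (h : ∀ v : Place K F, (m : ℤ) ∣ v.ord f) : ∃ D : Divisor K F, ∀ v, (m : ℤ) * D v = v.ord f := by
  have hfin := finite_ord (K := K) hf
  choose D hD using h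
  refine ⟨Finsupp.ofSupportFinite D (hfin.subset ?_), fun v => (hD v).symm⟩
  intro v hv
  change v.ord f ≠ 0
  rw [hD v]
  exact mul_ne_zero (by exact_mod_cast hm) hv

/-- inertial automorphisms -/
structure NodAut.IsInertial (Θ : NodAut G hk 𝒩) : Prop where
  h₁ : Θ.g₁ = 1
  h₂ : Θ.g₂ = 1
  hs : Θ.s = Equiv.refl _

namespace NodAut

variable (Θ : NodAut G hk 𝒩)

theorem smul_ne_zero' {x : F} (hx : x ≠ 0) : Θ.θ • x ≠ 0 := (smul_ne_zero_iff_ne Θ.θ).2 hx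

include hspan H in
/-- The cocycle of `θ f / f` for inertial `θ`. -/
theorem IsInertial.exists_tw {Θ : NodAut G hk 𝒩} (hΘ : Θ.IsInertial) {m : ℕ} (hm : m ≠ 0) {f : F}
    (hf : f ∈ G.W) (h1 : (G.π ⟨f, hf⟩).1 ≠ 0) (h2 : (G.π ⟨f, hf⟩).2 ≠ 0)
    (hD : ∀ v : Place K F, (m : ℤ) ∣ v.ord f) :
    ∃ D ζ, TwData G hk 𝒩 m (Θ.θ • f / f) D 1 ζ := by
  have hf0 : f ≠ 0 := by
    rintro rfl
    have h0 : (⟨0, hf⟩ : G.W) = 0 := rfl
    rw [h0, map_zero] at h1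
    exact h1 rfl
  obtain ⟨fu, hfu⟩ : IsUnit (⟨f, hf⟩ : G.W) :=
    G.isUnit_of _ (Prod.isUnit_iff.2 ⟨IsUnit.mk0 _ h1, IsUnit.mk0 _ h2⟩)
  have hfinv : ((↑fu⁻¹ : G.W) : F) = f⁻¹ := by
    have h1 : ((↑fu : G.W) : F) * ((↑fu⁻¹ : G.W) : F) = 1 := by
      rw [← MulMemClass.coe_mul, Units.mul_inv]; rfl
    rw [hfu] at h1
    exact eq_inv_of_mul_eq_one_right h1
  have hmem : f⁻¹ ∈ G.W := by rw [← hfinv]; exact Subtype.prop _
  have e1 : (⟨f⁻¹, hmem⟩ : G.W) = ↑fu⁻¹ := Subtype.ext hfinv.symm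
  have hu : Θ.θ • f / f ∈ G.W := by
    rw [div_eq_mul_inv]
    exact mul_mem (Θ.hW f hf) hmem
  have hπu : G.π ⟨Θ.θ • f / f, hu⟩ = (1 : E₁ × E₂) ^ m := by
    have e2 : (⟨Θ.θ • f / f, hu⟩ : G.W) = ⟨Θ.θ • f, Θ.hW f hf⟩ * ⟨f⁻¹, hmem⟩ :=
      Subtype.ext (div_eq_mul_inv _ _)
    rw [e2, map_mul, Θ.hπ f hf, hΘ.h₁, hΘ.h₂, one_smul, one_smul, Prod.mk.eta, e1, ← hfu,
      ← map_mul, Units.mul_inv, map_one, one_pow]
  have hD' : ∀ v : Place K F, (m : ℤ) ∣ v.ord (Θ.θ • f / f) := by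
    intro v
    rw [ord_div v (Θ.smul_ne_zero' hf0) hf0]
    refine dvd_sub ?_ (hD v)
    have := SemilinearAut.ord_smul Θ.θ (Θ.θ⁻¹ • v) f
    rw [smul_inv_smul] at this
    have h3 : v.ord (Θ.θ • f) = (Θ.θ⁻¹ • v).ord f := this
    rw [h3]
    exact hD _
  obtain ⟨D, hD''⟩ := exists_divisor hm (div_ne_zero (Θ.smul_ne_zero' hf0) hf0) hD'
  obtain ⟨ζ, T⟩ := TwData.exists_tw hspan H hu hm hπu one_ne_zero one_ne_zero hD''
  exact ⟨D, ζ, T⟩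

include hspan H in
/-- **Inertia acts unipotently of level two on Kummer classes.** -/
theorem IsInertial.unip (hA : ∃ t : A, t ≠ 0 ∧ ¬ IsUnit t)
    (hrank : ∀ a c : A, algebraMap A k a = 0 → c ≠ 0 → ∃ n : ℕ, c ∣ a ^ n)
    {Θ Θ' : NodAut G hk 𝒩} (hΘ : Θ.IsInertial) (hΘ' : Θ'.IsInertial)
    {m : ℕ} (hm : (m : k) ≠ 0) {f : F}
    (hf : f ∈ G.W) (h1 : (G.π ⟨f, hf⟩).1 ≠ 0) (h2 : (G.π ⟨f, hf⟩).2 ≠ 0)
    (hD : ∀ v : Place K F, (m : ℤ) ∣ v.ord f) :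
    ∃ x : F, x ^ m = (Θ'.θ • (Θ.θ • f / f)) / (Θ.θ • f / f) := by
  have hm0 : m ≠ 0 := by rintro rfl; simp at hm
  obtain ⟨D, ζ, T⟩ := hΘ.exists_tw hspan H hm0 hf h1 h2 hD
  have T' := Θ'.tw hspan H hm0 T
  have e1 : (Θ'.g₁ • (1 : E₁ × E₂).1, Θ'.g₂ • (1 : E₁ × E₂).2) = (1 : E₁ × E₂) := by
    rw [hΘ'.h₁, hΘ'.h₂, one_smul, one_smul]
  have e2 : (fun j => SemilinearAut.baseAut Θ'.g₁ (ζ (Θ'.s.symm j))) = ζ := by
    funext j
    rw [hΘ'.h₁, hΘ'.hs]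
    rfl
  rw [e1, e2] at T'
  exact TwData.exists_pow_eq_div hspan H hA hrank hm T T'

include hspan H in
/-- **Frobenius acts as `Q` on the toric part.** Here `θ` induces `z ↦ z ^ Q` on `k`, fixes the
nodes, and `θ f / f` has reduction an `m`-th power. -/
theorem frob_toric (hA : ∃ t : A, t ≠ 0 ∧ ¬ IsUnit t)
    (hrank : ∀ a c : A, algebraMap A k a = 0 → c ≠ 0 → ∃ n : ℕ, c ∣ a ^ n)
    (Θ : NodAut G hk 𝒩) (hs : Θ.s = Equiv.refl _) {Q : ℕ}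
    (hQ : ∀ z : k, SemilinearAut.baseAut Θ.g₁ z = z ^ Q)
    {m : ℕ} (hm : (m : k) ≠ 0) {u : F} (hu : u ∈ G.W) {γ : E₁ × E₂}
    (hπ : G.π ⟨u, hu⟩ = γ ^ m) (h1 : γ.1 ≠ 0) (h2 : γ.2 ≠ 0)
    (hD : ∀ v : Place K F, (m : ℤ) ∣ v.ord u) :
    ∃ x : F, x ^ m = (Θ.θ • u) / u ^ Q := by
  have hm0 : m ≠ 0 := by rintro rfl; simp at hm
  have hu0 := TwData.ne_zero_f hπ h1
  obtain ⟨D, hD'⟩ := exists_divisor hm0 hu0 hD
  obtain ⟨ζ, T⟩ := TwData.exists_tw hspan H hu hm0 hπ h1 h2 hD'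
  have T' := Θ.tw hspan H hm0 T
  have T'' := TwData.pow hspan H hm0 T Q
  have e2 : (fun j => SemilinearAut.baseAut Θ.g₁ (ζ (Θ.s.symm j))) = ζ ^ Q := by
    funext j
    rw [hQ, hs]
    rfl
  rw [e2] at T'
  exact TwData.exists_pow_eq_div hspan H hA hrank hm T'' T'

end NodAut

end Fermat.Agent.Nod
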