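import Fermat.Agent.Kum.Final
import Fermat.Agent.GalRep.LocalCond
import Fermat.Agent.Nod.Qbar

/-!
# The Hecke modules attached to the Kummer classes, and their local structure
-/

set_option autoImplicit false
set_option linter.style.haveILetI false
set_option linter.unusedSectionVars false

noncomputable section

namespace Fermat.Agent.Nod

open Fermat.Agent.GalRep Fermat.Agent.Kum ModularCurve AlgebraicCurve Fermat.Agent.ModPoly
  Fermat.Agent.HeckeHom Fermat.Agent.SemiSt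

section BGM

variable {N : ℕ} [NeZero N]

theorem mem_badSet_of_dvd (p q : ℕ) (hq : q ∣ N) : q ∈ badSet N p := dvd_mul_of_dvd_left hq p

variable (N) in
/-- the Galois action on the Hecke module `Hom_par(Γ₀(N), ℤ) / m` -/
def rhoX (ι : AlgebraicClosure ℚ →+* ℂ) (m p : ℕ) [NeZero m] :
    letI := modX N m p
    GQ →* Module.End (T₀ N p) (XL N m) :=
  letI := modX N m p
  { toFun := fun σ =>
      { toFun := rhoF ι m σ
        map_add' := rhoF_add ι σ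
        map_smul' := fun a ξ => rhoF_act ι (mem_badSet_of_dvd p) σ a ξ }
    map_one' := LinearMap.ext fun ξ => rhoF_one ι ξ
    map_mul' := fun σ τ => LinearMap.ext fun ξ => rhoF_mul ι σ τ ξ }

theorem isBGM_rhoX (p : ℕ) [Fact p.Prime] (ι : AlgebraicClosure ℚ →+* ℂ) :
    ∃ c : ℕ, ∀ n : ℕ, ∀ m : ℕ, m = p ^ (n + c) → ∀ [NeZero m],
      letI := modX N m p
      IsBGM N p n (XL N m) (rhoX N ι m p) := by
  have hp : p ≠ 0 := (Fact.out : p.Prime).ne_zero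
  letI := modL N p
  obtain ⟨c, hc⟩ := exists_faithful_bound (T := T₀ N p) (L := LZ N) (fun a ha => by
    apply actL_injective N
    rw [map_zero]
    exact LinearMap.ext ha) p hp
  refine ⟨c, fun n m hm => ?_⟩
  subst hm
  intro _
  set m : ℕ := p ^ (n + c) with hm
  letI := modX N m p
  have hlm : ∀ q : ℕ, q.Prime → q ∉ badSet N p → ¬ q ∣ m := by
    intro q hq hqS hqm
    apply hqS
    exact dvd_mul_of_dvd_right (hq.dvd_of_dvd_pow hqm) N
  have hG : ∀ (m ℓ : ℕ), ℓ.Prime → ¬ ℓ ∣ N → ¬ ℓ ∣ m →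
      ∀ A : ValuationSubring (AlgebraicClosure ℚ), A.LiesOverPrime ℓ → GoodRed N m A :=
    fun _ _ hℓ hN hm _ hA => goodRed hℓ hN hm hA
  refine ⟨?_, ?_, ?_, ?_, ?_⟩
  · refine ⟨n + c, fun ξ => ?_⟩
    obtain ⟨φ, rfl⟩ := mkX_surjective ξ
    exact mkX_nsmul φ
  · obtain ⟨L, hL, h⟩ := exists_level_rhoF (N := N) (m := m) (K := AlgebraicClosure ℚ) ι
    exact ⟨L, hL, fun σ hσ => LinearMap.ext fun ξ => h σ hσ ξ⟩
  · intro q hq hqS A hA σ hσ
    refine LinearMap.ext fun ξ => ?_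
    exact rhoF_inertia ι (hG m q hq (fun h => hqS (dvd_mul_of_dvd_left h p)) (hlm q hq hqS) A hA)
      hσ ξ
  · intro ℓ hℓ hℓS A hA σ hσ ξ
    exact rhoF_frob ι (hG m ℓ hℓ (not_dvd_of_notMem_badSet hℓS) (hlm ℓ hℓ hℓS) A hA) hℓ
      (not_dvd_of_notMem_badSet hℓS) hℓS hA hσ ξ
  · intro a ha
    obtain ⟨b, hb⟩ := hc n a (fun φ => by
      have h1 : (mkX (actL N (badSet N p) a φ) : XL N m) = mkX 0 := by
        rw [map_zero]
        exact ha (mkX φ)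
      rw [mkX_eq_iff, redI_zero, redI_eq_zero] at h1
      obtain ⟨ψ, hψ⟩ := h1
      exact ⟨ψ, hψ⟩)
    exact ⟨b, hb⟩

end BGM

section Unip

variable {A : ValuationSubring (AlgebraicClosure ℚ)} {q M : ℕ} [hq : Fact q.Prime] [NeZero M]

theorem unip_E (hA : A.LiesOverPrime q) (hqM : ¬ q ∣ M) {σ : GQ}
    (hσ : σ ∈ A.inertiaSubgroupIn ℚ) {m : ℕ} (hm : ¬ q ∣ m)
    {E : IntermediateField (AlgebraicClosure ℚ) (LaurentSeries (AlgebraicClosure ℚ))}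
    (hE : E = modularFunctionFieldFullC (AlgebraicClosure ℚ) (q * M))
    {f f₁ f₂ : E} (hf : f ≠ 0) (hD : ∀ v : Place (AlgebraicClosure ℚ) E, (m : ℤ) ∣ v.ord f)
    (h1 : (f₁ : LaurentSeries (AlgebraicClosure ℚ)) =
      coeffMap (σ : AlgebraicClosure ℚ →+* AlgebraicClosure ℚ) f)
    (h2 : (f₂ : LaurentSeries (AlgebraicClosure ℚ)) =
      coeffMap (σ : AlgebraicClosure ℚ →+* AlgebraicClosure ℚ) f₁) :
    ∃ z : E, f₂ * f = f₁ ^ 2 * z ^ m := by
  subst hE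
  obtain ⟨x, hx⟩ := unip_FF hA hqM hσ hσ hm hf hD
  have e1 : act (q * M) (σ : AlgebraicClosure ℚ ≃+* AlgebraicClosure ℚ) f = f₁ :=
    Subtype.ext h1.symm
  have e2 : act (q * M) (σ : AlgebraicClosure ℚ ≃+* AlgebraicClosure ℚ) f₁ = f₂ :=
    Subtype.ext h2.symm
  have hf1 : f₁ ≠ 0 := by
    rw [← e1]
    exact (_root_.map_ne_zero _).2 hf
  rw [map_div₀, e1, e2] at hx
  refine ⟨x, ?_⟩
  rw [hx]
  field_simp

variable {m : ℕ} [NeZero m] (ι : AlgebraicClosure ℚ →+* ℂ)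

theorem rhoF_unip (hA : A.LiesOverPrime q) (hqM : ¬ q ∣ M) {σ : GQ}
    (hσ : σ ∈ A.inertiaSubgroupIn ℚ) (hm : ¬ q ∣ m) (ξ : XL (q * M) m) :
    rhoF ι m σ (rhoF ι m σ ξ) - 2 • rhoF ι m σ ξ + ξ = 0 := by
  obtain ⟨x, hx, rfl⟩ := exists_cls_eq' (K := AlgebraicClosure ℚ) ι ξ
  have h1 : Good m (galK σ x) := KD.gal σ hx
  have h2 : Good m (galK σ (galK σ x)) := KD.gal σ h1
  obtain ⟨z, hz⟩ := unip_E hA hqM hσ hm (X0Genus.baseChange_eq (AlgebraicClosure ℚ) (q * M))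
    hx.1 (fun v => (Dvd.intro _ (Nat.cast_mul m (Kum.tb (q * M))).symm).trans (hx.2 v))
    (f₁ := galK σ x) (f₂ := galK σ (galK σ x)) rfl rfl
  rw [rhoF_cls ι σ hx, rhoF_cls ι σ h1]
  have e1 : cls ι m (galK σ (galK σ x) * x) = cls ι m (galK σ x ^ 2) := by
    rw [hz]
    apply cls_eq_of_mul_pow ι (h1.pow 2)
    rw [← hz]
    exact KD.mul h2 hx
  rw [cls_mul ι h2 hx, cls_pow ι h1] at e1
  rw [← e1]
  abel

end Unip

/-- **Inertia at `q ‖ N` is unipotent on the Hecke modules.** -/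
theorem hasUnip {N p q : ℕ} [NeZero N] [Fact p.Prime] (hq : q.Prime) (hqp : q ≠ p)
    (hqN : q ∣ N) (hq2 : ¬ q ^ 2 ∣ N) : HasUnip N p q := by
  haveI : Fact q.Prime := ⟨hq⟩
  have hp : p ≠ 0 := (Fact.out : p.Prime).ne_zero
  obtain ⟨M, rfl⟩ := hqN
  haveI : NeZero M := ⟨right_ne_zero_of_mul (NeZero.ne (q * M))⟩
  have hqM : ¬ q ∣ M := fun h => hq2 (by
    rw [pow_two]
    exact mul_dvd_mul_left q h)
  obtain ⟨ι⟩ := RedMod.exists_ιC
  obtain ⟨c, hc⟩ := isBGM_rhoX (N := q * M) p ι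
  refine ⟨1, one_pos, fun n => ?_⟩
  haveI : NeZero (p ^ (n + c)) := ⟨pow_ne_zero _ hp⟩
  letI := modX (q * M) (p ^ (n + c)) p
  refine ⟨XL (q * M) (p ^ (n + c)), inferInstance, inferInstance, rhoX (q * M) ι (p ^ (n + c)) p,
    hc n _ rfl, ?_⟩
  intro A hA σ hσ x
  rw [one_smul]
  exact rhoF_unip ι hA hqM hσ (fun h => hqp
    ((Nat.prime_dvd_prime_iff_eq hq Fact.out).1 (hq.dvd_of_dvd_pow h))) x

end Fermat.Agent.Nod
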