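import Fermat.Agent.Nod.Wx
import Fermat.Agent.Nod.KumBGM

/-!
# Frobenius acts as `q²` on Kummer classes whose norms vanish
-/

set_option autoImplicit false
set_option linter.style.haveILetI false
set_option linter.unusedSectionVars false

noncomputable section

namespace Fermat.Agent.Nod

open ModularCurve Polynomial IntermediateField Fermat.Agent.ModPoly Fermat.Agent.Red
  Fermat.Agent.RedMod Fermat.Agent.Cusp Fermat.Agent.SemiSt AlgebraicCurve Fermat.Agent.Curve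
  Fermat.Agent.RR

section Alg

variable {F : Type*} [Field F]

theorem toric_aux (G : F →+* F) {a b s₁ s₂ : F} {m : ℕ} (ha : a ≠ 0) (hb : b ≠ 0)
    (h1 : a * G b = s₁ ^ m) (h2 : b * G a = s₂ ^ m) :
    G (G a) / a = (G s₂ / s₁) ^ m ∧ G (G b) / b = (G s₁ / s₂) ^ m := by
  have hGa : G a ≠ 0 := (_root_.map_ne_zero G).2 ha
  have hGb : G b ≠ 0 := (_root_.map_ne_zero G).2 hb
  constructor
  · rw [div_pow, ← map_pow, ← h1, ← h2, map_mul]
    field_simp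
  · rw [div_pow, ← map_pow, ← h1, ← h2, map_mul]
    field_simp

theorem frob_identity (S : F →+* F) {f g : F} (hf : f ≠ 0) (hg : g ≠ 0) (m Q : ℕ) :
    S (S (f * g ^ m) / (f * g ^ m)) / (S (f * g ^ m) / (f * g ^ m)) ^ Q =
      (S (S f) * f ^ Q / S f ^ (Q + 1)) * (S (S g / g) / (S g / g) ^ Q) ^ m := by
  have h1 : S f ≠ 0 := (_root_.map_ne_zero S).2 hf
  have h2 : S g ≠ 0 := (_root_.map_ne_zero S).2 hg
  have h3 : S (S g) ≠ 0 := (_root_.map_ne_zero S).2 h2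
  simp only [map_div₀, map_mul, map_pow, div_pow, mul_pow, ← pow_mul]
  rw [mul_comm m Q]
  field_simp
  ring

end Alg

section Abs

variable {A K F k E₁ E₂ : Type*} [CommRing A] [IsDomain A] [ValuationRing A]
  [Field K] [Algebra A K] [IsFractionRing A K] [Field F] [Algebra K F] [Algebra A F]
  [IsScalarTower A K F] [Field k] [Algebra A k] [Field E₁] [Field E₂] [Algebra k E₁]
  [Algebra k E₂] [Algebra A E₁] [Algebra A E₂] [IsScalarTower A k E₁] [IsScalarTower A k E₂]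
  [IsAlgClosed K] [IsAlgClosed k] [CharZero K] [FunField K F] [FunField k E₁] [FunField k E₂]

variable {ι₀ : Type*} [Fintype ι₀] [Nonempty ι₀] {G : GaussData A K F k (E₁ × E₂) ι₀}
  {hk : Function.Surjective (algebraMap A k)}
  {ι : Type*} [Finite ι] {𝒩 : Nodes k E₁ E₂ ι}
  (hspan : ∀ x : F, ∃ q : K[X], q ≠ 0 ∧ ∃ P : ι₀ → K[X], aeval G.t q * x = G.comb P)
  (H : NodMod G hk hspan 𝒩)

include hspan H in
/-- Frobenius acts as `Q` on `θ f / f` if the reduction of the latter is an `m`-th power. -/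
theorem NodAut.frob_toric' (hA : ∃ t : A, t ≠ 0 ∧ ¬ IsUnit t)
    (hrank : ∀ a c : A, algebraMap A k a = 0 → c ≠ 0 → ∃ n : ℕ, c ∣ a ^ n)
    (Θ : NodAut G hk 𝒩) (hs : Θ.s = Equiv.refl _) {Q : ℕ}
    (hQ : ∀ z : k, SemilinearAut.baseAut Θ.g₁ z = z ^ Q)
    {m : ℕ} (hm : (m : k) ≠ 0) {f : F} (hf : f ∈ G.W)
    (h1 : (G.π ⟨f, hf⟩).1 ≠ 0) (h2 : (G.π ⟨f, hf⟩).2 ≠ 0) {γ₁ : E₁} {γ₂ : E₂}
    (hγ₁ : (Θ.g₁ • (G.π ⟨f, hf⟩).1) / (G.π ⟨f, hf⟩).1 = γ₁ ^ m)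
    (hγ₂ : (Θ.g₂ • (G.π ⟨f, hf⟩).2) / (G.π ⟨f, hf⟩).2 = γ₂ ^ m)
    (hD : ∀ v : Place K F, (m : ℤ) ∣ v.ord f) :
    ∃ x : F, x ^ m = (Θ.θ • (Θ.θ • f / f)) / (Θ.θ • f / f) ^ Q := by
  have hm0 : m ≠ 0 := by rintro rfl; simp at hm
  have hf0 : f ≠ 0 := by
    rintro rfl
    have h0 : (⟨0, hf⟩ : G.W) = 0 := rfl
    rw [h0, map_zero] at h1
    exact h1 rfl
  obtain ⟨fu, hfu⟩ : IsUnit (⟨f, hf⟩ : G.W) :=
    G.isUnit_of _ (Prod.isUnit_iff.2 ⟨IsUnit.mk0 _ h1, IsUnit.mk0 _ h2⟩)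
  have hfinv : ((↑fu⁻¹ : G.W) : F) = f⁻¹ := by
    have h1 : ((↑fu : G.W) : F) * ((↑fu⁻¹ : G.W) : F) = 1 := by
      rw [← MulMemClass.coe_mul, Units.mul_inv]; rfl
    rw [hfu] at h1
    exact eq_inv_of_mul_eq_one_right h1
  have hmem : f⁻¹ ∈ G.W := by rw [← hfinv]; exact Subtype.prop _
  have e1 : (⟨f⁻¹, hmem⟩ : G.W) = ↑fu⁻¹ := Subtype.ext hfinv.symm
  have hu : Θ.θ • f / f ∈ G.W := by
    rw [div_eq_mul_inv]
    exact mul_mem (Θ.hW f hf) hmem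
  have e3 : G.π (↑fu⁻¹ : G.W) = ((G.π ⟨f, hf⟩).1⁻¹, (G.π ⟨f, hf⟩).2⁻¹) := by
    have e4 : G.π ⟨f, hf⟩ * G.π (↑fu⁻¹ : G.W) = 1 := by
      rw [← hfu, ← map_mul, Units.mul_inv, map_one]
    apply Prod.ext
    · exact eq_inv_of_mul_eq_one_right (congrArg Prod.fst e4)
    · exact eq_inv_of_mul_eq_one_right (congrArg Prod.snd e4)
  have hπu : G.π ⟨Θ.θ • f / f, hu⟩ = (γ₁, γ₂) ^ m := by
    have e2 : (⟨Θ.θ • f / f, hu⟩ : G.W) = ⟨Θ.θ • f, Θ.hW f hf⟩ * ⟨f⁻¹, hmem⟩ :=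
      Subtype.ext (div_eq_mul_inv _ _)
    rw [e2, map_mul, Θ.hπ f hf, e1, e3]
    apply Prod.ext
    · change _ * _ = γ₁ ^ m
      rw [← hγ₁, div_eq_mul_inv]
    · change _ * _ = γ₂ ^ m
      rw [← hγ₂, div_eq_mul_inv]
  have hne1 : γ₁ ≠ 0 := by
    rintro rfl
    rw [zero_pow hm0, div_eq_zero_iff] at hγ₁
    rcases hγ₁ with h | h
    · exact h1 ((smul_eq_zero_iff_eq _).1 h)
    · exact h1 h
  have hne2 : γ₂ ≠ 0 := by
    rintro rfl
    rw [zero_pow hm0, div_eq_zero_iff] at hγ₂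
    rcases hγ₂ with h | h
    · exact h2 ((smul_eq_zero_iff_eq _).1 h)
    · exact h2 h
  exact Θ.frob_toric hspan H hA hrank hs hQ hm hu hπu hne1 hne2 (by
    intro v
    rw [ord_div v (Θ.smul_ne_zero' hf0) hf0]
    refine dvd_sub ?_ (hD v)
    have := SemilinearAut.ord_smul Θ.θ (Θ.θ⁻¹ • v) f
    rw [smul_inv_smul] at this
    have h3 : v.ord (Θ.θ • f) = (Θ.θ⁻¹ • v).ord f := this
    rw [h3]
    exact hD _)

end Abs

section Main

variable {A K k : Type*} [CommRing A] [IsDomain A] [ValuationRing A]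
  [Field K] [IsAlgClosed K] [CharZero K] [Algebra A K] [IsFractionRing A K]
  [Field k] [IsAlgClosed k] [Algebra A k]
  {q M : ℕ} [hq : Fact q.Prime] [NeZero M] (hco : q.Coprime M) [CharP k q]
  (hk : Function.Surjective (algebraMap A k)) (hM : (M : k) ≠ 0)

include hco hk hM in
theorem isU_of_pow {z : FF K M} {m : ℕ} (hm : m ≠ 0) (h : IsU A K k ((z : LaurentSeries K) ^ m)) :
    IsU A K k (z : LaurentSeries K) := by
  have hz : ((incl K (dvd_mul_left M q) z : FF K (q * M)) : LaurentSeries K) = z :=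
    coe_incl _ z
  have h0 : (z : LaurentSeries K) ∈ WL A K k := by
    by_contra hcon
    rw [← hz] at hcon
    obtain ⟨h1, h2⟩ := inv_mem_of_not_mem (A := A) hco hM hk hcon
    obtain ⟨h3, h4⟩ := h
    have hz0 : (z : LaurentSeries K) ≠ 0 := by
      intro h5
      apply hcon
      rw [hz, h5]
      exact zero_mem _
    have e1 : (⟨(z : LaurentSeries K) ^ m, h3⟩ : WL A K k) * ⟨_, h1⟩ ^ m = 1 := by
      apply Subtype.ext
      change (z : LaurentSeries K) ^ m *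
        (((incl K (dvd_mul_left M q) z : FF K (q * M)) : LaurentSeries K)⁻¹) ^ m = 1
      rw [hz, ← mul_pow, mul_inv_cancel₀ hz0, one_pow]
    have e2 := congrArg (πL A K k) e1
    rw [map_mul, map_pow, h2, zero_pow hm, mul_zero, map_one] at e2
    exact zero_ne_one e2
  refine ⟨h0, ?_⟩
  intro h1
  obtain ⟨h3, h4⟩ := h
  apply h4
  have e1 : (⟨(z : LaurentSeries K) ^ m, h3⟩ : WL A K k) = ⟨_, h0⟩ ^ m := Subtype.ext rfl
  rw [e1, map_pow, h1, zero_pow hm]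

variable [PerfectRing k q]
variable [Algebra A (FF K (q * M))] [IsScalarTower A K (FF K (q * M))]
  [Algebra A (FF k M)] [IsScalarTower A k (FF k M)]

/-- consequence of `Nm x = z ^ m` for the reductions of `x` -/
theorem red_of_Nm {x : FF K (q * M)} (hx : x ∈ WW A K k hco)
    (h1 : (sred K hco hk hM ⟨x, hx⟩).1 ≠ 0) (h2 : (sred K hco hk hM ⟨x, hx⟩).2 ≠ 0)
    {z : FF K M} {m : ℕ} (hm : m ≠ 0) (hz : Nm K q M x = z ^ m) :
    ∃ s : FF k M, (sred K hco hk hM ⟨x, hx⟩).1 *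
      act M (frobeniusEquiv k q) (sred K hco hk hM ⟨x, hx⟩).2 = s ^ m := by
  obtain ⟨h3, h4⟩ := Nm_red hco hk hM hx.1 hx.2
  have e1 : ((sred K hco hk hM ⟨x, hx⟩).1 : LaurentSeries k) =
      πL A K k ⟨(x : LaurentSeries K), hx.1⟩ := coe_sred_fst hco hk hM hx
  have e2 : ((sred K hco hk hM ⟨x, hx⟩).2 : LaurentSeries k) =
      πL A K k ⟨(w K hco x : LaurentSeries K), hx.2⟩ := coe_sred_snd hco hk hM hx
  have hN0 : πL A K k ⟨_, h3⟩ ≠ 0 := by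
    rw [h4]
    refine mul_ne_zero ?_ ?_
    · rw [← e1]
      exact fun h => h1 (Subtype.ext h)
    · rw [_root_.map_ne_zero]
      rw [← e2]
      exact fun h => h2 (Subtype.ext h)
  have hzm : (Nm K q M x : LaurentSeries K) = (z : LaurentSeries K) ^ m := by
    rw [hz, SubmonoidClass.coe_pow]
  have hU : IsU A K k ((z : LaurentSeries K) ^ m) := by
    rw [← hzm]
    exact ⟨h3, hN0⟩
  have hU' := isU_of_pow hco hk hM hm hU
  obtain ⟨h5, h6⟩ := hU'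
  have hz' : ((incl K (dvd_mul_left M q) z : FF K (q * M)) : LaurentSeries K) = z :=
    coe_incl _ z
  have h7 : ((incl K (dvd_mul_left M q) z : FF K (q * M)) : LaurentSeries K) ∈ WL A K k := by
    rw [hz']; exact h5
  have h8 := red_mem (A := A) hco hM hk (incl K (dvd_mul_left M q) z) h7
  refine ⟨⟨_, h8⟩, ?_⟩
  apply Subtype.ext
  rw [SubmonoidClass.coe_pow, MulMemClass.coe_mul, coe_act, e1, e2]
  have e3 : (⟨_, h3⟩ : WL A K k) = ⟨_, h7⟩ ^ m := by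
    apply Subtype.ext
    change (Nm K q M x : LaurentSeries K) = _
    rw [hzm]
    change _ = ((incl K (dvd_mul_left M q) z : FF K (q * M)) : LaurentSeries K) ^ m
    rw [hz']
  have e4 : πL A K k ⟨_, h3⟩ = πL A K k ⟨_, h7⟩ ^ m := by rw [e3, map_pow]
  rw [h4] at e4
  exact e4

end Main

section Qb

local notation "Q̄" => AlgebraicClosure ℚ

attribute [local instance] Spec.algFF

variable {A : ValuationSubring (AlgebraicClosure ℚ)} {q M : ℕ} [hq : Fact q.Prime] [NeZero M]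

/-- **Frobenius acts as `q²` on Kummer classes with vanishing norms.** -/
theorem frob_FF (hA : A.LiesOverPrime q) (hqM : ¬ q ∣ M) (hco : q.Coprime M) {Φ : Q̄ ≃ₐ[ℚ] Q̄}
    (hΦ : A.IsFrobeniusAt Φ q) {m : ℕ} (hm : ¬ q ∣ m)
    {f : FF Q̄ (q * M)} (hf : f ≠ 0) (hD : ∀ v : Place Q̄ (FF Q̄ (q * M)), (m : ℤ) ∣ v.ord f)
    {z₁ z₂ : FF Q̄ M} (hz₁ : Nm Q̄ q M f = z₁ ^ m) (hz₂ : Nm Q̄ q M (w Q̄ hco f) = z₂ ^ m) :
    ∃ x : FF Q̄ (q * M), x ^ m =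
      act (q * M) ((Φ : Q̄ ≃+* Q̄) * (Φ : Q̄ ≃+* Q̄)) (act (q * M) ((Φ : Q̄ ≃+* Q̄) * (Φ : Q̄ ≃+* Q̄)) f) *
        f ^ (q * q) / act (q * M) ((Φ : Q̄ ≃+* Q̄) * (Φ : Q̄ ≃+* Q̄)) f ^ (q * q + 1) := by
  set k := IsLocalRing.ResidueField A with hkdef
  haveI : CharP k q := RedMod.charP_residue hA
  haveI : IsAlgClosed k := inferInstance
  haveI : PerfectRing k q := inferInstance
  have hk : Function.Surjective (algebraMap A k) := IsLocalRing.residue_surjective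
  have hM : (M : k) ≠ 0 := natCast_residue_ne_zero hA hqM
  have hm' : (m : k) ≠ 0 := natCast_residue_ne_zero hA hm
  have hm0 : m ≠ 0 := by rintro rfl; exact hm (dvd_zero q)
  haveI := funField_FF (k := k) (M := M) hM
  haveI := funField_FF (k := Q̄) (M := M) (natCast_ne_zero_K Q̄ M)
  haveI := funField_FF (k := Q̄) (M := q * M) (natCast_ne_zero_K Q̄ (q * M))
  have hgen := Spec.rrGenus_eq_level (A := A) (K := Q̄) exists_ιC.some hk hM
  have hrank : ∀ a c : A, algebraMap A k a = 0 → c ≠ 0 → ∃ n : ℕ, c ∣ a ^ n :=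
    fun a c => rank_one hA a c
  have hq1 := hq.out.one_lt
  obtain ⟨b', hb'⟩ := exists_pow_ne k (n := q * q) (by nlinarith)
  obtain ⟨b, rfl⟩ := hk b'
  have H := nodMod_ng (K := Q̄) hco hk hM hgen b hb'
  obtain ⟨g, hg, hW, h1, h2⟩ := exists_scale_kummer (A := A) (k := k) hco hk hM hrank hm0 hf
  obtain ⟨R₀, hR₀, hR₀1⟩ := exists_decAut_frob hΦ
  let R := R₀.comp R₀
  have hRσ : R.σ = (Φ : Q̄ ≃+* Q̄) * (Φ : Q̄ ≃+* Q̄) := by
    change R₀.σ * R₀.σ = _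
    rw [hR₀]
  have hRb : R.σb = frobeniusEquiv k q * frobeniusEquiv k q := by
    change R₀.σb * R₀.σb = _
    rw [hR₀1]
  have hfix := fix_of_eq_sq (q := q) (M := M) hRb
  -- the norms of the scaled function
  set f' := f * g ^ m with hf'
  have hn1 : Nm Q̄ q M f' = (z₁ * Nm Q̄ q M g) ^ m := by
    rw [hf', map_mul, map_pow, hz₁, mul_pow]
  have hn2 : Nm Q̄ q M (w Q̄ hco f') = (z₂ * Nm Q̄ q M (w Q̄ hco g)) ^ m := by
    rw [hf', map_mul, map_pow, map_mul, map_pow, hz₂, mul_pow]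
  obtain ⟨s₁, hs₁⟩ := red_of_Nm hco hk hM hW h1 h2 hm0 hn1
  have hwW : w Q̄ hco f' ∈ WW A Q̄ k hco := w_mem_WW hco hW
  have hsw : sred Q̄ hco hk hM ⟨w Q̄ hco f', hwW⟩ =
      ((sred Q̄ hco hk hM ⟨f', hW⟩).2, (sred Q̄ hco hk hM ⟨f', hW⟩).1) := sred_w hco hk hM hW
  obtain ⟨s₂, hs₂⟩ := red_of_Nm hco hk hM hwW (by rw [hsw]; exact h2) (by rw [hsw]; exact h1) hm0
    hn2
  rw [hsw] at hs₂
  set α := (sred Q̄ hco hk hM ⟨f', hW⟩).1 with hα
  set β := (sred Q̄ hco hk hM ⟨f', hW⟩).2 with hβ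
  obtain ⟨t1, t2⟩ := toric_aux (act M (frobeniusEquiv k q) : FF k M ≃+* FF k M).toRingHom h1 h2
    hs₁ hs₂
  let Θ := nodAut (K := Q̄) hco hk hM b R hfix
  have g1 : ∀ x : FF k M, Θ.g₁ • x = act M (frobeniusEquiv k q) (act M (frobeniusEquiv k q) x) := by
    intro x
    change act M R.σb x = _
    rw [hRb, act_mul]
  have g2 : ∀ x : FF k M, Θ.g₂ • x = act M (frobeniusEquiv k q) (act M (frobeniusEquiv k q) x) := g1
  obtain ⟨x, hx⟩ := NodAut.frob_toric' (ng_hspan hco hk hM b) H (exists_nonunit hA) hrank Θ rfl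
    (Q := q * q) (by
      intro z
      change R.σb z = _
      rw [hRb, RingAut.mul_apply, frobeniusEquiv_apply, frobeniusEquiv_apply, frobenius_def,
        frobenius_def, ← pow_mul])
    hm' (f := f') hW h1 h2 (by rw [g1]; exact t1) (by rw [g2]; exact t2) (by
      intro v
      rw [hf', v.ord_mul hf (pow_ne_zero _ hg), ord_pow]
      exact dvd_add (hD v) (dvd_mul_right _ _))
  have hx' : x ^ m = act (q * M) R.σ (act (q * M) R.σ f' / f') /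
      (act (q * M) R.σ f' / f') ^ (q * q) := hx
  have hid := frob_identity (act (q * M) R.σ : FF Q̄ (q * M) ≃+* FF Q̄ (q * M)).toRingHom hf hg m
    (q * q)
  have hid' : act (q * M) R.σ (act (q * M) R.σ f' / f') / (act (q * M) R.σ f' / f') ^ (q * q) =
      (act (q * M) R.σ (act (q * M) R.σ f) * f ^ (q * q) / act (q * M) R.σ f ^ (q * q + 1)) *
      (act (q * M) R.σ (act (q * M) R.σ g / g) / (act (q * M) R.σ g / g) ^ (q * q)) ^ m := hid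
  rw [hid', hRσ] at hx'
  set θ := act (q * M) ((Φ : Q̄ ≃+* Q̄) * (Φ : Q̄ ≃+* Q̄)) with hθ
  have hne : θ (θ g / g) / (θ g / g) ^ (q * q) ≠ 0 := by
    have e1 : θ g ≠ 0 := (_root_.map_ne_zero _).2 hg
    exact div_ne_zero ((_root_.map_ne_zero _).2 (div_ne_zero e1 hg))
      (pow_ne_zero _ (div_ne_zero e1 hg))
  refine ⟨x / (θ (θ g / g) / (θ g / g) ^ (q * q)), ?_⟩
  rw [div_pow, hx', mul_div_cancel_right₀ _ (pow_ne_zero _ hne)]

open Fermat.Agent.Kum Fermat.Agent.GalRep Fermat.Agent.ALCoh Fermat.Agent.HeckeHom in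
theorem frob_E (hA : A.LiesOverPrime q) (hqM : ¬ q ∣ M) (hco : q.Coprime M) {Φ : Q̄ ≃ₐ[ℚ] Q̄}
    (hΦ : A.IsFrobeniusAt Φ q) {m : ℕ} (hm : ¬ q ∣ m)
    {E : IntermediateField Q̄ (LaurentSeries Q̄)} (hE : E = modularFunctionFieldFullC Q̄ (q * M))
    {f f₂ f₄ : E} (hf : f ≠ 0) (hD : ∀ v : Place Q̄ E, (m : ℤ) ∣ v.ord f)
    (h2 : (f₂ : LaurentSeries Q̄) = coeffMap (Φ : Q̄ →+* Q̄) (coeffMap (Φ : Q̄ →+* Q̄) f))
    (h4 : (f₄ : LaurentSeries Q̄) = coeffMap (Φ : Q̄ →+* Q̄) (coeffMap (Φ : Q̄ →+* Q̄) f₂))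
    {x₀ : FF Q̄ (q * M)} (hx₀ : (x₀ : LaurentSeries Q̄) = f)
    {z₁ z₂ : FF Q̄ M} (hz₁ : Nm Q̄ q M x₀ = z₁ ^ m) (hz₂ : Nm Q̄ q M (w Q̄ hco x₀) = z₂ ^ m) :
    ∃ z : E, f₄ * f ^ (q * q) = f₂ ^ (q * q + 1) * z ^ m := by
  subst hE
  have hxf : x₀ = f := Subtype.ext hx₀
  subst hxf
  obtain ⟨x, hx⟩ := frob_FF hA hqM hco hΦ hm hf hD hz₁ hz₂
  have e1 : act (q * M) ((Φ : Q̄ ≃+* Q̄) * (Φ : Q̄ ≃+* Q̄)) x₀ = f₂ := by
    rw [act_mul]
    exact Subtype.ext h2.symm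
  have e2 : act (q * M) ((Φ : Q̄ ≃+* Q̄) * (Φ : Q̄ ≃+* Q̄)) f₂ = f₄ := by
    rw [act_mul]
    exact Subtype.ext h4.symm
  rw [e1, e2] at hx
  have hf2 : f₂ ≠ 0 := by
    rw [← e1]
    exact (_root_.map_ne_zero _).2 hf
  refine ⟨x, ?_⟩
  rw [hx]
  field_simp

end Qb

section Rho

open Fermat.Agent.Kum Fermat.Agent.GalRep Fermat.Agent.ALCoh Fermat.Agent.HeckeHom

variable {A : ValuationSubring (AlgebraicClosure ℚ)} {q M : ℕ} [hq : Fact q.Prime] [NeZero M]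

variable {m : ℕ} [NeZero m] (ι : AlgebraicClosure ℚ →+* ℂ)

theorem tr_redI {N M : ℕ} [NeZero N] (hMN : M ∣ N) (φ : LZ N) :
    tr hMN (ZMod m) (redI m φ) = (Int.castAddHom (ZMod m)).comp (tr hMN ℤ φ.1) := by
  rw [redI, tr, tr, Fam.comp_op]

theorem wop_redI {N Q : ℕ} [NeZero N] (hQ : Q ∣ N) (hco : Q.Coprime (N / Q)) (φ : LZ N) :
    wop hQ hco (ZMod m) (redI m φ) = (Int.castAddHom (ZMod m)).comp (wop hQ hco ℤ φ.1) := by
  rw [redI, wop, wop, Fam.comp_op]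

theorem rhoF_frob_toric (hA : A.LiesOverPrime q) (hqM : ¬ q ∣ M) {Φ : GQ}
    (hΦ : A.IsFrobeniusAt Φ q) (hm : ¬ q ∣ m) (φ : LZ (M * q))
    (h1 : tr (dvd_mul_right M q) ℤ φ.1 = 0)
    (h2 : tr (dvd_mul_right M q) ℤ
      (wop (dvd_mul_left q M) (coprime_of_not_dvd hq.out hqM) ℤ φ.1) = 0) :
    rhoF ι m Φ (rhoF ι m Φ (rhoF ι m Φ (rhoF ι m Φ (mkX φ)))) -
      (q ^ 2 + 1) • rhoF ι m Φ (rhoF ι m Φ (mkX φ)) + q ^ 2 • (mkX φ : XL (M * q) m) = 0 := by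
  have hco : q.Coprime M := (Nat.Prime.coprime_iff_not_dvd hq.out).2 hqM
  obtain ⟨x, hx, hxφ⟩ := exists_cls_eq' (K := AlgebraicClosure ℚ) ι (mkX φ : XL (M * q) m)
  have hrep : Rep (M * q) (coeffMap ι x.1) (redI m φ) := by
    obtain ⟨ψ, hψ⟩ := hx.exists_mk ι
    have e1 := cls_eq ι hx hψ
    rw [hxφ, mkX_eq_iff] at e1
    rw [e1]
    exact hψ
  have hE : FK (AlgebraicClosure ℚ) (M * q) =
      modularFunctionFieldFullC (AlgebraicClosure ℚ) (q * M) := by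
    rw [mul_comm q M]
    exact X0Genus.baseChange_eq (AlgebraicClosure ℚ) (M * q)
  let x₀ : FF (AlgebraicClosure ℚ) (q * M) := ⟨x.1, le_of_eq hE x.2⟩
  have hrep₀ : Rep (M * q) (coeffMap ι (x₀ : LaurentSeries (AlgebraicClosure ℚ))) (redI m φ) := hrep
  obtain ⟨z₁, hz₁⟩ := exists_Nm_pow ι hco hqM hrep₀ (by
    rw [tr_redI, h1, AddMonoidHom.comp_zero])
  obtain ⟨z₂, hz₂⟩ := exists_Nm_pow ι hco hqM (rep_w ι hco hqM hrep₀) (by
    rw [wop_redI, tr, ← Fam.comp_op]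
    change (Int.castAddHom (ZMod m)).comp (tr (dvd_mul_right M q) ℤ _) = 0
    rw [h2, AddMonoidHom.comp_zero])
  have g1 : Good m (galK Φ x) := KD.gal Φ hx
  have g2 : Good m (galK Φ (galK Φ x)) := KD.gal Φ g1
  have g3 : Good m (galK Φ (galK Φ (galK Φ x))) := KD.gal Φ g2
  have g4 : Good m (galK Φ (galK Φ (galK Φ (galK Φ x)))) := KD.gal Φ g3
  obtain ⟨z, hz⟩ := frob_E hA hqM hco hΦ hm hE hx.1
    (fun v => (Dvd.intro _ (Nat.cast_mul m (Kum.tb (M * q))).symm).trans (hx.2 v))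
    (f₂ := galK Φ (galK Φ x)) (f₄ := galK Φ (galK Φ (galK Φ (galK Φ x)))) rfl rfl
    (x₀ := x₀) rfl hz₁ hz₂
  rw [← hxφ, rhoF_cls ι Φ hx, rhoF_cls ι Φ g1, rhoF_cls ι Φ g2, rhoF_cls ι Φ g3]
  have e1 : cls ι m (galK Φ (galK Φ (galK Φ (galK Φ x))) * x ^ (q * q)) =
      cls ι m (galK Φ (galK Φ x) ^ (q * q + 1)) := by
    rw [hz]
    apply cls_eq_of_mul_pow ι (g2.pow _)
    rw [← hz]
    exact KD.mul g4 (hx.pow _)
  rw [cls_mul ι g4 (hx.pow _), cls_pow ι g2, cls_pow ι hx] at e1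
  rw [pow_two, ← e1]
  abel

end Rho

end Fermat.Agent.Nod
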