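import Fermat.Agent.Nod.Sym
import Fermat.Prelude.Def_AlgebraicCurve_BaseChangeGalois

/-!
# The Frobenius correspondence and the candidates for the nodes
-/

set_option autoImplicit false
set_option linter.style.haveILetI false
set_option linter.unusedSectionVars false

namespace Fermat.Agent.Nod

open AlgebraicCurve Fermat.Agent.Curve Fermat.Agent.RR Fermat.Agent.Red Module Polynomial
  IntermediateField

section Semilinear

variable {k E : Type*} [Field k] [Field E] [Algebra k E] (g : SemilinearAut k E)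

theorem ge_smul {v : Place k E} {n : ℤ} {x : E} : Ge (g • v) n (g • x) ↔ Ge v n x := by
  have h : (g • v).ord (g • x) = v.ord x := SemilinearAut.ord_smul g v x
  unfold Ge
  rw [h, smul_eq_zero_iff_eq]

theorem ge_smul' {v : Place k E} {n : ℤ} {x : E} : Ge (g • v) n x ↔ Ge v n (g⁻¹ • x) := by
  rw [← ge_smul g (x := g⁻¹ • x), smul_inv_smul]

theorem val_gsmul [IsAlgClosed k] [FunField k E] {v : Place k E} {x : E} (hx : Ge v 0 x) :
    val (g • v) (g • x) = SemilinearAut.baseAut g (val v x) := by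
  apply val_eq
  have h1 := val_spec hx
  rw [← SemilinearAut.smul_algebraMap, ← smul_sub, ge_smul]
  exact h1

end Semilinear

/-- Regular functions. -/
def regAlg (k : Type*) {E : Type*} [Field k] [Field E] [Algebra k E] (t : E) :
    Subalgebra k E where
  carrier := {x | Reg k t x}
  mul_mem' := fun ha hb => Reg.mul ha hb
  add_mem' := fun ha hb => Reg.add ha hb
  algebraMap_mem' := fun c => Reg.algebraMap t c

theorem mem_regAlg {k : Type*} {E : Type*} [Field k] [Field E] [Algebra k E] {t x : E} :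
    x ∈ regAlg k t ↔ Reg k t x := Iff.rfl

/-- The relative Frobenius `σ` and the semilinear automorphism `g` with `x ^ q = σ (g x)`. -/
structure FrobData (k E : Type*) [Field k] [Field E] [Algebra k E] (q : ℕ) where
  /-- the relative Frobenius -/
  σ : E →ₐ[k] E
  /-- the arithmetic Frobenius -/
  g : SemilinearAut k E
  hq : 1 < q
  hσ : ∀ x : E, σ (g • x) = x ^ q
  /-- the parameter -/
  j : E
  hj : Transcendental k j
  hjσ : σ j = j ^ q

namespace FrobData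

variable {k E : Type*} [Field k] [Field E] [Algebra k E] {q : ℕ} (Φ : FrobData k E q)

theorem σ_eq (x : E) : Φ.σ x = (Φ.g⁻¹ • x) ^ q := by
  rw [← Φ.hσ, smul_inv_smul]

theorem baseAut_apply (a : k) : SemilinearAut.baseAut Φ.g a = a ^ q := by
  have h := Φ.hσ (algebraMap k E a)
  rw [SemilinearAut.smul_algebraMap, AlgHom.commutes, ← map_pow] at h
  exact (algebraMap k E).injective h

theorem g_j : Φ.g • Φ.j = Φ.j := by
  have h := Φ.hσ Φ.j
  rw [← Φ.hjσ] at h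
  exact Φ.σ.injective h

theorem g_inv_j : Φ.g⁻¹ • Φ.j = Φ.j := by
  rw [inv_smul_eq_iff, g_j]

include Φ in
theorem q_pos : 0 < q := lt_trans zero_lt_one Φ.hq

theorem ord_σ (P : Place k E) (x : E) : P.ord (Φ.σ x) = q * (Φ.g • P).ord x := by
  rw [σ_eq, ord_pow]
  congr 1
  conv_rhs => rw [← smul_inv_smul Φ.g x]
  exact (SemilinearAut.ord_smul Φ.g P _).symm

theorem ord_g_j (P : Place k E) : (Φ.g • P).ord Φ.j = P.ord Φ.j := by
  conv_lhs => rw [← Φ.g_j]
  exact SemilinearAut.ord_smul Φ.g P _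

theorem ord_g_inv_j (P : Place k E) : (Φ.g⁻¹ • P).ord Φ.j = P.ord Φ.j := by
  conv_lhs => rw [← Φ.g_inv_j]
  exact SemilinearAut.ord_smul Φ.g⁻¹ P _

theorem ge_σ {P : Place k E} {x : E} (hx : Ge (Φ.g • P) 0 x) : Ge P 0 (Φ.σ x) := by
  rw [ge_smul'] at hx
  rw [σ_eq]
  have := hx.pow q
  rwa [mul_zero] at this

theorem val_σ [IsAlgClosed k] [FunField k E] {P : Place k E} {x : E} (hx : Ge (Φ.g • P) 0 x) :
    val P (Φ.σ x) = val (Φ.g • P) x := by
  have h1 : Ge P 0 (Φ.g⁻¹ • x) := by rwa [ge_smul'] at hx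
  have h2 := val_gsmul Φ.g h1
  rw [smul_inv_smul, baseAut_apply] at h2
  rw [h2, σ_eq, val_pow h1]

theorem reg_σ {x : E} (hx : Reg k Φ.j x) : Reg k Φ.j (Φ.σ x) := by
  intro P hP
  exact Φ.ge_σ (hx _ (by rwa [ord_g_j]))

theorem reg_g_inv {x : E} (hx : Reg k Φ.j x) : Reg k Φ.j (Φ.g⁻¹ • x) := by
  intro P hP
  rw [← ge_smul']
  exact hx _ (by rwa [ord_g_j])

theorem g_inv_σ (x : E) : Φ.g⁻¹ • Φ.σ x = Φ.σ (Φ.g⁻¹ • x) := by
  rw [σ_eq, σ_eq, smul_pow']

/-- `σ` on regular functions -/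
noncomputable def cσ : regAlg k Φ.j →+* regAlg k Φ.j :=
  (Φ.σ : E →+* E).restrict (regAlg k Φ.j) (regAlg k Φ.j) fun _ hx => Φ.reg_σ hx

/-- `g⁻¹` on regular functions -/
noncomputable def cg : regAlg k Φ.j →+* regAlg k Φ.j :=
  ((SemilinearAut.toRingAut Φ.g⁻¹ : E ≃+* E) : E →+* E).restrict (regAlg k Φ.j) (regAlg k Φ.j)
    fun _ hx => Φ.reg_g_inv hx

theorem coe_cσ (x : regAlg k Φ.j) : ((Φ.cσ x : regAlg k Φ.j) : E) = Φ.σ x := rfl

theorem coe_cg (x : regAlg k Φ.j) : ((Φ.cg x : regAlg k Φ.j) : E) = Φ.g⁻¹ • (x : E) := rfl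

theorem cg_cσ (x : regAlg k Φ.j) : Φ.cg (Φ.cσ x) = Φ.cσ (Φ.cg x) :=
  Subtype.ext (Φ.g_inv_σ x)

theorem cσ_eq (x : regAlg k Φ.j) : Φ.cσ x = Φ.cg (x ^ q) := by
  apply Subtype.ext
  rw [coe_cσ, coe_cg, σ_eq]
  push_cast
  rw [smul_pow']

theorem cσ_cσ_eq (x : regAlg k Φ.j) : Φ.cσ (Φ.cσ x) = Φ.cg (Φ.cg (x ^ (q * q))) := by
  rw [cσ_eq, cσ_eq, ← map_pow, ← pow_mul]

/-- the ideal generated by `b - σ² b` -/
noncomputable def J : Ideal (regAlg k Φ.j) :=
  Ideal.span (Set.range fun b : regAlg k Φ.j => b - Φ.cσ (Φ.cσ b))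

theorem sub_mem_J (b : regAlg k Φ.j) : b - Φ.cσ (Φ.cσ b) ∈ Φ.J :=
  Ideal.subset_span ⟨b, rfl⟩

theorem cg_mem_J {x : regAlg k Φ.j} (hx : x ∈ Φ.J) : Φ.cg x ∈ Φ.J := by
  have : Φ.J ≤ Φ.J.comap Φ.cg := by
    rw [J, Ideal.span_le]
    rintro _ ⟨b, rfl⟩
    rw [SetLike.mem_coe, Ideal.mem_comap, map_sub, cg_cσ, cg_cσ]
    exact Ideal.subset_span ⟨Φ.cg b, rfl⟩
  exact this hx

theorem mem_J_of_pow_mem {x : regAlg k Φ.j} (hx : x ^ (q * q) ∈ Φ.J) : x ∈ Φ.J := by
  have h1 : Φ.cσ (Φ.cσ x) ∈ Φ.J := by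
    rw [cσ_cσ_eq]
    exact Φ.cg_mem_J (Φ.cg_mem_J hx)
  have h2 := add_mem (Φ.sub_mem_J x) h1
  rwa [sub_add_cancel] at h2

theorem isRadical_J : Φ.J.IsRadical := by
  have h1 : ∀ s : ℕ, ∀ x : regAlg k Φ.j, x ^ ((q * q) ^ s) ∈ Φ.J → x ∈ Φ.J := by
    intro s
    induction s with
    | zero => intro x hx; simpa using hx
    | succ s ih =>
      intro x hx
      rw [pow_succ, pow_mul] at hx
      exact ih x (Φ.mem_J_of_pow_mem hx)
  rintro x ⟨n, hn⟩
  apply h1 n x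
  have hqq : 1 < q * q := by
    have := Φ.hq
    nlinarith
  have h2 : n ≤ (q * q) ^ n := (Nat.lt_pow_self hqq).le
  obtain ⟨m, hm⟩ := Nat.exists_eq_add_of_le h2
  rw [hm, pow_add]
  exact Ideal.mul_mem_right _ _ hn

variable [IsAlgClosed k] [FunField k E]

/-- Two regular places with the same values coincide. -/
theorem place_eq_of_val {P P' : Place k E} {t : E} (ht : Transcendental k t)
    (hP : 0 ≤ P.ord t) (hP' : 0 ≤ P'.ord t)
    (h : ∀ x, Reg k t x → val P x = val P' x) : P = P' := by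
  classical
  by_contra hne
  obtain ⟨c, hc⟩ := exists_riemann (K := k) (F := E)
  let v : Fin 2 → Place k E := ![P, P']
  have hv : Function.Injective v := by
    intro i j hij
    fin_cases i <;> fin_cases j <;> simp [v] at hij ⊢
    · exact hne hij
    · exact hne hij.symm
  have hd : (1 : ℤ) ≤ finrank k⟮t⟯ E := by exact_mod_cast finrank_pos ht
  have h0 : ∀ i, 0 ≤ (v i).ord t := by
    intro i
    fin_cases i
    · exact hP
    · exact hP'
  obtain ⟨x, hx, hx'⟩ := exists_val_of_degree v hv hc ((c + 2).toNat • poleDiv k t)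
    (fun i => by
      rw [Finsupp.smul_apply, poleDiv_apply, max_eq_right (by linarith [h0 i]), smul_zero])
    (by
      have e := Int.self_le_toNat (c + 2)
      rw [map_nsmul, degree_poleDiv ht, nsmul_eq_mul, Fintype.card_fin]
      push_cast
      nlinarith [Int.natCast_nonneg (c + 2).toNat]) (fun i => if i = 0 then 1 else 0)
  have hreg : Reg k t x := by
    intro w hw
    have := mem_L.1 hx w
    rwa [Finsupp.smul_apply, poleDiv_apply, max_eq_right (by linarith), smul_zero, neg_zero] at this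
  have e0 := hx' 0
  have e1 := hx' 1
  have e2 := h x hreg
  change val P x = _ at e0
  change val P' x = _ at e1
  rw [e0, e1] at e2
  simp at e2

theorem delta_ne_zero : Φ.j ^ (q * q) - Φ.j ≠ 0 := by
  intro h
  apply Φ.hj
  have hqq : 1 < q * q := by
    have := Φ.hq
    nlinarith
  refine ⟨X ^ (q * q) - X, FiniteField.X_pow_card_sub_X_ne_zero k hqq, ?_⟩
  simpa using h

theorem reg_j : Reg k Φ.j Φ.j := fun _ hv => Ge.of_le hv

/-- A prime ideal containing `δ = j^(q²) - j` is the ideal of a place. -/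
theorem exists_place_of_prime (p : Ideal (regAlg k Φ.j)) [hp : p.IsPrime]
    (hδ : (⟨Φ.j, Φ.reg_j⟩ : regAlg k Φ.j) ^ (q * q) - ⟨Φ.j, Φ.reg_j⟩ ∈ p) :
    ∃ P : Place k E, 0 ≤ P.ord Φ.j ∧ ∀ x : regAlg k Φ.j, val P x = 0 → x ∈ p := by
  classical
  have hδ0 := Φ.delta_ne_zero
  have hfin := finite_pos (K := k) hδ0
  by_contra hcon
  push Not at hcon
  have hregZ : ∀ P : Place k E, 0 < P.ord (Φ.j ^ (q * q) - Φ.j) → 0 ≤ P.ord Φ.j := by
    intro P hP
    by_contra hlt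
    push Not at hlt
    have hj0 : Φ.j ≠ 0 := fun h => Φ.hj (h ▸ isAlgebraic_zero)
    have hqq : 1 < q * q := by
      have := Φ.hq
      nlinarith
    have h1 : P.ord (Φ.j ^ (q * q)) < P.ord (-Φ.j) := by
      rw [ord_pow, ord_neg]
      have : (1 : ℤ) < (q * q : ℕ) := by exact_mod_cast hqq
      nlinarith
    have h2 := ord_add_eq_of_lt P (pow_ne_zero _ hj0) (neg_ne_zero.2 hj0) h1
    rw [← sub_eq_add_neg, ord_pow] at h2
    have : (0 : ℤ) < (q * q : ℕ) := by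
      have := Φ.q_pos
      positivity
    nlinarith
  choose! c hc0 hcp using hcon
  -- the product of the `c P`
  set Z := hfin.toFinset with hZ
  have hZmem : ∀ P, P ∈ Z ↔ 0 < P.ord (Φ.j ^ (q * q) - Φ.j) := fun P => hfin.mem_toFinset
  set x : regAlg k Φ.j := ∏ P ∈ Z, c P with hx
  have hxp : x ∉ p := by
    intro h
    rw [hx, Ideal.IsPrime.prod_mem_iff] at h
    obtain ⟨P, hP, h⟩ := h
    exact hcp P (hregZ P ((hZmem P).1 hP)) h
  have hge : ∀ P ∈ Z, Ge P 1 (x : E) := by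
    intro P hP
    have hPj := hregZ P ((hZmem P).1 hP)
    have h1 : Ge P 1 ((c P : regAlg k Φ.j) : E) :=
      (val_eq_zero_iff ((c P).2 P hPj)).1 (hc0 P hPj)
    obtain ⟨y, hy⟩ := Finset.dvd_prod_of_mem c hP
    rw [← hx] at hy
    rw [hy]
    have h2 := h1.mul ((y : regAlg k Φ.j).2 P hPj)
    rw [add_zero] at h2
    exact h2
  -- a power is divisible by `δ`
  obtain ⟨n, hn⟩ : ∃ n : ℕ, ∀ P ∈ Z, P.ord (Φ.j ^ (q * q) - Φ.j) ≤ n := by
    refine ⟨∑ P ∈ Z, (P.ord (Φ.j ^ (q * q) - Φ.j)).toNat, fun P hP => ?_⟩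
    refine (Int.self_le_toNat _).trans ?_
    exact_mod_cast Finset.single_le_sum (f := fun P : Place k E =>
      (P.ord (Φ.j ^ (q * q) - Φ.j)).toNat) (fun _ _ => Nat.zero_le _) hP
  have hreg : Reg k Φ.j ((x : E) ^ n * (Φ.j ^ (q * q) - Φ.j)⁻¹) := by
    intro P hP
    by_cases hPZ : P ∈ Z
    · have h1 := (hge P hPZ).pow n
      have h2 := h1.mul (Ge.of_le (le_refl (P.ord (Φ.j ^ (q * q) - Φ.j)⁻¹)))
      refine h2.mono ?_
      rw [P.ord_inv]
      have := hn P hPZ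
      linarith
    · have h1 : Ge P 0 ((x : E) ^ n) := ge_zero_pow (x.2 P hP) n
      have h2 : P.ord (Φ.j ^ (q * q) - Φ.j) ≤ 0 := by
        by_contra hlt
        push Not at hlt
        exact hPZ ((hZmem P).2 hlt)
      have h3 := h1.mul (Ge.of_le (n := 0) (f := (Φ.j ^ (q * q) - Φ.j)⁻¹) (v := P)
        (by rw [P.ord_inv]; linarith))
      rwa [add_zero] at h3
  have hmem : x ^ n ∈ p := by
    have : x ^ n = ((⟨Φ.j, Φ.reg_j⟩ : regAlg k Φ.j) ^ (q * q) - ⟨Φ.j, Φ.reg_j⟩) * ⟨_, hreg⟩ := by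
      apply Subtype.ext
      push_cast
      field_simp
    rw [this]
    exact Ideal.mul_mem_right _ _ hδ
  exact hxp (hp.mem_of_pow_mem n hmem)

/-- The regular functions vanishing at all the points of degree two over the finite field are in
the ideal generated by `b - σ² b`. -/
theorem mem_J_of_val {c : regAlg k Φ.j} (hc : ∀ P : Place k E, 0 ≤ P.ord Φ.j →
    Φ.g • Φ.g • P = P → val P (c : E) = 0) : c ∈ Φ.J := by
  by_contra hcJ
  have h1 : c ∉ Φ.J.radical := by rwa [Φ.isRadical_J.radical]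
  rw [Ideal.radical_eq_sInf, Ideal.mem_sInf] at h1
  push Not at h1
  obtain ⟨p, ⟨hJp, hp⟩, hcp⟩ := h1
  have hδ : (⟨Φ.j, Φ.reg_j⟩ : regAlg k Φ.j) ^ (q * q) - ⟨Φ.j, Φ.reg_j⟩ ∈ p := by
    have h2 := hJp (Φ.sub_mem_J ⟨Φ.j, Φ.reg_j⟩)
    have h3 : Φ.cσ (Φ.cσ ⟨Φ.j, Φ.reg_j⟩) = (⟨Φ.j, Φ.reg_j⟩ : regAlg k Φ.j) ^ (q * q) := by
      apply Subtype.ext
      rw [coe_cσ, coe_cσ]
      push_cast
      rw [Φ.hjσ, map_pow, Φ.hjσ, ← pow_mul]
    rw [h3] at h2
    have := p.neg_mem h2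
    rwa [neg_sub] at this
  obtain ⟨P, hPj, hP⟩ := Φ.exists_place_of_prime p hδ
  have hreg : ∀ {x : E}, Reg k Φ.j x → Ge P 0 x := fun hx => hx P hPj
  -- functions with the same value are congruent
  have hsub : ∀ x : regAlg k Φ.j, x - algebraMap k (regAlg k Φ.j) (val P (x : E)) ∈ p := by
    intro x
    apply hP
    have : ((x - algebraMap k (regAlg k Φ.j) (val P (x : E)) : regAlg k Φ.j) : E) =
      x - algebraMap k E (val P (x : E)) := rfl
    rw [this, val_sub (hreg x.2) (Ge.algebraMap P _), val_algebraMap, sub_self]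
  have hval : ∀ x ∈ p, val P (x : E) = 0 := by
    intro x hx
    by_contra h0
    have h2 := p.sub_mem hx (hsub x)
    rw [sub_sub_cancel] at h2
    apply hp.ne_top
    refine Ideal.eq_top_of_isUnit_mem _ h2 ?_
    exact (IsUnit.mk0 _ h0).map _
  have hgg : Φ.g • Φ.g • P = P := by
    apply place_eq_of_val Φ.hj
    · rw [ord_g_j, ord_g_j]; exact hPj
    · exact hPj
    · intro x hx
      have h2 := hval _ (hJp (Φ.sub_mem_J ⟨x, hx⟩))
      have h3 : ((⟨x, hx⟩ - Φ.cσ (Φ.cσ ⟨x, hx⟩) : regAlg k Φ.j) : E) = x - Φ.σ (Φ.σ x) := rfl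
      have hx1 : Ge (Φ.g • Φ.g • P) 0 x := hx _ (by rw [ord_g_j, ord_g_j]; exact hPj)
      rw [h3, val_sub (hreg hx) (hreg (Φ.reg_σ (Φ.reg_σ hx))), sub_eq_zero,
        Φ.val_σ (Φ.reg_σ hx _ (by rw [ord_g_j]; exact hPj)), Φ.val_σ hx1] at h2
      exact h2.symm
  have h2 := hsub c
  rw [hc P hPj hgg, map_zero, sub_zero] at h2
  exact hcp h2

/-- the candidates for the nodes -/
def Cand : Type _ := {P : Place k E // 0 ≤ P.ord Φ.j ∧ Φ.g • Φ.g • P = P}

instance : Finite Φ.Cand := by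
  have hfin := finite_pos (K := k) Φ.delta_ne_zero
  have : Finite {P : Place k E | 0 < P.ord (Φ.j ^ (q * q) - Φ.j)} := hfin
  refine Finite.of_injective (β := {P : Place k E | 0 < P.ord (Φ.j ^ (q * q) - Φ.j)})
    (fun P => ⟨P.1, ?_⟩) ?_
  · obtain ⟨P, hPj, hP⟩ := P
    have hge : Ge P 0 Φ.j := Ge.of_le hPj
    have h1 : val P Φ.j = val P (Φ.σ (Φ.σ Φ.j)) := by
      rw [Φ.val_σ (Φ.reg_σ Φ.reg_j _ (by rw [ord_g_j]; exact hPj)),
        Φ.val_σ (Φ.reg_j _ (by rw [ord_g_j, ord_g_j]; exact hPj)), hP]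
    rw [Φ.hjσ, map_pow, Φ.hjσ, ← pow_mul] at h1
    have h2 : val P (Φ.j ^ (q * q) - Φ.j) = 0 := by
      rw [val_sub (ge_zero_pow hge _) hge, ← h1, sub_self]
    have h3 := (val_eq_zero_iff (((ge_zero_pow hge _).sub hge))).1 h2
    have h4 := h3.le_ord Φ.delta_ne_zero
    change 0 < P.ord _
    linarith
  · intro P P' h
    exact Subtype.ext (congrArg (fun z => (z.1 : Place k E)) h)

/-- the candidate nodes -/
def nodes : Nodes k E E Φ.Cand where
  v := fun P => P.1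
  w := fun P => Φ.g • P.1
  hv := fun _ _ h => Subtype.ext h
  hw := fun _ _ h => Subtype.ext (MulAction.injective Φ.g h)

end FrobData

end Fermat.Agent.Nod
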