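import Fermat.Agent.Nod.Frob

/-!
# Nodal models from the Frobenius correspondence
-/

set_option autoImplicit false
set_option linter.style.haveILetI false
set_option linter.unusedSectionVars false

namespace Fermat.Agent.Nod

open AlgebraicCurve Fermat.Agent.Curve Fermat.Agent.RR Fermat.Agent.Red Module Polynomial
  IntermediateField

namespace FrobData

variable {k E : Type*} [Field k] [Field E] [Algebra k E] {q : ℕ} (Φ : FrobData k E q)
  [IsAlgClosed k] [FunField k E]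

/-- `L(n P)`, `P` the divisor of poles of `j` -/
noncomputable def LJ (n : ℕ) : Submodule k E := riemannRochSpace (n • poleDiv k Φ.j)

theorem mem_LJ {n : ℕ} {x : E} : x ∈ Φ.LJ n ↔ Reg k Φ.j x ∧
    ∀ P : Place k E, P.ord Φ.j < 0 → Ge P (n * P.ord Φ.j) x := by
  rw [LJ, mem_L]
  constructor
  · intro h
    refine ⟨fun P hP => ?_, fun P hP => ?_⟩
    · have := h P
      rwa [Finsupp.smul_apply, poleDiv_apply, max_eq_right (by linarith), smul_zero, neg_zero]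
        at this
    · have := h P
      rw [Finsupp.smul_apply, poleDiv_apply, max_eq_left (by linarith)] at this
      refine this.mono ?_
      rw [nsmul_eq_mul]
      linarith
  · rintro ⟨h1, h2⟩ P
    rw [Finsupp.smul_apply, poleDiv_apply]
    rcases le_or_gt 0 (P.ord Φ.j) with hP | hP
    · rw [max_eq_right (by linarith), smul_zero, neg_zero]
      exact h1 P hP
    · rw [max_eq_left (by linarith), nsmul_eq_mul]
      refine (h2 P hP).mono ?_
      linarith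

theorem LJ_mono {n m : ℕ} (h : n ≤ m) : Φ.LJ n ≤ Φ.LJ m := by
  intro x hx
  rw [mem_LJ] at hx ⊢
  refine ⟨hx.1, fun P hP => (hx.2 P hP).mono ?_⟩
  have : (n : ℤ) ≤ m := by exact_mod_cast h
  nlinarith

theorem σ_mem_LJ {n : ℕ} {x : E} (hx : x ∈ Φ.LJ n) : Φ.σ x ∈ Φ.LJ (n * q) := by
  rw [mem_LJ] at hx ⊢
  refine ⟨Φ.reg_σ hx.1, fun P hP => ?_⟩
  rcases eq_or_ne x 0 with rfl | hx0
  · rw [map_zero]; exact Ge.zero P _
  · have h1 := (hx.2 (Φ.g • P) (by rwa [ord_g_j])).le_ord hx0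
    rw [ord_g_j] at h1
    right
    rw [ord_σ]
    push_cast
    have := Φ.q_pos
    nlinarith

/-- `δ = j^(q²) - j` -/
noncomputable def δ : E := Φ.j ^ (q * q) - Φ.j

theorem δ_ne_zero : Φ.δ ≠ 0 := Φ.delta_ne_zero

theorem j_ne_zero : Φ.j ≠ 0 := fun h => Φ.hj (h ▸ isAlgebraic_zero)

theorem reg_δ : Reg k Φ.j Φ.δ := by
  have h : ∀ n : ℕ, Reg k Φ.j (Φ.j ^ n) := fun n P hP => ge_zero_pow (Ge.of_le hP) n
  exact (h _).sub Φ.reg_j

theorem ord_δ {P : Place k E} (hP : P.ord Φ.j < 0) : P.ord Φ.δ = (q * q : ℕ) * P.ord Φ.j := by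
  have hqq : 1 < q * q := by
    have := Φ.hq
    nlinarith
  have h1 : P.ord (Φ.j ^ (q * q)) < P.ord (-Φ.j) := by
    rw [ord_pow, ord_neg]
    have : (1 : ℤ) < (q * q : ℕ) := by exact_mod_cast hqq
    nlinarith
  have h2 := ord_add_eq_of_lt P (pow_ne_zero _ Φ.j_ne_zero) (neg_ne_zero.2 Φ.j_ne_zero) h1
  rw [← sub_eq_add_neg, ord_pow] at h2
  exact h2

theorem mul_δ_pow_mem {n m : ℕ} {x : E} (hx : x ∈ Φ.LJ n) : x * Φ.δ ^ m ∈ Φ.LJ (n + m * (q * q)) := by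
  rw [mem_LJ] at hx ⊢
  have hδ : Reg k Φ.j (Φ.δ ^ m) := fun P hP => ge_zero_pow (Φ.reg_δ P hP) m
  refine ⟨hx.1.mul hδ, fun P hP => ?_⟩
  have h1 := (hx.2 P hP).mul (Ge.of_le (le_refl (P.ord (Φ.δ ^ m))))
  refine h1.mono ?_
  rw [ord_pow, Φ.ord_δ hP]
  push_cast
  nlinarith

theorem mem_LJ_of_mul_δ_pow {n m l : ℕ} {x : E} (hx : x ∈ Φ.LJ l)
    (h : x * Φ.δ ^ m ∈ Φ.LJ (n + m * (q * q))) : x ∈ Φ.LJ n := by
  rcases eq_or_ne x 0 with rfl | hx0
  · exact zero_mem _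
  rw [mem_LJ] at hx h ⊢
  refine ⟨hx.1, fun P hP => Or.inr ?_⟩
  have h1 := (h.2 P hP).le_ord (mul_ne_zero hx0 (pow_ne_zero _ Φ.δ_ne_zero))
  rw [P.ord_mul hx0 (pow_ne_zero _ Φ.δ_ne_zero), ord_pow, Φ.ord_δ hP] at h1
  push_cast at h1
  linarith

instance (n : ℕ) : Module.Finite k (Φ.LJ n) :=
  inferInstanceAs (Module.Finite k (riemannRochSpace (n • poleDiv k Φ.j)))

/-- surjectivity on symbols -/
theorem exists_symbol : ∃ n₁ : ℕ, ∀ n m : ℕ, n₁ ≤ n → ∀ f ∈ Φ.LJ ((n + 1 + m * q) * q),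
    ∃ c ∈ Φ.LJ (q * (n + 1)), f - c * Φ.δ ^ m ∈ Φ.LJ ((n + m * q) * q) := by
  obtain ⟨c, hc⟩ := exists_riemann (K := k) (F := E)
  set d : ℤ := ((finrank k⟮Φ.j⟯ E : ℕ) : ℤ) with hd
  have hd1 : (1 : ℤ) ≤ d := by rw [hd]; exact_mod_cast finrank_pos Φ.hj
  have hq : (1 : ℤ) ≤ q := by exact_mod_cast Φ.q_pos
  have hell : ∀ n : ℕ, c ≤ n → (finrank k (Φ.LJ n) : ℤ) = n * d + 1 - rrGenus k E := by
    intro n hn
    have h1 := hc (n • poleDiv k Φ.j) (by
      rw [map_nsmul, degree_poleDiv Φ.hj, nsmul_eq_mul]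
      have : (0 : ℤ) ≤ n := by positivity
      nlinarith)
    rw [map_nsmul, degree_poleDiv Φ.hj, nsmul_eq_mul] at h1
    exact h1
  refine ⟨c.toNat, fun n m hn f hf => ?_⟩
  have hcn := Int.self_le_toNat c
  have hn0 : (0 : ℤ) ≤ n := by positivity
  have hm0 : (0 : ℤ) ≤ (m : ℤ) * q := by positivity
  set R : Submodule k E := (Φ.LJ (q * (n + 1))).map (LinearMap.mulRight k (Φ.δ ^ m)) with hR
  have hinj : Function.Injective (LinearMap.mulRight k (Φ.δ ^ m)) := by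
    intro x y hxy
    exact mul_right_cancel₀ (pow_ne_zero _ Φ.δ_ne_zero) hxy
  have hexp : ∀ a : ℕ, (a + m * q) * q = q * a + m * (q * q) := fun a => by ring
  have hRle : R ≤ Φ.LJ ((n + 1 + m * q) * q) := by
    rintro _ ⟨x, hx, rfl⟩
    rw [hexp]
    exact Φ.mul_δ_pow_mem hx
  have hVle : Φ.LJ ((n + m * q) * q) ≤ Φ.LJ ((n + 1 + m * q) * q) :=
    Φ.LJ_mono (Nat.mul_le_mul_right _ (by omega))
  have hinf : R ⊓ Φ.LJ ((n + m * q) * q) = (Φ.LJ (q * n)).map (LinearMap.mulRight k (Φ.δ ^ m)) := by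
    ext y
    constructor
    · rintro ⟨⟨x, hx, rfl⟩, hy⟩
      refine ⟨x, ?_, rfl⟩
      rw [hexp] at hy
      exact Φ.mem_LJ_of_mul_δ_pow hx hy
    · rintro ⟨x, hx, rfl⟩
      refine ⟨⟨x, Φ.LJ_mono (Nat.mul_le_mul_left _ (by omega)) hx, rfl⟩, ?_⟩
      rw [hexp]
      exact Φ.mul_δ_pow_mem hx
  have hsup : R ⊔ Φ.LJ ((n + m * q) * q) = Φ.LJ ((n + 1 + m * q) * q) := by
    apply Submodule.eq_of_le_of_finrank_eq (sup_le hRle hVle)
    haveI : Module.Finite k R := Submodule.finiteDimensional_of_le hRle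
    have h1 := Submodule.finrank_sup_add_finrank_inf_eq R (Φ.LJ ((n + m * q) * q))
    rw [hinf, hR, ← (Submodule.equivMapOfInjective _ hinj _).finrank_eq,
      ← (Submodule.equivMapOfInjective _ hinj _).finrank_eq] at h1
    rw [← hR] at h1
    have h2 : (finrank k (R ⊔ Φ.LJ ((n + m * q) * q) : Submodule k E) : ℤ) +
      finrank k (Φ.LJ (q * n)) = finrank k (Φ.LJ (q * (n + 1))) +
        finrank k (Φ.LJ ((n + m * q) * q)) := by exact_mod_cast h1
    have g1 : c ≤ ((q * n : ℕ) : ℤ) := by push_cast; nlinarith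
    have g2 : c ≤ ((q * (n + 1) : ℕ) : ℤ) := by push_cast; nlinarith
    have g3 : c ≤ (((n + m * q) * q : ℕ) : ℤ) := by push_cast; nlinarith
    have g4 : c ≤ (((n + 1 + m * q) * q : ℕ) : ℤ) := by push_cast; nlinarith
    rw [hell _ g1, hell _ g2, hell _ g3] at h2
    have h3 := hell _ g4
    have h4 : (finrank k (R ⊔ Φ.LJ ((n + m * q) * q) : Submodule k E) : ℤ) =
        finrank k (Φ.LJ ((n + 1 + m * q) * q)) := by
      rw [h3]
      push_cast at h2 ⊢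
      linarith
    exact_mod_cast h4
  rw [← hsup] at hf
  obtain ⟨_, ⟨x, hx, rfl⟩, y, hy, rfl⟩ := Submodule.mem_sup.1 hf
  refine ⟨x, hx, ?_⟩
  change x * Φ.δ ^ m + y - x * Φ.δ ^ m ∈ _
  rwa [add_sub_cancel_left]

end FrobData

variable {A K F k E : Type*} [CommRing A] [IsDomain A] [ValuationRing A]
  [Field K] [Algebra A K] [IsFractionRing A K] [Field F] [Algebra K F] [Algebra A F]
  [IsScalarTower A K F] [Field k] [Algebra A k] [Field E] [Algebra k E]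
  [Algebra A E] [IsScalarTower A k E]
  [IsAlgClosed K] [IsAlgClosed k] [CharZero K] [FunField K F] [FunField k E]

variable {ι₀ : Type*} [Fintype ι₀] [Nonempty ι₀] (G : GaussData A K F k (E × E) ι₀)
  (hk : Function.Surjective (algebraMap A k))
  (hspan : ∀ x : F, ∃ q : K[X], q ≠ 0 ∧ ∃ P : ι₀ → K[X], aeval G.t q * x = G.comb P)
  {q : ℕ} (Φ : FrobData k E q)

/-- The hypotheses on the model. -/
structure FrobModel : Prop where
  /-- the reduction of the parameter -/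
  ht : ∃ b : k, b ^ (q * q) ≠ b ∧ tb G = (Φ.j - algebraMap k E b, Φ.σ Φ.j - algebraMap k E b)
  b1 : ∀ c, Reg k Φ.j c → ((c, Φ.σ c) : E × E) ∈ BB G hk G.t
  b2 : ∀ c, Reg k Φ.j c → ((Φ.σ c, c) : E × E) ∈ BB G hk G.t
  s1 : ∃ a₁ : ℕ, ∀ n, a₁ ≤ n → ∀ c ∈ Φ.LJ n, ((c, Φ.σ c) : E × E) ∈ RS G hk hspan n 0
  s2 : ∃ a₂ : ℕ, ∀ n m : ℕ, a₂ ≤ n → 1 ≤ m → q * q * n ≤ m → ∀ c ∈ Φ.LJ (q * n),
    ((0, c * Φ.δ ^ m) : E × E) ∈ RS G hk hspan (n + m * q) 0

namespace FrobModel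

variable {G hk hspan Φ} (M : FrobModel G hk hspan Φ)

theorem ord_sub_nonneg_iff {P : Place k E} {x : E} (b : k) :
    0 ≤ P.ord (x - algebraMap k E b) ↔ 0 ≤ P.ord x := by
  rw [← mem_iff_ord_nonneg, ← mem_iff_ord_nonneg]
  exact ⟨fun h => by simpa using add_mem h (P.algebraMap_mem' b),
    fun h => sub_mem h (P.algebraMap_mem' b)⟩

theorem max_ord_sub {P : Place k E} {x : E} (b : k) :
    max (-P.ord (x - algebraMap k E b)) 0 = max (-P.ord x) 0 := by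
  rcases le_or_gt 0 (P.ord x) with h | h
  · have h1 := (ord_sub_nonneg_iff (P := P) b).2 h
    rw [max_eq_right (by linarith), max_eq_right (by linarith)]
  · rcases eq_or_ne b 0 with rfl | hb
    · simp
    have hx0 : x ≠ 0 := by
      rintro rfl
      rw [P.ord_zero] at h
      exact lt_irrefl _ h
    have hb0 : -algebraMap k E b ≠ 0 := neg_ne_zero.2 ((_root_.map_ne_zero _).2 hb)
    have h2 := ord_add_eq_of_lt P hx0 hb0 (by rw [ord_neg, ord_algebraMap]; exact h)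
    rw [← sub_eq_add_neg] at h2
    rw [h2]

include M in
theorem max_tb_fst (P : Place k E) : max (-P.ord (tb G).1) 0 = max (-P.ord Φ.j) 0 := by
  obtain ⟨b, -, hb⟩ := M.ht
  rw [hb]
  exact max_ord_sub b

include M in
theorem max_tb_snd (P : Place k E) : max (-P.ord (tb G).2) 0 = q * max (-P.ord Φ.j) 0 := by
  obtain ⟨b, -, hb⟩ := M.ht
  rw [hb]
  change max (-P.ord (Φ.σ Φ.j - algebraMap k E b)) 0 = _
  rw [max_ord_sub b, Φ.hjσ, ord_pow]
  have hq : (0 : ℤ) ≤ q := by positivity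
  rcases le_total 0 (P.ord Φ.j) with h | h
  · rw [max_eq_right (by nlinarith), max_eq_right (by linarith), mul_zero]
  · rw [max_eq_left (by nlinarith), max_eq_left (by linarith)]
    ring

include M in
theorem DD_fst (n : ℕ) : riemannRochSpace (DD k (tb G).1 n 0) = Φ.LJ n := by
  unfold FrobData.LJ
  congr 1
  ext P
  rw [DD_apply, M.max_tb_fst, Finsupp.smul_apply, poleDiv_apply]
  simp

include M in
theorem DD_snd (n : ℕ) : riemannRochSpace (DD k (tb G).2 n 0) = Φ.LJ (n * q) := by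
  unfold FrobData.LJ
  congr 1
  ext P
  rw [DD_apply, M.max_tb_snd, Finsupp.smul_apply, poleDiv_apply]
  simp
  ring

include M in
theorem reg_fst {x : E} : Reg k (tb G).1 x ↔ Reg k Φ.j x := by
  obtain ⟨b, -, hb⟩ := M.ht
  constructor
  · intro h P hP
    refine h P ?_
    rw [hb]
    exact (ord_sub_nonneg_iff b).2 hP
  · intro h P hP
    rw [hb] at hP
    exact h P ((ord_sub_nonneg_iff b).1 hP)

include M in
theorem reg_snd {x : E} : Reg k (tb G).2 x ↔ Reg k Φ.j x := by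
  obtain ⟨b, -, hb⟩ := M.ht
  have hq : (0 : ℤ) < q := by exact_mod_cast Φ.q_pos
  constructor
  · intro h P hP
    refine h P ?_
    rw [hb]
    refine (ord_sub_nonneg_iff b).2 ?_
    rw [Φ.hjσ, ord_pow]
    positivity
  · intro h P hP
    rw [hb] at hP
    have h1 := (ord_sub_nonneg_iff b).1 hP
    rw [Φ.hjσ, ord_pow] at h1
    exact h P (nonneg_of_mul_nonneg_right h1 hq)

include M in
theorem nodPos : NodPos G Φ.nodes := by
  obtain ⟨b, hbb, hb⟩ := M.ht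
  have key : ∀ P : Φ.Cand, val P.1 Φ.j ^ (q * q) = val P.1 Φ.j := by
    intro P
    have hge : Ge P.1 0 Φ.j := Ge.of_le P.2.1
    have h1 : val P.1 Φ.j = val P.1 (Φ.σ (Φ.σ Φ.j)) := by
      rw [Φ.val_σ (Φ.reg_σ Φ.reg_j _ (by rw [Φ.ord_g_j]; exact P.2.1)),
        Φ.val_σ (Φ.reg_j _ (by rw [Φ.ord_g_j, Φ.ord_g_j]; exact P.2.1)), P.2.2]
    rw [Φ.hjσ, map_pow, Φ.hjσ, ← pow_mul, val_pow hge] at h1
    exact h1.symm
  have key2 : ∀ (P : Place k E) (x : E), Ge P 0 x → val P x ≠ b →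
      P.ord (x - algebraMap k E b) = 0 := by
    intro P x hx hne
    have h1 : val P (x - algebraMap k E b) ≠ 0 := by
      rw [val_sub hx (Ge.algebraMap P b), val_algebraMap]
      exact sub_ne_zero.2 hne
    have h2 : x - algebraMap k E b ≠ 0 := by
      intro h
      rw [h, val_zero] at h1
      exact h1 rfl
    exact (val_ne_zero_iff (hx.sub (Ge.algebraMap P b)) h2).1 h1
  constructor
  · intro P
    rw [hb]
    refine key2 P.1 Φ.j (Ge.of_le P.2.1) ?_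
    intro h
    apply hbb
    rw [← h]
    exact key P
  · intro P
    rw [hb]
    have hge : Ge (Φ.g • P.1) 0 Φ.j := Ge.of_le (by rw [Φ.ord_g_j]; exact P.2.1)
    have hge' : Ge (Φ.g • P.1) 0 (Φ.σ Φ.j) :=
      Φ.reg_σ Φ.reg_j _ (by rw [Φ.ord_g_j]; exact P.2.1)
    refine key2 (Φ.g • P.1) _ hge' ?_
    intro h
    apply hbb
    have h1 : val (Φ.g • P.1) (Φ.σ Φ.j) = val P.1 Φ.j := by
      rw [Φ.val_σ (Φ.reg_j _ (by rw [Φ.ord_g_j, Φ.ord_g_j]; exact P.2.1)), P.2.2]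
    rw [← h, h1]
    exact key P

include M in
theorem glue0 (r : E × E) (h1 : Reg k (tb G).1 r.1) (h2 : Reg k (tb G).2 r.2)
    (hr : r ∈ glue Φ.nodes 1) : r ∈ BB G hk G.t := by
  rw [M.reg_fst] at h1
  rw [M.reg_snd] at h2
  -- the ideal of `c` with `(0, c)` in the algebra
  let I : Ideal (regAlg k Φ.j) :=
    { carrier := {c | ((0, (c : E)) : E × E) ∈ BB G hk G.t}
      zero_mem' := zero_mem (BB G hk G.t)
      add_mem' := by
        intro a b ha hb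
        rw [Set.mem_ofPred_eq] at ha hb ⊢
        have := add_mem ha hb
        simp only [Prod.mk_add_mk, add_zero] at this
        exact this
      smul_mem' := by
        intro c x hx
        rw [Set.mem_ofPred_eq] at hx ⊢
        have := mul_mem (M.b2 c c.2) hx
        simp only [Prod.mk_mul_mk, mul_zero] at this
        exact this }
  have hJ : Φ.J ≤ I := by
    rw [FrobData.J, Ideal.span_le]
    rintro _ ⟨b, rfl⟩
    change ((0, ((b - Φ.cσ (Φ.cσ b) : regAlg k Φ.j) : E)) : E × E) ∈ BB G hk G.t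
    have := sub_mem (M.b2 b b.2) (M.b1 (Φ.σ b) (Φ.reg_σ b.2))
    simp only [Prod.mk_sub_mk, sub_self] at this
    exact this
  have h3 : (⟨r.2 - Φ.σ r.1, h2.sub (Φ.reg_σ h1)⟩ : regAlg k Φ.j) ∈ Φ.J := by
    apply Φ.mem_J_of_val
    intro P hPj hP
    change val P (r.2 - Φ.σ r.1) = 0
    have hgP : 0 ≤ (Φ.g • P).ord Φ.j := by rw [Φ.ord_g_j]; exact hPj
    rw [val_sub (h2 P hPj) (Φ.reg_σ h1 P hPj), sub_eq_zero, Φ.val_σ (h1 _ hgP)]
    have h4 := (hr ⟨Φ.g • P, hgP, by rw [hP]⟩).2.2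
    change val (Φ.g • P) r.1 = 1 * val (Φ.g • Φ.g • P) r.2 at h4
    rw [one_mul] at h4
    rw [hP] at h4
    exact h4.symm
  have h5 : ((0, r.2 - Φ.σ r.1) : E × E) ∈ BB G hk G.t := hJ h3
  have h6 := add_mem (M.b1 r.1 h1) h5
  simp only [Prod.mk_add_mk, add_zero, add_sub_cancel] at h6
  exact h6

include M in
theorem nodSym : NodSym G hk hspan Φ.nodes := by
  refine ⟨M.nodPos, M.glue0, ?_⟩
  obtain ⟨a₁, ha₁⟩ := M.s1
  obtain ⟨a₂, ha₂⟩ := M.s2
  obtain ⟨a₃, ha₃⟩ := Φ.exists_symbol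
  have hq := Φ.q_pos
  set A₀ := a₂ + a₃ with hA₀
  refine ⟨a₁ + (A₀ + (q * q * (A₀ + q + 1) + 1) * q), fun n hn r hr1 hr2 => ?_⟩
  rw [M.DD_fst] at hr1 ⊢
  rw [M.DD_snd] at hr2 ⊢
  set m := (n - A₀) / q with hm
  set n₀ := A₀ + (n - A₀) % q with hn₀
  have hmod := Nat.div_add_mod (n - A₀) q
  have hlt := Nat.mod_lt (n - A₀) hq
  have hnn : n = n₀ + m * q := by
    rw [hn₀, hm, mul_comm]
    omega
  have hmlow : q * q * (A₀ + q + 1) + 1 ≤ m := by
    rw [hm, Nat.le_div_iff_mul_le hq]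
    omega
  have hn₀' : n₀ + 1 ≤ A₀ + q + 1 := by omega
  -- first component
  have g1 := ha₁ (n + 1) (by omega) r.1 hr1
  have g2 : r.2 - Φ.σ r.1 ∈ Φ.LJ ((n₀ + 1 + m * q) * q) := by
    have e : (n₀ + 1 + m * q) * q = (n + 1) * q := by rw [hnn]; ring
    rw [e]
    exact sub_mem hr2 (Φ.σ_mem_LJ hr1)
  obtain ⟨c, hc, hc'⟩ := ha₃ n₀ m (by omega) _ g2
  have g3 := ha₂ (n₀ + 1) m (by omega) (by omega)
    (le_trans (Nat.mul_le_mul_left _ hn₀') (by omega)) c hc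
  have e2 : n₀ + 1 + m * q = n + 1 := by rw [hnn]; ring
  rw [e2] at g3
  refine ⟨_, add_mem g1 g3, ?_, ?_⟩
  · have : (r - ((r.1, Φ.σ r.1) + (0, c * Φ.δ ^ m)) : E × E).1 = 0 := by simp
    rw [this]
    exact zero_mem _
  · have e3 : (r - ((r.1, Φ.σ r.1) + (0, c * Φ.δ ^ m)) : E × E).2 =
        r.2 - Φ.σ r.1 - c * Φ.δ ^ m := by
      simp
      ring
    rw [e3, hnn]
    exact hc'

include M in
/-- **A Frobenius model is nodal.** -/
theorem nodMod : NodMod G hk hspan Φ.nodes := M.nodSym.toMod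

end FrobModel

end Fermat.Agent.Nod
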