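import Fermat.Agent.Nod.Modular
import Fermat.Agent.Nod.Kummer

/-!
# Galois automorphisms of the nodal model of the modular function field
-/

set_option autoImplicit false
set_option linter.style.haveILetI false
set_option linter.unusedSectionVars false

noncomputable section

namespace Fermat.Agent.Nod

open ModularCurve Polynomial IntermediateField Fermat.Agent.ModPoly Fermat.Agent.Red
  Fermat.Agent.RedMod Fermat.Agent.Cusp Fermat.Agent.SemiSt AlgebraicCurve Fermat.Agent.Curve
  Fermat.Agent.RR

/-- An automorphism of `K` preserving the valuation ring, and its reduction. -/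
structure RedAut (A K k : Type*) [CommRing A] [Field K] [Algebra A K] [Field k] [Algebra A k] where
  τ : A ≃+* A
  σ : K ≃+* K
  σb : k ≃+* k
  h1 : ∀ a, σ (algebraMap A K a) = algebraMap A K (τ a)
  h2 : ∀ a, σb (algebraMap A k a) = algebraMap A k (τ a)

namespace RedAut

variable {A K k : Type*} [CommRing A] [Field K] [Algebra A K] [Field k] [Algebra A k]

/-- the inverse -/
def symm (R : RedAut A K k) : RedAut A K k where
  τ := R.τ.symm
  σ := R.σ.symm
  σb := R.σb.symm
  h1 a := by
    rw [RingEquiv.symm_apply_eq, R.h1, RingEquiv.apply_symm_apply]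
  h2 a := by
    rw [RingEquiv.symm_apply_eq, R.h2, RingEquiv.apply_symm_apply]

end RedAut

section

variable {K : Type*} [Field K] {N : ℕ}

theorem act_one_apply (x : FF K N) : act N (1 : K ≃+* K) x = x := by
  apply Subtype.ext
  rw [coe_act]
  ext n
  rfl

theorem act_mul (σ τ : K ≃+* K) (x : FF K N) : act N (σ * τ) x = act N σ (act N τ x) := by
  apply Subtype.ext
  rw [coe_act, coe_act, coe_act]
  ext n
  rfl

theorem galAut_mul (σ τ : K ≃+* K) : galAut N (σ * τ) = galAut N σ * galAut N τ := by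
  apply Subtype.ext
  apply Prod.ext
  · apply RingEquiv.ext
    intro x
    exact act_mul σ τ x
  · rfl

theorem galAut_one : galAut N (1 : K ≃+* K) = 1 := by
  apply Subtype.ext
  apply Prod.ext
  · apply RingEquiv.ext
    intro x
    exact act_one_apply x
  · rfl

end

section Main

variable {A K k : Type*} [CommRing A] [IsDomain A] [ValuationRing A]
  [Field K] [IsAlgClosed K] [CharZero K] [Algebra A K] [IsFractionRing A K]
  [Field k] [IsAlgClosed k] [Algebra A k]
  {q M : ℕ} [hq : Fact q.Prime] [NeZero M] (hco : q.Coprime M) [CharP k q]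
  (hk : Function.Surjective (algebraMap A k)) (hM : (M : k) ≠ 0)
  [Algebra A (FF K (q * M))] [IsScalarTower A K (FF K (q * M))]
  [Algebra A (FF k M)] [IsScalarTower A k (FF k M)]

section Red

variable (R : RedAut A K k)

include R in
theorem act_red {x : LaurentSeries K} (hx : x ∈ WL A K k) :
    ∃ h : coeffMap (R.σ : K →+* K) x ∈ WL A K k,
      πL A K k ⟨_, h⟩ = coeffMap (R.σb : k →+* k) (πL A K k ⟨x, hx⟩) :=
  coeffMap_mem_WL (R.τ : A →+* A) (R.σ : K →+* K) (R.σb : k →+* k) R.h1 R.h2 hx

theorem act_mem_WW {x : FF K (q * M)} (hx : x ∈ WW A K k hco) :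
    act (q * M) R.σ x ∈ WW A K k hco := by
  rw [mem_WW] at hx ⊢
  rw [← act_w]
  exact ⟨(act_red R hx.1).choose, (act_red R hx.2).choose⟩

theorem sred_act {x : FF K (q * M)} (hx : x ∈ WW A K k hco)
    (hx' : act (q * M) R.σ x ∈ WW A K k hco) :
    sred K hco hk hM ⟨act (q * M) R.σ x, hx'⟩ =
      (act M R.σb (sred K hco hk hM ⟨x, hx⟩).1, act M R.σb (sred K hco hk hM ⟨x, hx⟩).2) := by
  have a1 := act_red R hx.1
  have a2 := act_red R hx.2
  obtain ⟨h1, h2⟩ := a1
  obtain ⟨h3, h4⟩ := a2
  have e1 : (⟨_, hx'.1⟩ : WL A K k) = ⟨_, h1⟩ := Subtype.ext rfl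
  have e2 : (⟨_, hx'.2⟩ : WL A K k) = ⟨_, h3⟩ := Subtype.ext (by
    change ((w K hco (act (q * M) R.σ x) : FF K (q * M)) : LaurentSeries K) = _
    rw [← act_w]
    rfl)
  apply Prod.ext
  · apply Subtype.ext
    exact ((coe_sred_fst hco hk hM hx').trans (congrArg (πL A K k) e1)).trans h2
  · apply Subtype.ext
    exact ((coe_sred_snd hco hk hM hx').trans (congrArg (πL A K k) e2)).trans h4

end Red

variable [FunField k (FF k M)] [FunField K (FF K M)] [FunField K (FF K (q * M))]

/-- The action of an automorphism fixing the nodes. -/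
def nodAut (b : A) (R : RedAut A K k)
    (hP : ∀ P : (fd k q M).Cand, galAut M R.σb • P.1 = P.1) :
    NodAut (ng K hco hk hM b) hk (fd k q M).nodes where
  θ := galAut (q * M) R.σ
  g₁ := galAut M R.σb
  g₂ := galAut M R.σb
  base := rfl
  hW x hx := act_mem_WW hco R hx
  hW' x hx := act_mem_WW hco R.symm hx
  hπ x hx := sred_act hco hk hM R hx _
  ht := by
    refine ⟨algebraMap A K b - R.σ (algebraMap A K b), ?_⟩
    rw [ng_t, galAut_smul, map_sub, act_jF, act_algebraMap, map_sub]
    ring
  s := Equiv.refl _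
  hv j := (hP j.1).symm
  hw j := by
    have h1 : (fd k q M).g • (fd k q M).g • (fd k q M).g • j.1.1 = (fd k q M).g • j.1.1 := by
      rw [j.1.2.2]
    have h2 := hP ⟨(fd k q M).g • j.1.1, by rw [(fd k q M).ord_g_j]; exact j.1.2.1, h1⟩
    exact h2.symm

theorem nodAut_θ (b : A) (R : RedAut A K k)
    (hP : ∀ P : (fd k q M).Cand, galAut M R.σb • P.1 = P.1) :
    (nodAut hco hk hM b R hP).θ = galAut (q * M) R.σ := rfl

theorem nodAut_isInertial (b : A) (R : RedAut A K k) (h : R.σb = 1)
    (hP : ∀ P : (fd k q M).Cand, galAut M R.σb • P.1 = P.1) :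
    (nodAut hco hk hM b R hP).IsInertial where
  h₁ := by
    change galAut M R.σb = 1
    rw [h, galAut_one]
  h₂ := by
    change galAut M R.σb = 1
    rw [h, galAut_one]
  hs := rfl

theorem fix_of_eq_one {R : RedAut A K k} (h : R.σb = 1) (P : (fd k q M).Cand) :
    galAut M R.σb • P.1 = P.1 := by
  rw [h, galAut_one, one_smul]

theorem fix_of_eq_sq {R : RedAut A K k} (h : R.σb = frobeniusEquiv k q * frobeniusEquiv k q)
    (P : (fd k q M).Cand) : galAut M R.σb • P.1 = P.1 := by
  rw [h, galAut_mul, mul_smul]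
  exact P.2.2

end Main

end Fermat.Agent.Nod
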