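import Fermat.Agent.Nod.Val

/-!
# Glued Riemann-Roch spaces
-/

set_option autoImplicit false
set_option linter.style.haveILetI false
set_option linter.unusedSectionVars false

namespace Fermat.Agent.Nod

open AlgebraicCurve Fermat.Agent.Curve Fermat.Agent.RR Module

variable {k E E₁ E₂ : Type*} [Field k] [Field E] [Algebra k E] [Field E₁] [Algebra k E₁]
  [Field E₂] [Algebra k E₂]

/-- pairs of points to be glued -/
structure Nodes (k E₁ E₂ : Type*) [Field k] [Field E₁] [Algebra k E₁]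
    [Field E₂] [Algebra k E₂] (ι : Type*) where
  v : ι → Place k E₁
  w : ι → Place k E₂
  hv : Function.Injective v
  hw : Function.Injective w

/-- restriction to a subset of the nodes -/
def Nodes.restrict {ι : Type*} (𝒩 : Nodes k E₁ E₂ ι) (S : Set ι) : Nodes k E₁ E₂ S where
  v := fun j => 𝒩.v j
  w := fun j => 𝒩.w j
  hv := 𝒩.hv.comp Subtype.val_injective
  hw := 𝒩.hw.comp Subtype.val_injective

section Div

variable {ι : Type*} [Fintype ι]

/-- the divisor `Σ v_j` -/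
noncomputable def sumDiv (v : ι → Place k E) : Divisor k E := ∑ j, Finsupp.single (v j) 1

theorem sumDiv_apply (v : ι → Place k E) (hv : Function.Injective v) (j : ι) :
    sumDiv v (v j) = 1 := by
  classical
  rw [sumDiv, Finsupp.finsetSum_apply, Finset.sum_eq_single j]
  · exact Finsupp.single_eq_same
  · intro i _ hij
    exact Finsupp.single_eq_of_ne fun h => hij (hv h.symm)
  · intro h; exact absurd (Finset.mem_univ _) h

theorem sumDiv_apply_of_ne (v : ι → Place k E) {u : Place k E} (hu : ∀ j, v j ≠ u) :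
    sumDiv v u = 0 := by
  classical
  rw [sumDiv, Finsupp.finsetSum_apply]
  refine Finset.sum_eq_zero fun j _ => ?_
  exact Finsupp.single_eq_of_ne fun h => hu j h.symm

theorem degree_sumDiv [IsAlgClosed k] [FunField k E] (v : ι → Place k E) :
    Divisor.degree (sumDiv v) = Fintype.card ι := by
  rw [sumDiv, map_sum]
  simp only [degree_single', Finset.sum_const, Finset.card_univ]
  simp

end Div

variable {ι : Type*} (𝒩 : Nodes k E₁ E₂ ι)

section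

variable [IsAlgClosed k] [FunField k E₁] [FunField k E₂] [FunField k E]

/-- the glueing condition -/
def glue (ζ : ι → k) : Submodule k (E₁ × E₂) where
  carrier := {x | ∀ j, Ge (𝒩.v j) 0 x.1 ∧ Ge (𝒩.w j) 0 x.2 ∧
    val (𝒩.v j) x.1 = ζ j * val (𝒩.w j) x.2}
  add_mem' := by
    rintro x y hx hy j
    obtain ⟨h1, h2, h3⟩ := hx j
    obtain ⟨h4, h5, h6⟩ := hy j
    refine ⟨h1.add h4, h2.add h5, ?_⟩
    rw [Prod.fst_add, Prod.snd_add, val_add h1 h4, val_add h2 h5, h3, h6, mul_add]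
  zero_mem' := by
    intro j
    refine ⟨Ge.zero _ _, Ge.zero _ _, ?_⟩
    rw [Prod.fst_zero, Prod.snd_zero, val_zero, val_zero, mul_zero]
  smul_mem' := by
    rintro c x hx j
    obtain ⟨h1, h2, h3⟩ := hx j
    refine ⟨h1.smul c, h2.smul c, ?_⟩
    rw [Prod.smul_fst, Prod.smul_snd, val_smul c h1, val_smul c h2, h3]
    ring

theorem mem_glue {ζ : ι → k} {x : E₁ × E₂} : x ∈ glue 𝒩 ζ ↔ ∀ j, Ge (𝒩.v j) 0 x.1 ∧
    Ge (𝒩.w j) 0 x.2 ∧ val (𝒩.v j) x.1 = ζ j * val (𝒩.w j) x.2 := Iff.rfl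

/-- the glued Riemann-Roch space -/
def GG (ζ : ι → k) (D₁ : Divisor k E₁) (D₂ : Divisor k E₂) : Submodule k (E₁ × E₂) :=
  glue 𝒩 ζ ⊓ (riemannRochSpace D₁).prod (riemannRochSpace D₂)

theorem mem_GG {ζ : ι → k} {D₁ : Divisor k E₁} {D₂ : Divisor k E₂} {x : E₁ × E₂} :
    x ∈ GG 𝒩 ζ D₁ D₂ ↔ x ∈ glue 𝒩 ζ ∧ x.1 ∈ riemannRochSpace D₁ ∧ x.2 ∈ riemannRochSpace D₂ :=
  Iff.rfl

theorem GG_mono {ζ : ι → k} {D₁ D₁' : Divisor k E₁} {D₂ D₂' : Divisor k E₂}
    (h₁ : D₁ ≤ D₁') (h₂ : D₂ ≤ D₂') : GG 𝒩 ζ D₁ D₂ ≤ GG 𝒩 ζ D₁' D₂' := by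
  rintro x ⟨h, h3, h4⟩
  exact ⟨h, L_mono h₁ h3, L_mono h₂ h4⟩

theorem glue_mul {ζ ζ' : ι → k} {x y : E₁ × E₂} (hx : x ∈ glue 𝒩 ζ) (hy : y ∈ glue 𝒩 ζ') :
    x * y ∈ glue 𝒩 (ζ * ζ') := by
  intro j
  obtain ⟨h1, h2, h3⟩ := hx j
  obtain ⟨h4, h5, h6⟩ := hy j
  refine ⟨(h1.mul h4).mono (by norm_num), (h2.mul h5).mono (by norm_num), ?_⟩
  rw [Prod.fst_mul, Prod.snd_mul, val_mul h1 h4, val_mul h2 h5, h3, h6, Pi.mul_apply]
  ring

theorem one_mem_glue : (1 : E₁ × E₂) ∈ glue 𝒩 1 := by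
  intro j
  refine ⟨Ge.one _, Ge.one _, ?_⟩
  rw [Prod.fst_one, Prod.snd_one, val_one, val_one, Pi.one_apply, mul_one]

instance finite_GG (ζ : ι → k) (D₁ : Divisor k E₁) (D₂ : Divisor k E₂) :
    Module.Finite k (GG 𝒩 ζ D₁ D₂) := by
  have h : Module.Finite k ((riemannRochSpace D₁).prod (riemannRochSpace D₂)) := by
    let e : ((riemannRochSpace D₁).prod (riemannRochSpace D₂)) →ₗ[k]
        (riemannRochSpace D₁ × riemannRochSpace D₂) :=
      { toFun := fun x => (⟨x.1.1, x.2.1⟩, ⟨x.1.2, x.2.2⟩)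
        map_add' := fun _ _ => rfl
        map_smul' := fun _ _ => rfl }
    refine Module.Finite.of_injective e ?_
    intro x y hxy
    have h1 := congrArg (fun z => ((z.1 : E₁), (z.2 : E₂))) hxy
    exact Subtype.ext h1
  exact Submodule.finiteDimensional_of_le inf_le_right

omit [FunField k E₁] [FunField k E₂] in
theorem exists_val_of_degree [Fintype ι] (v : ι → Place k E) (hv : Function.Injective v)
    {g c : ℤ} (hc : ∀ D : Divisor k E, c ≤ Divisor.degree D →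
      (ell D : ℤ) = Divisor.degree D + 1 - g)
    (D : Divisor k E) (hD : ∀ j, D (v j) = 0)
    (hdeg : c + Fintype.card ι ≤ Divisor.degree D) (a : ι → k) :
    ∃ x ∈ riemannRochSpace D, ∀ j, val (v j) x = a j := by
  have hge : ∀ x ∈ riemannRochSpace D, ∀ j, Ge (v j) 0 x := by
    intro x hx j
    have := mem_L.1 hx (v j)
    rwa [hD j, neg_zero] at this
  let ev : riemannRochSpace D →ₗ[k] (ι → k) :=
    { toFun := fun x j => val (v j) (x : E)
      map_add' := by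
        intro x y
        funext j
        exact val_add (hge x x.2 j) (hge y y.2 j)
      map_smul' := by
        intro c x
        funext j
        exact val_smul c (hge x x.2 j) }
  have hker : LinearMap.ker ev =
      (riemannRochSpace (D - sumDiv v)).comap (riemannRochSpace D).subtype := by
    ext x
    rw [LinearMap.mem_ker, Submodule.mem_comap]
    constructor
    · intro h
      change (x : E) ∈ riemannRochSpace (D - sumDiv v)
      rw [mem_L]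
      intro u
      by_cases hu : ∃ j, v j = u
      · obtain ⟨j, rfl⟩ := hu
        have h1 : val (v j) (x : E) = 0 := congrFun h j
        rw [val_eq_zero_iff (hge x x.2 j)] at h1
        refine h1.mono ?_
        rw [Finsupp.sub_apply, hD, sumDiv_apply v hv]
        norm_num
      · push Not at hu
        refine (mem_L.1 x.2 u).mono ?_
        rw [Finsupp.sub_apply, sumDiv_apply_of_ne v hu, sub_zero]
    · intro h
      funext j
      have h1 := mem_L.1 (show (x : E) ∈ riemannRochSpace (D - sumDiv v) from h) (v j)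
      rw [Finsupp.sub_apply, hD, sumDiv_apply v hv] at h1
      exact val_of_pos (h1.mono (by norm_num))
  have hle : riemannRochSpace (D - sumDiv v) ≤ riemannRochSpace D := by
    apply L_mono
    rw [sub_le_self_iff]
    intro u
    rw [sumDiv, Finsupp.finsetSum_apply]
    refine Finset.sum_nonneg fun j _ => ?_
    classical
    rw [Finsupp.single_apply]
    split_ifs <;> simp
  have hkdim : finrank k (LinearMap.ker ev) = ell (D - sumDiv v) := by
    rw [hker, ell]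
    exact (Submodule.comapSubtypeEquivOfLe hle).finrank_eq
  have hrn := ev.finrank_range_add_finrank_ker
  rw [hkdim] at hrn
  have e1 := hc D (by
    have : (0 : ℤ) ≤ Fintype.card ι := by positivity
    linarith)
  have e2 := hc (D - sumDiv v) (by
    rw [map_sub, degree_sumDiv]
    linarith)
  rw [map_sub, degree_sumDiv] at e2
  have e3 : finrank k (LinearMap.range ev) = Fintype.card ι := by
    have h4 : ((finrank k (LinearMap.range ev) : ℕ) : ℤ) + ell (D - sumDiv v) = ell D := by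
      exact_mod_cast hrn
    rw [e1, e2] at h4
    have : ((finrank k (LinearMap.range ev) : ℕ) : ℤ) = Fintype.card ι := by linarith
    exact_mod_cast this
  have htop : LinearMap.range ev = ⊤ := by
    apply Submodule.eq_top_of_finrank_eq
    rw [e3, Module.finrank_fintype_fun_eq_card]
  have hmem : a ∈ LinearMap.range ev := by rw [htop]; trivial
  obtain ⟨x, hx⟩ := hmem
  exact ⟨x, x.2, fun j => congrFun hx j⟩

theorem finrank_GG [Fintype ι] {g₁ c₁ : ℤ} (hc₁ : ∀ D : Divisor k E₁, c₁ ≤ Divisor.degree D →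
      (ell D : ℤ) = Divisor.degree D + 1 - g₁)
    (ζ : ι → k) (D₁ : Divisor k E₁) (D₂ : Divisor k E₂)
    (hD₁ : ∀ j, D₁ (𝒩.v j) = 0) (hD₂ : ∀ j, D₂ (𝒩.w j) = 0)
    (hdeg : c₁ + Fintype.card ι ≤ Divisor.degree D₁) :
    finrank k (GG 𝒩 ζ D₁ D₂) + Fintype.card ι = ell D₁ + ell D₂ := by
  have hge₁ : ∀ x ∈ riemannRochSpace D₁, ∀ j, Ge (𝒩.v j) 0 x := by
    intro x hx j
    have := mem_L.1 hx (𝒩.v j)
    rwa [hD₁ j, neg_zero] at this
  have hge₂ : ∀ x ∈ riemannRochSpace D₂, ∀ j, Ge (𝒩.w j) 0 x := by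
    intro x hx j
    have := mem_L.1 hx (𝒩.w j)
    rwa [hD₂ j, neg_zero] at this
  let ev : (riemannRochSpace D₁ × riemannRochSpace D₂) →ₗ[k] (ι → k) :=
    { toFun := fun x j => val (𝒩.v j) (x.1 : E₁) - ζ j * val (𝒩.w j) (x.2 : E₂)
      map_add' := by
        intro x y
        funext j
        simp only [Prod.fst_add, Prod.snd_add, Submodule.coe_add, Pi.add_apply]
        rw [val_add (hge₁ x.1 x.1.2 j) (hge₁ y.1 y.1.2 j),
          val_add (hge₂ x.2 x.2.2 j) (hge₂ y.2 y.2.2 j)]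
        ring
      map_smul' := by
        intro c x
        funext j
        simp only [Prod.smul_fst, Prod.smul_snd, Submodule.coe_smul, Pi.smul_apply,
          RingHom.id_apply, smul_eq_mul]
        rw [val_smul c (hge₁ x.1 x.1.2 j), val_smul c (hge₂ x.2 x.2.2 j)]
        ring }
  have hsurj : LinearMap.range ev = ⊤ := by
    rw [eq_top_iff]
    intro a _
    obtain ⟨x, hx, hxa⟩ := exists_val_of_degree 𝒩.v 𝒩.hv hc₁ D₁ hD₁ hdeg a
    refine ⟨(⟨x, hx⟩, 0), ?_⟩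
    funext j
    change val (𝒩.v j) x - ζ j * val (𝒩.w j) (0 : E₂) = a j
    rw [val_zero, mul_zero, sub_zero, hxa]
  let e : LinearMap.ker ev ≃ₗ[k] GG 𝒩 ζ D₁ D₂ :=
    { toFun := fun x => ⟨((x.1.1 : E₁), (x.1.2 : E₂)), by
        refine ⟨fun j => ⟨hge₁ _ x.1.1.2 j, hge₂ _ x.1.2.2 j, ?_⟩, x.1.1.2, x.1.2.2⟩
        have := congrFun (LinearMap.mem_ker.1 x.2) j
        exact sub_eq_zero.1 this⟩
      map_add' := fun x y => rfl
      map_smul' := fun c x => rfl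
      invFun := fun x => ⟨(⟨x.1.1, x.2.2.1⟩, ⟨x.1.2, x.2.2.2⟩), by
        rw [LinearMap.mem_ker]
        funext j
        exact sub_eq_zero.2 (x.2.1 j).2.2⟩
      left_inv := fun x => rfl
      right_inv := fun x => rfl }
  have h1 := ev.finrank_range_add_finrank_ker
  rw [hsurj, finrank_top, Module.finrank_fintype_fun_eq_card, e.finrank_eq,
    Module.finrank_prod] at h1
  have h2 : ell D₁ = finrank k (riemannRochSpace D₁) := rfl
  have h3 : ell D₂ = finrank k (riemannRochSpace D₂) := rfl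
  rw [h2, h3]
  omega

omit [FunField k E] [FunField k E₁] [FunField k E₂] in
theorem mem_L_inf (D D' : Divisor k E) (x : E) :
    x ∈ riemannRochSpace (D ⊓ D') ↔ x ∈ riemannRochSpace D ∧ x ∈ riemannRochSpace D' := by
  constructor
  · intro h
    exact ⟨L_mono inf_le_left h, L_mono inf_le_right h⟩
  · rintro ⟨h1, h2⟩
    rw [mem_L] at h1 h2 ⊢
    intro v
    rw [Finsupp.inf_apply]
    rcases min_choice (D v) (D' v) with h | h
    · have : D v ⊓ D' v = D v := h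
      rw [this]; exact h1 v
    · have : D v ⊓ D' v = D' v := h
      rw [this]; exact h2 v

theorem GG_inf (ζ : ι → k) (D₁ D₁' : Divisor k E₁) (D₂ D₂' : Divisor k E₂) :
    GG 𝒩 ζ D₁ D₂ ⊓ GG 𝒩 ζ D₁' D₂' = GG 𝒩 ζ (D₁ ⊓ D₁') (D₂ ⊓ D₂') := by
  ext x
  constructor
  · rintro ⟨⟨h1, h2, h3⟩, h4, h5, h6⟩
    exact ⟨h1, (mem_L_inf _ _ _).2 ⟨h2, h5⟩, (mem_L_inf _ _ _).2 ⟨h3, h6⟩⟩
  · rintro ⟨h1, h2, h3⟩
    exact ⟨⟨h1, ((mem_L_inf _ _ _).1 h2).1, ((mem_L_inf _ _ _).1 h3).1⟩,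
      h1, ((mem_L_inf _ _ _).1 h2).2, ((mem_L_inf _ _ _).1 h3).2⟩

theorem degree_sup_add_inf (D D' : Divisor k E) :
    Divisor.degree (D ⊔ D') + Divisor.degree (D ⊓ D') = Divisor.degree D + Divisor.degree D' := by
  rw [← map_add, ← map_add]
  congr 1
  ext v
  simp only [Finsupp.add_apply, Finsupp.sup_apply, Finsupp.inf_apply]
  exact max_add_min (D v) (D' v)

theorem GG_sup [Finite ι] {g₁ c₁ : ℤ} (hc₁ : ∀ D : Divisor k E₁, c₁ ≤ Divisor.degree D →
      (ell D : ℤ) = Divisor.degree D + 1 - g₁)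
    {g₂ c₂ : ℤ} (hc₂ : ∀ D : Divisor k E₂, c₂ ≤ Divisor.degree D →
      (ell D : ℤ) = Divisor.degree D + 1 - g₂)
    (ζ : ι → k) (D₁ D₁' : Divisor k E₁) (D₂ D₂' : Divisor k E₂)
    (hD₁ : ∀ j, D₁ (𝒩.v j) = 0) (hD₂ : ∀ j, D₂ (𝒩.w j) = 0)
    (hD₁' : ∀ j, D₁' (𝒩.v j) = 0) (hD₂' : ∀ j, D₂' (𝒩.w j) = 0)
    (hdeg₁ : c₁ + Nat.card ι ≤ Divisor.degree (D₁ ⊓ D₁'))
    (hdeg₂ : c₂ ≤ Divisor.degree (D₂ ⊓ D₂')) :
    GG 𝒩 ζ D₁ D₂ ⊔ GG 𝒩 ζ D₁' D₂' = GG 𝒩 ζ (D₁ ⊔ D₁') (D₂ ⊔ D₂') := by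
  haveI := Fintype.ofFinite ι
  rw [Nat.card_eq_fintype_card] at hdeg₁
  have m1 : Divisor.degree (D₁ ⊓ D₁') ≤ Divisor.degree D₁ := degree_mono inf_le_left
  have m2 : Divisor.degree (D₁ ⊓ D₁') ≤ Divisor.degree D₁' := degree_mono inf_le_right
  have m3 : Divisor.degree (D₂ ⊓ D₂') ≤ Divisor.degree D₂ := degree_mono inf_le_left
  have m4 : Divisor.degree (D₂ ⊓ D₂') ≤ Divisor.degree D₂' := degree_mono inf_le_right
  have m5 : Divisor.degree D₁ ≤ Divisor.degree (D₁ ⊔ D₁') := degree_mono le_sup_left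
  have m6 : Divisor.degree D₂ ≤ Divisor.degree (D₂ ⊔ D₂') := degree_mono le_sup_left
  have hcard : (0 : ℤ) ≤ Fintype.card ι := by positivity
  apply Submodule.eq_of_le_of_finrank_eq
  · exact sup_le (GG_mono 𝒩 le_sup_left le_sup_left) (GG_mono 𝒩 le_sup_right le_sup_right)
  · have h1 := Submodule.finrank_sup_add_finrank_inf_eq (GG 𝒩 ζ D₁ D₂) (GG 𝒩 ζ D₁' D₂')
    rw [GG_inf] at h1
    have f1 := finrank_GG 𝒩 hc₁ ζ D₁ D₂ hD₁ hD₂ (by linarith)
    have f2 := finrank_GG 𝒩 hc₁ ζ D₁' D₂' hD₁' hD₂' (by linarith)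
    have f3 := finrank_GG 𝒩 hc₁ ζ (D₁ ⊓ D₁') (D₂ ⊓ D₂')
      (fun j => by rw [Finsupp.inf_apply, hD₁, hD₁', inf_idem])
      (fun j => by rw [Finsupp.inf_apply, hD₂, hD₂', inf_idem]) (by linarith)
    have f4 := finrank_GG 𝒩 hc₁ ζ (D₁ ⊔ D₁') (D₂ ⊔ D₂')
      (fun j => by rw [Finsupp.sup_apply, hD₁, hD₁', sup_idem])
      (fun j => by rw [Finsupp.sup_apply, hD₂, hD₂', sup_idem]) (by linarith)
    have a1 := hc₁ D₁ (by linarith)
    have a2 := hc₁ D₁' (by linarith)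
    have a3 := hc₁ (D₁ ⊓ D₁') (by linarith)
    have a4 := hc₁ (D₁ ⊔ D₁') (by linarith)
    have b1 := hc₂ D₂ (by linarith)
    have b2 := hc₂ D₂' (by linarith)
    have b3 := hc₂ (D₂ ⊓ D₂') (by linarith)
    have b4 := hc₂ (D₂ ⊔ D₂') (by linarith)
    have s1 := degree_sup_add_inf D₁ D₁'
    have s2 := degree_sup_add_inf D₂ D₂'
    have t1 : ((finrank k (GG 𝒩 ζ D₁ D₂) : ℕ) : ℤ) + Fintype.card ι = ell D₁ + ell D₂ := by
      exact_mod_cast f1
    have t2 : ((finrank k (GG 𝒩 ζ D₁' D₂') : ℕ) : ℤ) + Fintype.card ι = ell D₁' + ell D₂' := by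
      exact_mod_cast f2
    have t3 : ((finrank k (GG 𝒩 ζ (D₁ ⊓ D₁') (D₂ ⊓ D₂')) : ℕ) : ℤ) + Fintype.card ι =
        ell (D₁ ⊓ D₁') + ell (D₂ ⊓ D₂') := by exact_mod_cast f3
    have t4 : ((finrank k (GG 𝒩 ζ (D₁ ⊔ D₁') (D₂ ⊔ D₂')) : ℕ) : ℤ) + Fintype.card ι =
        ell (D₁ ⊔ D₁') + ell (D₂ ⊔ D₂') := by exact_mod_cast f4
    have h2 : ((finrank k ↥(GG 𝒩 ζ D₁ D₂ ⊔ GG 𝒩 ζ D₁' D₂') : ℕ) : ℤ) +
        finrank k (GG 𝒩 ζ (D₁ ⊓ D₁') (D₂ ⊓ D₂')) =
        finrank k (GG 𝒩 ζ D₁ D₂) + finrank k (GG 𝒩 ζ D₁' D₂') := by exact_mod_cast h1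
    have : ((finrank k ↥(GG 𝒩 ζ D₁ D₂ ⊔ GG 𝒩 ζ D₁' D₂') : ℕ) : ℤ) =
        finrank k (GG 𝒩 ζ (D₁ ⊔ D₁') (D₂ ⊔ D₂')) := by linarith
    exact_mod_cast this

end

end Fermat.Agent.Nod
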