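import Fermat.Agent.Nod.Model

/-!
# The special fibre of a nodal model
-/

set_option autoImplicit false
set_option linter.style.haveILetI false
set_option linter.unusedSectionVars false

namespace Fermat.Agent.Nod

open AlgebraicCurve Fermat.Agent.Curve Fermat.Agent.RR Fermat.Agent.Red Module Polynomial
  IntermediateField

section General

variable {k E : Type*} [Field k] [Field E] [Algebra k E] [IsAlgClosed k] [FunField k E]

theorem DD_sup (t : E) (n : ℕ) :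
    DD k t n 0 ⊔ (DD k t (n + 1) 0 - zeroDiv k t) = DD k t (n + 1) 0 := by
  ext v
  rw [Finsupp.sup_apply, Finsupp.sub_apply, DD_apply, DD_apply, zeroDiv_apply]
  simp only [Nat.cast_zero, zero_mul, add_zero, Nat.cast_add, Nat.cast_one]
  have hn : (0 : ℤ) ≤ n := by positivity
  rcases le_total 0 (v.ord t) with hv | hv
  · rw [max_eq_right (a := -v.ord t) (by linarith), max_eq_left hv]
    exact max_eq_left (by linarith)
  · rw [max_eq_left (a := -v.ord t) (by linarith), max_eq_right hv, sub_zero]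
    exact max_eq_right (by nlinarith)

theorem DD_inf (t : E) (n : ℕ) :
    DD k t n 0 ⊓ (DD k t (n + 1) 0 - zeroDiv k t) = DD k t n 0 - zeroDiv k t := by
  ext v
  rw [Finsupp.inf_apply, Finsupp.sub_apply, Finsupp.sub_apply, DD_apply, DD_apply, zeroDiv_apply]
  simp only [Nat.cast_zero, zero_mul, add_zero, Nat.cast_add, Nat.cast_one]
  have hn : (0 : ℤ) ≤ n := by positivity
  rcases le_total 0 (v.ord t) with hv | hv
  · rw [max_eq_right (a := -v.ord t) (by linarith), max_eq_left hv]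
    have : (n : ℤ) * 0 - v.ord t = (n + 1) * 0 - v.ord t := by ring
    rw [this]
    exact min_eq_right (by linarith)
  · rw [max_eq_left (a := -v.ord t) (by linarith), max_eq_right hv, sub_zero, sub_zero]
    exact min_eq_left (by nlinarith)

theorem inv_mul_mem_of_sub {t : E} {n : ℕ} {x : E}
    (hx : x ∈ riemannRochSpace (DD k t (n + 1) 0 - zeroDiv k t)) :
    t⁻¹ * x ∈ riemannRochSpace (DD k t n 0) := by
  rw [mem_L] at hx ⊢
  intro v
  have h1 := (Ge.of_le (le_refl (v.ord t⁻¹))).mul (hx v)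
  refine h1.mono ?_
  rw [v.ord_inv, Finsupp.sub_apply, DD_apply, DD_apply, zeroDiv_apply]
  simp only [Nat.cast_zero, zero_mul, add_zero, Nat.cast_add, Nat.cast_one]
  rcases le_total 0 (v.ord t) with hv | hv
  · rw [max_eq_right (a := -v.ord t) (by linarith), max_eq_left hv]
    linarith
  · rw [max_eq_left (a := -v.ord t) (by linarith), max_eq_right hv]
    linarith

end General

variable {A K F k E₁ E₂ : Type*} [CommRing A] [IsDomain A] [ValuationRing A]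
  [Field K] [Algebra A K] [IsFractionRing A K] [Field F] [Algebra K F] [Algebra A F]
  [IsScalarTower A K F] [Field k] [Algebra A k] [Field E₁] [Field E₂] [Algebra k E₁]
  [Algebra k E₂] [Algebra A E₁] [Algebra A E₂] [IsScalarTower A k E₁] [IsScalarTower A k E₂]
  [IsAlgClosed K] [IsAlgClosed k] [CharZero K] [FunField K F] [FunField k E₁] [FunField k E₂]

variable {ι₀ : Type*} [Fintype ι₀] [Nonempty ι₀] {G : GaussData A K F k (E₁ × E₂) ι₀}
  {hk : Function.Surjective (algebraMap A k)}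
  (hspan : ∀ x : F, ∃ q : K[X], q ≠ 0 ∧ ∃ P : ι₀ → K[X], aeval G.t q * x = G.comb P)
  {ι : Type*} [Finite ι] {𝒩 : Nodes k E₁ E₂ ι} (Hp : NodPos G 𝒩) (H : NodHyp G hk 𝒩)

/-- the glued space `G(aP+bZ)` on the special fibre -/
noncomputable def GS (G : GaussData A K F k (E₁ × E₂) ι₀) (hk : Function.Surjective (algebraMap A k))
    (𝒩 : Nodes k E₁ E₂ ι) (a b : ℕ) : Submodule k (E₁ × E₂) :=
  GG (𝒩.restrict (nodeSet G hk 𝒩 G.t)) 1 (DD k (tb G).1 a b) (DD k (tb G).2 a b)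

/-- the reduction of `L(aP+bZ)` -/
noncomputable def RS (G : GaussData A K F k (E₁ × E₂) ι₀) (hk : Function.Surjective (algebraMap A k))
    (hspan : ∀ x : F, ∃ q : K[X], q ≠ 0 ∧ ∃ P : ι₀ → K[X], aeval G.t q * x = G.comb P)
    (a b : ℕ) : Submodule k (E₁ × E₂) :=
  (G.toRedModel hk hspan).rd hk (riemannRochSpace (DD K G.t a b))

theorem mem_RS {a b : ℕ} {r : E₁ × E₂} : r ∈ RS G hk hspan a b ↔
    ∃ x : F, ∃ hx : x ∈ G.W, x ∈ riemannRochSpace (DD K G.t a b) ∧ G.π ⟨x, hx⟩ = r := by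
  constructor
  · rintro ⟨x, hx, h⟩
    exact ⟨x, hx.1, hx.2, h⟩
  · rintro ⟨x, hx, hxL, h⟩
    exact ⟨x, ⟨hx, hxL⟩, h⟩

include Hp in
theorem RS_le_GS (a b : ℕ) : RS G hk hspan a b ≤ GS G hk 𝒩 a b := by
  intro r hr
  obtain ⟨x, hx, hxL, rfl⟩ := (mem_RS hspan).1 hr
  have hxL' := π_mem_DD G hk hspan hx hxL
  refine ⟨fun j => ⟨ge_of_DD_fst Hp j hxL'.1, ge_of_DD_snd Hp j hxL'.2, ?_⟩, hxL'⟩
  rw [Pi.one_apply, one_mul]
  have h1 : G.t ^ b * x ∈ riemannRochSpace (DD K G.t (a + b) 0) := by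
    exact mul_mem_L_DD (k := K) (t := G.t) (a := a) (b := 0) (x := x) b (by rwa [zero_add])
  have h2 : tb G ^ b * G.π ⟨x, hx⟩ ∈ BB G hk G.t :=
    mem_BB_of_mem_DD (mul_mem (pow_mem G.ht b) hx) h1 (pow_tb_mul hx b)
  have h3 := j.2 _ h2
  rwa [val_pow_tb_mul Hp (val_tb_eq j.2) (ge_of_DD_fst Hp j hxL'.1) (ge_of_DD_snd Hp j hxL'.2)] at h3

theorem RS_mono {a b a' b' : ℕ} (ha : a ≤ a') (hb : b ≤ b') :
    RS G hk hspan a b ≤ RS G hk hspan a' b' := by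
  intro r hr
  obtain ⟨x, hx, hxL, h⟩ := (mem_RS hspan).1 hr
  exact (mem_RS hspan).2 ⟨x, hx, L_mono (DD_mono G.t ha hb) hxL, h⟩

theorem tb_pow_mul_mem_RS {a b n : ℕ} {r : E₁ × E₂} (hr : r ∈ RS G hk hspan a (b + n)) :
    tb G ^ n * r ∈ RS G hk hspan (a + n) b := by
  obtain ⟨x, hx, hxL, rfl⟩ := (mem_RS hspan).1 hr
  exact (mem_RS hspan).2 ⟨_, mul_mem (pow_mem G.ht n) hx, mul_mem_L_DD n hxL, pow_tb_mul hx n⟩

theorem tb_inv_pow_mul_mem_RS {a b n : ℕ} {r : E₁ × E₂} (hr : r ∈ RS G hk hspan (a + n) b) :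
    tb G.inv ^ n * r ∈ RS G hk hspan a (b + n) := by
  obtain ⟨x, hx, hxL, rfl⟩ := (mem_RS hspan).1 hr
  exact (mem_RS hspan).2 ⟨_, mul_mem (pow_mem G.inv_t_mem n) hx, inv_pow_mul_mem_L_DD n hxL,
    inv_pow_tb_mul hx n⟩

theorem tb_mul_tb_inv : tb G * tb G.inv = 1 := G.π_inv_t

include Hp in
theorem tb_pow_mul_mem_GS {a b n : ℕ} {r : E₁ × E₂} (hr : r ∈ GS G hk 𝒩 a (b + n)) :
    tb G ^ n * r ∈ GS G hk 𝒩 (a + n) b := by
  obtain ⟨h1, h2, h3⟩ := hr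
  have e1 : (tb G ^ n * r).1 = (tb G).1 ^ n * r.1 := rfl
  have e2 : (tb G ^ n * r).2 = (tb G).2 ^ n * r.2 := rfl
  have m1 := mul_mem_L_DD (t := (tb G).1) n h2
  have m2 := mul_mem_L_DD (t := (tb G).2) n h3
  refine ⟨fun j => ⟨?_, ?_, ?_⟩, m1, m2⟩
  · rw [e1]; exact ge_of_DD_fst Hp j m1
  · rw [e2]; exact ge_of_DD_snd Hp j m2
  · rw [Pi.one_apply, one_mul]
    have := (h1 j).2.2
    rw [Pi.one_apply, one_mul] at this
    exact (val_pow_tb_mul Hp (val_tb_eq j.2) (ge_of_DD_fst Hp j h2) (ge_of_DD_snd Hp j h3) n).2 this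

include Hp in
theorem tb_inv_pow_mul_mem_GS {a b n : ℕ} {r : E₁ × E₂} (hr : r ∈ GS G hk 𝒩 (a + n) b) :
    tb G.inv ^ n * r ∈ GS G hk 𝒩 a (b + n) := by
  obtain ⟨h1, h2, h3⟩ := hr
  have e1 : (tb G.inv ^ n * r).1 = (tb G).1⁻¹ ^ n * r.1 := by rw [tb_inv]; rfl
  have e2 : (tb G.inv ^ n * r).2 = (tb G).2⁻¹ ^ n * r.2 := by rw [tb_inv]; rfl
  have m1 := inv_pow_mul_mem_L_DD (t := (tb G).1) n h2
  have m2 := inv_pow_mul_mem_L_DD (t := (tb G).2) n h3
  have g1 : ∀ j : nodeSet G hk 𝒩 G.t, Ge (𝒩.v j) 0 (tb G.inv ^ n * r).1 := fun j => by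
    rw [e1]; exact ge_of_DD_fst Hp j m1
  have g2 : ∀ j : nodeSet G hk 𝒩 G.t, Ge (𝒩.w j) 0 (tb G.inv ^ n * r).2 := fun j => by
    rw [e2]; exact ge_of_DD_snd Hp j m2
  refine ⟨fun j => ⟨g1 j, g2 j, ?_⟩, by rw [e1]; exact m1, by rw [e2]; exact m2⟩
  rw [Pi.one_apply, one_mul]
  have := (h1 j).2.2
  rw [Pi.one_apply, one_mul] at this
  change val (𝒩.v j) _ = val (𝒩.w j) _
  rw [← val_pow_tb_mul Hp (val_tb_eq j.2) (g1 j) (g2 j) n]
  have e : tb G ^ n * (tb G.inv ^ n * r) = r := by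
    rw [← mul_assoc, ← mul_pow, tb_mul_tb_inv, one_pow, one_mul]
  rw [e]
  exact this

include Hp in
/-- `G(n+1) = G(n) + t̄ G(n)` -/
theorem exists_GS_succ : ∃ n₁ : ℕ, ∀ n, n₁ ≤ n → ∀ r ∈ GS G hk 𝒩 (n + 1) 0,
    ∃ r₁ ∈ GS G hk 𝒩 n 0, ∃ r₂ ∈ GS G hk 𝒩 n 0, r = r₁ + tb G * r₂ := by
  classical
  set S := nodeSet G hk 𝒩 G.t with hS
  have ht1 := transcendental_tb_fst G
  have ht2 := transcendental_tb_snd G
  obtain ⟨c₁, hc₁⟩ := exists_riemann (K := k) (F := E₁)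
  obtain ⟨c₂, hc₂⟩ := exists_riemann (K := k) (F := E₂)
  refine ⟨(c₁ + Nat.card S).toNat + c₂.toNat + 1, fun n hn r hr => ?_⟩
  have hz1 : ∀ j : S, zeroDiv k (tb G).1 (𝒩.v j) = 0 := fun j => by
    rw [zeroDiv_apply, Hp.hv]; simp
  have hz2 : ∀ j : S, zeroDiv k (tb G).2 (𝒩.w j) = 0 := fun j => by
    rw [zeroDiv_apply, Hp.hw]; simp
  have hd1 : (1 : ℤ) ≤ finrank k⟮(tb G).1⟯ E₁ := by exact_mod_cast finrank_pos ht1
  have hd2 : (1 : ℤ) ≤ finrank k⟮(tb G).2⟯ E₂ := by exact_mod_cast finrank_pos ht2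
  have hn1 : (c₁ + Nat.card S) + 1 ≤ n := by
    have := Int.self_le_toNat (c₁ + Nat.card S)
    omega
  have hn2 : c₂ + 1 ≤ n := by
    have := Int.self_le_toNat c₂
    omega
  have hn0 : (1 : ℤ) ≤ n := by omega
  have key := GG_sup (𝒩.restrict S) (g₁ := rrGenus k E₁) (g₂ := rrGenus k E₂) hc₁ hc₂ 1
    (DD k (tb G).1 n 0) (DD k (tb G).1 (n + 1) 0 - zeroDiv k (tb G).1)
    (DD k (tb G).2 n 0) (DD k (tb G).2 (n + 1) 0 - zeroDiv k (tb G).2)
    (fun j => DD_eq_zero (Hp.hv j) _ _) (fun j => DD_eq_zero (Hp.hw j) _ _)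
    (fun j => by
      rw [Finsupp.sub_apply]
      change DD k (tb G).1 (n + 1) 0 (𝒩.v j) - zeroDiv k (tb G).1 (𝒩.v j) = 0
      rw [DD_eq_zero (Hp.hv j), hz1, sub_zero])
    (fun j => by
      rw [Finsupp.sub_apply]
      change DD k (tb G).2 (n + 1) 0 (𝒩.w j) - zeroDiv k (tb G).2 (𝒩.w j) = 0
      rw [DD_eq_zero (Hp.hw j), hz2, sub_zero])
    (by
      rw [DD_inf, map_sub, degree_DD ht1, degree_zeroDiv ht1]
      push_cast
      nlinarith)
    (by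
      rw [DD_inf, map_sub, degree_DD ht2, degree_zeroDiv ht2]
      push_cast
      nlinarith)
  rw [DD_sup, DD_sup] at key
  have hr' : r ∈ GG (𝒩.restrict S) 1 (DD k (tb G).1 (n + 1) 0) (DD k (tb G).2 (n + 1) 0) := hr
  rw [← key] at hr'
  obtain ⟨r₁, hr₁, r₂, hr₂, rfl⟩ := Submodule.mem_sup.1 hr'
  refine ⟨r₁, hr₁, tb G.inv * r₂, ?_, ?_⟩
  · obtain ⟨h1, h2, h3⟩ := hr₂
    have e1 : (tb G.inv * r₂).1 = (tb G).1⁻¹ * r₂.1 := by rw [tb_inv]; rfl
    have e2 : (tb G.inv * r₂).2 = (tb G).2⁻¹ * r₂.2 := by rw [tb_inv]; rfl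
    have m1 := inv_mul_mem_of_sub h2
    have m2 := inv_mul_mem_of_sub h3
    have g1 : ∀ j : S, Ge (𝒩.v j) 0 (tb G.inv * r₂).1 := fun j => by
      rw [e1]; exact ge_of_DD_fst Hp j m1
    have g2 : ∀ j : S, Ge (𝒩.w j) 0 (tb G.inv * r₂).2 := fun j => by
      rw [e2]; exact ge_of_DD_snd Hp j m2
    refine ⟨fun j => ⟨g1 j, g2 j, ?_⟩, by rw [e1]; exact m1, by rw [e2]; exact m2⟩
    rw [Pi.one_apply, one_mul]
    have h4 := (h1 j).2.2
    rw [Pi.one_apply, one_mul] at h4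
    change val (𝒩.v j) _ = val (𝒩.w j) _
    rw [← val_pow_tb_mul Hp (val_tb_eq j.2) (g1 j) (g2 j) 1, pow_one, ← mul_assoc, tb_mul_tb_inv,
      one_mul]
    exact h4
  · rw [← mul_assoc, tb_mul_tb_inv, one_mul]

include H in
theorem exists_mem_RS {n₁ : ℕ} {r : E₁ × E₂} (hr : r ∈ GS G hk 𝒩 n₁ 0) :
    ∃ N₀ : ℕ, ∀ N, N₀ ≤ N → r ∈ RS G hk hspan (n₁ + N) 0 := by
  have h1 : r ∈ BB G hk G.t := by
    rw [BB_iff H hspan]
    exact ⟨reg_of_mem_DD hr.2.1, reg_of_mem_DD hr.2.2, hr.1⟩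
  obtain ⟨n, x, hx, hxL, h⟩ := exists_DD_of_mem_BB h1
  exact ⟨n, fun N hN => RS_mono hspan (by omega) le_rfl ((mem_RS hspan).2 ⟨x, hx, hxL, h⟩)⟩

include H in
theorem exists_tb_pow_mem_RS {n₁ : ℕ} {r : E₁ × E₂} (hr : r ∈ GS G hk 𝒩 n₁ 0) :
    ∃ N₀ : ℕ, ∀ N, N₀ ≤ N → tb G ^ N * r ∈ RS G hk hspan (n₁ + N) 0 := by
  have h0 : tb G.inv ^ n₁ * r ∈ GS G hk 𝒩 0 n₁ := by
    have := tb_inv_pow_mul_mem_GS H.toNodPos (a := 0) (b := 0) (n := n₁) (r := r) (by rwa [zero_add])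
    rwa [zero_add] at this
  have h1 : tb G.inv ^ n₁ * r ∈ BB G hk G.t⁻¹ := by
    rw [BB_inv_iff H hspan, nodeSet_inv H hspan]
    refine ⟨?_, ?_, h0.1⟩
    · apply reg_of_mem_DD (a := n₁)
      rw [DD_inv]
      exact h0.2.1
    · apply reg_of_mem_DD (a := n₁)
      rw [DD_inv]
      exact h0.2.2
  obtain ⟨m, y, hy, hyL, h⟩ := exists_DD_of_mem_BB_inv h1
  refine ⟨m, fun N hN => ?_⟩
  have h2 : tb G.inv ^ n₁ * r ∈ RS G hk hspan 0 (0 + (n₁ + N)) :=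
    RS_mono hspan le_rfl (by omega) ((mem_RS hspan).2 ⟨y, hy, hyL, h⟩)
  have h3 := tb_pow_mul_mem_RS hspan h2
  rw [zero_add] at h3
  have e : tb G ^ (n₁ + N) * (tb G.inv ^ n₁ * r) = tb G ^ N * r := by
    rw [pow_add, mul_comm (tb G ^ n₁), mul_assoc, ← mul_assoc (tb G ^ n₁), ← mul_pow,
      tb_mul_tb_inv, one_pow, one_mul]
  rwa [e] at h3

include H in
/-- **The special fibre of a nodal model**: the reduction of `L(aP+bZ)` is the glued space. -/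
theorem exists_RS_eq_GS : ∃ n₀ : ℕ, ∀ a b, n₀ ≤ a + b → RS G hk hspan a b = GS G hk 𝒩 a b := by
  classical
  obtain ⟨n₁, hn₁⟩ := exists_GS_succ (G := G) (hk := hk) (𝒩 := 𝒩) H.toNodPos
  -- finite generation
  haveI : Module.Finite k (GS G hk 𝒩 n₁ 0) := finite_GG _ _ _ _
  obtain ⟨s, hs⟩ := (Module.Finite.iff_fg.1 this)
  have hsG : ∀ r ∈ s, r ∈ GS G hk 𝒩 n₁ 0 := fun r hr => by
    rw [← hs]; exact Submodule.subset_span hr
  have ex1 : ∀ r : E₁ × E₂, ∃ N₀ : ℕ, r ∈ s → ∀ N, N₀ ≤ N →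
      r ∈ RS G hk hspan (n₁ + N) 0 ∧ tb G ^ N * r ∈ RS G hk hspan (n₁ + N) 0 := by
    intro r
    by_cases hr : r ∈ s
    · obtain ⟨N1, h1⟩ := exists_mem_RS hspan H (hsG r hr)
      obtain ⟨N2, h2⟩ := exists_tb_pow_mem_RS hspan H (hsG r hr)
      exact ⟨max N1 N2, fun _ N hN => ⟨h1 N (le_trans (le_max_left _ _) hN),
        h2 N (le_trans (le_max_right _ _) hN)⟩⟩
    · exact ⟨0, fun h => absurd h hr⟩
  choose N₀ hN₀ using ex1
  let N := s.sup N₀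
  have hN1 : GS G hk 𝒩 n₁ 0 ≤ RS G hk hspan (n₁ + N) 0 := by
    rw [← hs, Submodule.span_le]
    intro r hr
    exact (hN₀ r hr N (Finset.le_sup hr)).1
  have hN2 : ∀ r ∈ GS G hk 𝒩 n₁ 0, tb G ^ N * r ∈ RS G hk hspan (n₁ + N) 0 := by
    have : GS G hk 𝒩 n₁ 0 ≤ (RS G hk hspan (n₁ + N) 0).comap
        (LinearMap.mulLeft k (tb G ^ N)) := by
      rw [← hs, Submodule.span_le]
      intro r hr
      exact (hN₀ r hr N (Finset.le_sup hr)).2
    exact this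
  -- generation of `G(n₁+m)`
  have hgen : ∀ m, GS G hk 𝒩 (n₁ + m) 0 ≤ ⨆ i ∈ Finset.range (m + 1),
      (GS G hk 𝒩 n₁ 0).map (LinearMap.mulLeft k (tb G ^ i)) := by
    intro m
    induction m with
    | zero =>
      intro r hr
      apply Submodule.mem_iSup_of_mem 0
      apply Submodule.mem_iSup_of_mem (Finset.mem_range.2 (by omega))
      exact ⟨r, hr, by simp⟩
    | succ m ih =>
      intro r hr
      obtain ⟨r₁, hr₁, r₂, hr₂, rfl⟩ := hn₁ (n₁ + m) (by omega) r hr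
      apply add_mem
      · refine (?_ : (⨆ i ∈ Finset.range (m + 1),
          (GS G hk 𝒩 n₁ 0).map (LinearMap.mulLeft k (tb G ^ i))) ≤ _) (ih hr₁)
        apply iSup₂_le
        intro i hi
        rw [Finset.mem_range] at hi
        exact le_iSup₂_of_le i (Finset.mem_range.2 (by omega)) le_rfl
      · have h2 := Submodule.mem_map_of_mem (f := LinearMap.mulLeft k (tb G)) (ih hr₂)
        rw [Submodule.map_iSup] at h2
        change tb G * r₂ ∈ _ at h2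
        refine (?_ : (⨆ i, Submodule.map (LinearMap.mulLeft k (tb G))
          (⨆ (_ : i ∈ Finset.range (m + 1)),
            (GS G hk 𝒩 n₁ 0).map (LinearMap.mulLeft k (tb G ^ i)))) ≤ _) h2
        apply iSup_le
        intro i
        rw [Submodule.map_iSup]
        apply iSup_le
        intro hi
        rw [Finset.mem_range] at hi
        refine le_iSup₂_of_le (i + 1) (Finset.mem_range.2 (by omega)) ?_
        rintro _ ⟨_, ⟨y, hy, rfl⟩, rfl⟩
        refine ⟨y, hy, ?_⟩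
        simp only [LinearMap.mulLeft_apply]
        ring
  have hfin : ∀ m, 2 * N ≤ m → GS G hk 𝒩 (n₁ + m) 0 ≤ RS G hk hspan (n₁ + m) 0 := by
    intro m hm
    refine (hgen m).trans ?_
    apply iSup₂_le
    intro i hi
    rw [Finset.mem_range] at hi
    rintro _ ⟨y, hy, rfl⟩
    simp only [LinearMap.mulLeft_apply]
    by_cases hiN : i ≤ m - N
    · have h1 : y ∈ RS G hk hspan (n₁ + N) (0 + i) := RS_mono hspan le_rfl (Nat.zero_le _) (hN1 hy)
      exact RS_mono hspan (by omega) le_rfl (tb_pow_mul_mem_RS hspan h1)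
    · have h1 : tb G ^ N * y ∈ RS G hk hspan (n₁ + N) (0 + (i - N)) :=
        RS_mono hspan le_rfl (Nat.zero_le _) (hN2 y hy)
      have h2 := tb_pow_mul_mem_RS hspan h1
      rw [← mul_assoc, ← pow_add, Nat.sub_add_cancel (by omega)] at h2
      exact RS_mono hspan (by omega) le_rfl h2
  refine ⟨n₁ + 2 * N, fun a b hab => le_antisymm (RS_le_GS hspan H.toNodPos a b) ?_⟩
  intro r hr
  have h1 : tb G ^ b * r ∈ GS G hk 𝒩 (a + b) 0 := tb_pow_mul_mem_GS H.toNodPos (by rwa [zero_add])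
  have h2 : tb G ^ b * r ∈ RS G hk hspan (a + b) 0 := by
    have := hfin (a + b - n₁) (by omega)
    rw [Nat.add_sub_cancel' (by omega)] at this
    exact this h1
  have h3 := tb_inv_pow_mul_mem_RS hspan h2
  rw [zero_add, ← mul_assoc, mul_comm (tb G.inv ^ b), ← mul_pow, tb_mul_tb_inv, one_pow,
    one_mul] at h3
  exact h3

end Fermat.Agent.Nod
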