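import Fermat.Agent.Nod.CuspOrd
import Fermat.Agent.SemiSt.Galois
import Fermat.Agent.Spec.GenusEq
import Fermat.Agent.RedMod.Genus

/-!
# The Frobenius model of the modular function field of level `q M`
-/

set_option autoImplicit false
set_option linter.style.haveILetI false
set_option linter.unusedSectionVars false

noncomputable section

namespace Fermat.Agent.Nod

open ModularCurve Polynomial IntermediateField Fermat.Agent.ModPoly Fermat.Agent.Red
  Fermat.Agent.RedMod Fermat.Agent.Cusp Fermat.Agent.SemiSt AlgebraicCurve Fermat.Agent.Curve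
  Fermat.Agent.RR

section Gal

variable {K : Type*} [Field K]

/-- the coefficientwise action as a semilinear automorphism -/
def galAut (N : ℕ) (σ : K ≃+* K) : SemilinearAut K (FF K N) :=
  ⟨(act N σ, σ), fun a => act_algebraMap σ a⟩

theorem galAut_smul (N : ℕ) (σ : K ≃+* K) (x : FF K N) : galAut N σ • x = act N σ x := rfl

theorem galAut_inv_smul (N : ℕ) (σ : K ≃+* K) (x : FF K N) :
    (galAut N σ)⁻¹ • x = act N σ.symm x := rfl

theorem baseAut_galAut (N : ℕ) (σ : K ≃+* K) : SemilinearAut.baseAut (galAut N σ) = σ := rfl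

end Gal

section FD

variable (k : Type*) [Field k] [IsAlgClosed k] (q M : ℕ) [hq : Fact q.Prime] [CharP k q]

/-- the Frobenius data of the modular function field of level `M` in characteristic `q` -/
def fd : FrobData k (FF k M) q where
  σ := Frq k q M
  g := galAut M (frobeniusEquiv k q)
  hq := hq.out.one_lt
  hσ x := by
    apply Subtype.ext
    rw [coe_Frq]
    refine (HeckeProd.pow_eq_qExpand q (x : LaurentSeries k)).symm.trans ?_
    rfl
  j := jF' k M
  hj := RR.transcendental_jF M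
  hjσ := Frq_jF

theorem fd_j : (fd k q M).j = jF' k M := rfl

theorem fd_σ (x : FF k M) : (fd k q M).σ x = Frq k q M x := rfl

theorem fd_g : (fd k q M).g = galAut M (frobeniusEquiv k q) := rfl

end FD

section Reg

variable {K F F' : Type*} [Field K] [IsAlgClosed K] [CharZero K] [Field F] [Algebra K F]
  [Field F'] [Algebra K F'] [FunField K F] [FunField K F']

theorem reg_map (f : F →ₐ[K] F') {t x : F} (ht : Transcendental K t) (hx : Reg K t x) :
    Reg K (f t) (f x) := by
  rw [reg_iff_isIntegralElem ht] at hx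
  obtain ⟨P, hP, h⟩ := hx
  intro v hv
  apply Ge.of_le
  apply ord_nonneg_of_isIntegralElem v hv
  refine ⟨P, hP, ?_⟩
  have e1 : (aeval (f t) : K[X] →ₐ[K] F').toRingHom =
      (f : F →+* F').comp (aeval t : K[X] →ₐ[K] F).toRingHom := by
    apply RingHom.ext
    intro Q
    exact aeval_algHom_apply f t Q
  have h2 := congrArg (f : F →+* F') h
  rw [Polynomial.hom_eval₂, map_zero] at h2
  rw [e1]
  exact h2

omit [IsAlgClosed K] [CharZero K] [FunField K F] in
theorem ord_sub_const_nonneg_iff {v : Place K F} {x : F} (b : K) :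
    0 ≤ v.ord (x - algebraMap K F b) ↔ 0 ≤ v.ord x := by
  rw [← mem_iff_ord_nonneg, ← mem_iff_ord_nonneg]
  exact ⟨fun h => by simpa using add_mem h (v.algebraMap_mem' b),
    fun h => sub_mem h (v.algebraMap_mem' b)⟩

omit [IsAlgClosed K] [CharZero K] [FunField K F] in
theorem reg_sub_const {t x : F} (b : K) : Reg K (t - algebraMap K F b) x ↔ Reg K t x := by
  constructor
  · intro h v hv
    exact h v ((ord_sub_const_nonneg_iff b).2 hv)
  · intro h v hv
    exact h v ((ord_sub_const_nonneg_iff b).1 hv)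

omit [CharZero K] [FunField K F] in
theorem max_ord_sub_const {v : Place K F} {x : F} (b : K) :
    max (-v.ord (x - algebraMap K F b)) 0 = max (-v.ord x) 0 := by
  rcases le_or_gt 0 (v.ord x) with h | h
  · have h1 := (ord_sub_const_nonneg_iff (v := v) b).2 h
    rw [max_eq_right (by linarith), max_eq_right (by linarith)]
  · rcases eq_or_ne b 0 with rfl | hb
    · simp
    have hx0 : x ≠ 0 := by
      rintro rfl
      rw [v.ord_zero] at h
      exact lt_irrefl _ h
    have hb0 : -algebraMap K F b ≠ 0 := neg_ne_zero.2 ((_root_.map_ne_zero _).2 hb)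
    have h2 := ord_add_eq_of_lt v hx0 hb0 (by rw [ord_neg, ord_algebraMap]; exact h)
    rw [← sub_eq_add_neg] at h2
    rw [h2]

omit [CharZero K] in
theorem DD_sub_const (t : F) (b : K) (n : ℕ) :
    DD K (t - algebraMap K F b) n 0 = DD K t n 0 := by
  ext v
  rw [DD_apply, DD_apply, max_ord_sub_const b]
  simp

omit [CharZero K] in
theorem mem_L_DD_zero {t x : F} {n : ℕ} : x ∈ riemannRochSpace (DD K t n 0) ↔
    Reg K t x ∧ ∀ v : Place K F, v.ord t < 0 → Ge v (n * v.ord t) x := by
  rw [mem_L]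
  constructor
  · intro h
    refine ⟨fun v hv => ?_, fun v hv => ?_⟩
    · have := h v
      rwa [DD_apply, max_eq_right (by linarith), Nat.cast_zero, zero_mul, mul_zero, add_zero,
        neg_zero] at this
    · have := h v
      rw [DD_apply, max_eq_left (by linarith), Nat.cast_zero, zero_mul, add_zero] at this
      exact this.mono (by linarith)
  · rintro ⟨h1, h2⟩ v
    rw [DD_apply, Nat.cast_zero, zero_mul, add_zero]
    rcases le_or_gt 0 (v.ord t) with hv | hv
    · rw [max_eq_right (by linarith), mul_zero, neg_zero]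
      exact h1 v hv
    · rw [max_eq_left (by linarith)]
      exact (h2 v hv).mono (by linarith)

end Reg

section Lift

variable {A K k : Type*} [CommRing A] [IsDomain A] [ValuationRing A]
  [Field K] [IsAlgClosed K] [CharZero K] [Algebra A K] [IsFractionRing A K]
  [Field k] [IsAlgClosed k] [Algebra A k]
  {M : ℕ} [NeZero M] (hk : Function.Surjective (algebraMap A k)) (hM : (M : k) ≠ 0)
  [FunField k (FF k M)] [FunField K (FF K M)]

include hk hM in
/-- Lifting functions with bounded poles at the cusps. -/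
theorem exists_lift (hgen : rrGenus k (FF k M) = rrGenus K (FF K M)) :
    ∃ n₀ : ℕ, ∀ n, n₀ ≤ n → ∀ c ∈ riemannRochSpace (n • poleDiv k (jF' k M)),
      ∃ x : FF K M, ∃ h : (x : LaurentSeries K) ∈ WL A K k,
        (c : LaurentSeries k) = πL A K k ⟨x, h⟩ ∧
        x ∈ riemannRochSpace (DD K (jF' K M) n 0) := by
  letI : Algebra A (FF K M) := ((algebraMap K (FF K M)).comp (algebraMap A K)).toAlgebra
  haveI : IsScalarTower A K (FF K M) := IsScalarTower.of_algebraMap_eq fun a => rfl
  letI : Algebra A (FF k M) := ((algebraMap k (FF k M)).comp (algebraMap A k)).toAlgebra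
  haveI : IsScalarTower A k (FF k M) := IsScalarTower.of_algebraMap_eq fun a => rfl
  have H := fibreHyp (K := K) hk hM
  rw [hgen] at H
  obtain ⟨n₀, h0⟩ := Spec.rd_eq_LL H
  refine ⟨n₀, fun n hn c hc => ?_⟩
  have h1 := h0 n 0 (by omega)
  have h2 : c ∈ LL (poleDiv k (jF' k M)) (zeroDiv k (jF' k M)) 0 n 0 := by
    rw [LL, zero_smul, add_zero, add_zero]
    exact hc
  rw [← h1] at h2
  obtain ⟨x, hx, h3⟩ := h2
  refine ⟨x, hx.1, ?_, ?_⟩
  · rw [← h3]
    rfl
  · have h4 := hx.2
    rw [LL, zero_smul, add_zero, add_zero] at h4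
    rw [DD, zero_smul, add_zero]
    exact h4

end Lift

section Main

variable {A K k : Type*} [CommRing A] [IsDomain A] [ValuationRing A]
  [Field K] [IsAlgClosed K] [CharZero K] [Algebra A K] [IsFractionRing A K]
  [Field k] [IsAlgClosed k] [Algebra A k]
  {q M : ℕ} [hq : Fact q.Prime] [NeZero M] (hco : q.Coprime M) [CharP k q]
  (hk : Function.Surjective (algebraMap A k)) (hM : (M : k) ≠ 0)
  [Algebra A (FF K (q * M))] [IsScalarTower A K (FF K (q * M))]
  [Algebra A (FF k M)] [IsScalarTower A k (FF k M)]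
  [FunField k (FF k M)] [FunField K (FF K M)] [FunField K (FF K (q * M))]

theorem reg_incl {x : FF K M} (hx : Reg K (jF' K M) x) :
    Reg K (jF' K (q * M)) (incl K (dvd_mul_left M q) x) := by
  have := reg_map (incl K (dvd_mul_left M q)) (RR.transcendental_jF M) hx
  rwa [incl_jF] at this

theorem mem_L_incl {x : FF K M} {n : ℕ} (hx : x ∈ riemannRochSpace (DD K (jF' K M) n 0)) :
    incl K (dvd_mul_left M q) x ∈ riemannRochSpace (DD K (jF' K (q * M)) n 0) := by
  rw [mem_DD_iff (RR.transcendental_jF _), pow_zero, one_mul] at hx ⊢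
  refine ⟨reg_incl hx.1, ?_⟩
  have := reg_map (incl K (dvd_mul_left M q)) (RR.transcendental_inv (RR.transcendental_jF M)) hx.2
  rwa [map_mul, map_pow, map_inv₀, incl_jF] at this

theorem reg_qe {x : FF K M} (hx : Reg K (jF' K M) x) :
    Reg K (jF' K (q * M)) (qe K q M x) := by
  have := reg_map (qe K q M) (RR.transcendental_jF M) hx
  intro v hv
  exact this v (ge_qe_jF v hv)

/-- poles of `x(q τ)` -/
theorem ge_qe {x : FF K M} {n : ℕ} (hx : x ∈ riemannRochSpace (DD K (jF' K M) n 0))
    {v : Place K (FF K (q * M))} (hv : v.ord (qe K q M (jF' K M)) < 0) :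
    Ge v (n * v.ord (qe K q M (jF' K M))) (qe K q M x) := by
  rw [mem_DD_iff (RR.transcendental_jF _)] at hx
  have h := reg_map (qe K q M) (RR.transcendental_inv (RR.transcendental_jF M)) hx.2
  have h1 := h v (by rw [map_inv₀, v.ord_inv]; linarith)
  rw [map_mul, map_pow, map_inv₀] at h1
  have h0 : qe K q M (jF' K M) ≠ 0 := by
    intro h0
    rw [h0, v.ord_zero] at hv
    exact lt_irrefl _ hv
  have h2 := (Ge.of_le (le_refl (v.ord (qe K q M (jF' K M) ^ n)))).mul h1
  rw [← mul_assoc, ← mul_pow, mul_inv_cancel₀ h0, one_pow, one_mul, ord_pow, add_zero] at h2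
  exact h2

/-- poles of the elements used to generate the functions supported on the second component -/
theorem mem_L_key {x : FF K M} {n m : ℕ} (hnm : q * q * n ≤ m)
    (hx : x ∈ riemannRochSpace (DD K (jF' K M) (q * n) 0)) :
    qe K q M x * (jF' K (q * M) ^ q - qe K q M (jF' K M)) ^ m ∈
      riemannRochSpace (DD K (jF' K (q * M)) (n + m * q) 0) := by
  have hN : ((q * M : ℕ) : K) ≠ 0 := natCast_ne_zero_K K (q * M)
  have hq1 : (1 : ℤ) ≤ q := by exact_mod_cast hq.out.one_lt.le
  have hnm' : (q : ℤ) * q * n ≤ m := by exact_mod_cast hnm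
  have hn0 : (0 : ℤ) ≤ n := by positivity
  have hm0 : (0 : ℤ) ≤ m := by positivity
  rw [mem_L_DD_zero]
  constructor
  · intro v hv
    have h1 : Ge v 0 (jF' K (q * M) ^ q) := ge_zero_pow (Ge.of_le hv) q
    have h2 : Ge v 0 (qe K q M (jF' K M)) := Ge.of_le (ge_qe_jF v hv)
    have h3 := (reg_qe (reg_of_mem_DD hx) v hv).mul (ge_zero_pow (h1.sub h2) m)
    rwa [add_zero] at h3
  · intro v hv
    rcases pole_cases hN v hv with h1 | ⟨h1, h2⟩
    · have hv' : v.ord (qe K q M (jF' K M)) < 0 := by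
        by_contra hcon
        push Not at hcon
        nlinarith
      have h3 := ge_qe hx hv'
      have h4 : Ge v (q * v.ord (jF' K (q * M))) (jF' K (q * M) ^ q) := by
        apply Ge.of_le
        rw [ord_pow]
      have h5 : Ge v (q * v.ord (jF' K (q * M))) (qe K q M (jF' K M)) := by
        apply Ge.of_le
        rw [h1]
        nlinarith
      have h6 := h3.mul ((h4.sub h5).pow m)
      refine h6.mono ?_
      rw [h1]
      push_cast
      nlinarith
    · have hv' : v.ord (qe K q M (jF' K M)) < 0 := by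
        rw [h1]
        nlinarith
      have h3 := ge_qe hx hv'
      have h6 := h3.mul (h2.pow m)
      refine h6.mono ?_
      rw [h1]
      push_cast
      nlinarith

variable (K) in
/-- the translated Gauss data -/
def ng (b : A) : GaussData A K (FF K (q * M)) k (FF k M × FF k M)
    (Fin (dedekindPsi M) ⊕ (Fin (dedekindPsi M) × Fin q)) := shift (sgauss K hco hk hM) b

theorem ng_W (b : A) : (ng K hco hk hM b).W = WW A K k hco := rfl

theorem ng_t (b : A) : (ng K hco hk hM b).t =
    jF' K (q * M) - algebraMap K (FF K (q * M)) (algebraMap A K b) := by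
  rw [← IsScalarTower.algebraMap_apply A K (FF K (q * M))]
  rfl

theorem ng_π (b : A) (x : FF K (q * M)) (hx : x ∈ WW A K k hco) :
    (ng K hco hk hM b).π ⟨x, hx⟩ = sred K hco hk hM ⟨x, hx⟩ := rfl

theorem ng_tb (b : A) : tb (ng K hco hk hM b) =
    (jF' k M - algebraMap k (FF k M) (algebraMap A k b),
      jF' k M ^ q - algebraMap k (FF k M) (algebraMap A k b)) := by
  refine (shift_πt (sgauss K hco hk hM) b).trans ?_
  rw [sgauss_πt]
  rfl

theorem ng_hspan (b : A) (x : FF K (q * M)) : ∃ P : K[X], P ≠ 0 ∧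
    ∃ Q : Fin (dedekindPsi M) ⊕ (Fin (dedekindPsi M) × Fin q) → K[X],
      aeval (ng K hco hk hM b).t P * x = (ng K hco hk hM b).comb Q :=
  shift_hspan _ (sgauss_span hco hk hM) b x

theorem reg_ng (b : A) {x : FF K (q * M)} :
    Reg K (ng K hco hk hM b).t x ↔ Reg K (jF' K (q * M)) x := by
  rw [ng_t]
  exact reg_sub_const _

theorem DD_ng (b : A) (n : ℕ) :
    DD K (ng K hco hk hM b).t n 0 = DD K (jF' K (q * M)) n 0 := by
  rw [ng_t]
  exact DD_sub_const _ _ n

theorem mem_BB_ng (b : A) {x : FF K (q * M)} (hx : x ∈ WW A K k hco)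
    (hr : Reg K (jF' K (q * M)) x) : sred K hco hk hM ⟨x, hx⟩ ∈
      BB (ng K hco hk hM b) hk (ng K hco hk hM b).t := by
  refine ⟨x, hx, ?_, rfl⟩
  rw [← reg_iff_isIntegralElem (ng K hco hk hM b).transcendental]
  exact (reg_ng hco hk hM b).2 hr

theorem mem_RS_ng (b : A) {x : FF K (q * M)} {n : ℕ} (hx : x ∈ WW A K k hco)
    (hr : x ∈ riemannRochSpace (DD K (jF' K (q * M)) n 0)) : sred K hco hk hM ⟨x, hx⟩ ∈
      RS (ng K hco hk hM b) hk (ng_hspan hco hk hM b) n 0 := by
  rw [mem_RS]
  refine ⟨x, hx, ?_, rfl⟩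
  rw [DD_ng]
  exact hr

omit [IsDomain A] [ValuationRing A] [IsAlgClosed K] [CharZero K] [IsAlgClosed k] [NeZero M]
  [Algebra A (FF k M)] [IsScalarTower A k (FF k M)] [FunField k (FF k M)]
  [FunField K (FF K M)] in
theorem coe_jF_eq_incL : ((jF' K M : FF K M) : LaurentSeries K) = incL A K (jqModC A) := by
  rw [incL, coeffMap_jqModC]
  exact Jc_one_one

theorem jF_mem_WL : ((jF' K M : FF K M) : LaurentSeries K) ∈ WL A K k := by
  rw [coe_jF_eq_incL (A := A)]
  exact incL_mem _

theorem coe_jF_eq : ((jF' k M : FF k M) : LaurentSeries k) =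
    πL A K k ⟨jF' K M, jF_mem_WL⟩ := by
  rw [πL_of_eq (coe_jF_eq_incL (A := A)), redL, coeffMap_jqModC]
  exact Jc_one_one

theorem jF_mem_WW : jF' K (q * M) ∈ WW A K k hco :=
  (hasLift_jF (A := A) (K := K) (hco := hco)).mem (k := k) hco

theorem dd_mem_WW : jF' K (q * M) ^ q - qe K q M (jF' K M) ∈ WW A K k hco :=
  sub_mem (pow_mem (jF_mem_WW hco) q) (qe_mem_WW (k := k) hco jF_mem_WL)

theorem sred_dd : sred K hco hk hM ⟨_, dd_mem_WW (A := A) (k := k) hco⟩ = (0, (fd k q M).δ) := by
  have hqj := sred_qe hco hk hM (jF_mem_WL (A := A) (K := K)) (qe_mem_WW (k := k) hco jF_mem_WL)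
    (jF' k M) coe_jF_eq
  have e : (⟨_, dd_mem_WW (A := A) (K := K) (k := k) (M := M) hco⟩ : WW A K k hco) =
      ⟨_, jF_mem_WW hco⟩ ^ q - ⟨_, qe_mem_WW (k := k) hco jF_mem_WL⟩ := Subtype.ext rfl
  rw [e, map_sub, map_pow, sred_jF, hqj, Frq_jF, FrobData.δ, fd_j, Prod.pow_mk, Prod.mk_sub_mk,
    sub_self, ← pow_mul]

theorem sred_mul_dd {x : FF K M} (h1 : (x : LaurentSeries K) ∈ WL A K k) {c : FF k M}
    (h2 : (c : LaurentSeries k) = πL A K k ⟨x, h1⟩) {m : ℕ} (hm : 1 ≤ m)
    (hx : qe K q M x * (jF' K (q * M) ^ q - qe K q M (jF' K M)) ^ m ∈ WW A K k hco) :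
    sred K hco hk hM ⟨_, hx⟩ = (0, c * (fd k q M).δ ^ m) := by
  have h5 := sred_qe hco hk hM h1 (qe_mem_WW (k := k) hco h1) c h2
  have e : (⟨_, hx⟩ : WW A K k hco) = ⟨_, qe_mem_WW (k := k) hco h1⟩ * ⟨_, dd_mem_WW hco⟩ ^ m :=
    Subtype.ext rfl
  rw [e, map_mul, map_pow, h5, sred_dd, Prod.pow_mk, Prod.mk_mul_mk, zero_pow (by omega), mul_zero]

/-- **the Frobenius model** of the modular function field of level `q M` -/
theorem frobModel (hgen : rrGenus k (FF k M) = rrGenus K (FF K M)) (b : A)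
    (hb : (algebraMap A k b) ^ (q * q) ≠ algebraMap A k b) :
    FrobModel (ng K hco hk hM b) hk (ng_hspan hco hk hM b) (fd k q M) := by
  obtain ⟨n₀, h0⟩ := exists_lift (K := K) hk hM hgen
  have hlift : ∀ c, Reg k (jF' k M) c → ∃ x : FF K M, ∃ h : (x : LaurentSeries K) ∈ WL A K k,
        (c : LaurentSeries k) = πL A K k ⟨x, h⟩ ∧ Reg K (jF' K M) x := by
    intro c hc
    obtain ⟨n, hn⟩ := exists_mem_DD (RR.transcendental_jF M) hc
    obtain ⟨x, h1, h2, h3⟩ := h0 (max n n₀) (le_max_right _ _) c (by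
      have := L_mono (DD_mono (k := k) (jF' k M) (le_max_left n n₀) (le_refl 0)) hn
      rw [DD, zero_smul, add_zero] at this
      exact this)
    exact ⟨x, h1, h2, reg_of_mem_DD h3⟩
  refine ⟨⟨algebraMap A k b, hb, ?_⟩, ?_, ?_, ?_, ?_⟩
  · rw [ng_tb, fd_σ, fd_j, Frq_jF]
  · intro c hc
    obtain ⟨x, h1, h2, h3⟩ := hlift c hc
    have h4 := incl_mem_WW (k := k) hco h1
    have h5 := sred_incl hco hk hM h1 h4 c h2
    rw [fd_σ, ← h5]
    exact mem_BB_ng hco hk hM b h4 (reg_incl h3)
  · intro c hc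
    obtain ⟨x, h1, h2, h3⟩ := hlift c hc
    have h4 := qe_mem_WW (k := k) hco h1
    have h5 := sred_qe hco hk hM h1 h4 c h2
    rw [fd_σ, ← h5]
    exact mem_BB_ng hco hk hM b h4 (reg_qe h3)
  · refine ⟨n₀, fun n hn c hc => ?_⟩
    obtain ⟨x, h1, h2, h3⟩ := h0 n hn c hc
    have h4 := incl_mem_WW (k := k) hco h1
    have h5 := sred_incl hco hk hM h1 h4 c h2
    rw [fd_σ, ← h5]
    exact mem_RS_ng hco hk hM b h4 (mem_L_incl h3)
  · refine ⟨n₀, fun n m hn hm hnm c hc => ?_⟩
    obtain ⟨x, h1, h2, h3⟩ := h0 (q * n) (by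
      have := hq.out.one_lt
      nlinarith) c hc
    have hxW : qe K q M x * (jF' K (q * M) ^ q - qe K q M (jF' K M)) ^ m ∈ WW A K k hco :=
      mul_mem (qe_mem_WW (k := k) hco h1) (pow_mem (dd_mem_WW hco) m)
    rw [← sred_mul_dd hco hk hM h1 h2 hm hxW]
    exact mem_RS_ng hco hk hM b hxW (mem_L_key hnm h3)

include hco in
/-- **the nodal model** of the modular function field of level `q M` -/
theorem nodMod_ng (hgen : rrGenus k (FF k M) = rrGenus K (FF K M)) (b : A)
    (hb : (algebraMap A k b) ^ (q * q) ≠ algebraMap A k b) :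
    NodMod (ng K hco hk hM b) hk (ng_hspan hco hk hM b) (fd k q M).nodes :=
  (frobModel hco hk hM hgen b hb).nodMod

end Main

end Fermat.Agent.Nod
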