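import Fermat.Agent.Nod.FrobModel

/-!
# Translation of the parameter of Gauss data
-/

set_option autoImplicit false
set_option linter.style.haveILetI false
set_option linter.unusedSectionVars false

namespace Fermat.Agent.Nod

open AlgebraicCurve Fermat.Agent.Curve Fermat.Agent.RR Fermat.Agent.Red Module Polynomial
  IntermediateField

section Poly

theorem aeval_sub_const {k R : Type*} [Field k] [CommRing R] [Algebra k R] (s : R) (c : k)
    (P : k[X]) : aeval (s - algebraMap k R c) P = aeval s (P.comp (X - C c)) := by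
  rw [aeval_comp, map_sub, aeval_X, aeval_C]

theorem comp_sub_ne_zero {k : Type*} [Field k] (c : k) {P : k[X]} (hP : P ≠ 0) :
    P.comp (X - C c) ≠ 0 := by
  intro h
  apply hP
  have h1 := congrArg (fun Q => Q.comp (X + C c)) h
  simp only [comp_assoc, sub_comp, X_comp, C_comp, add_sub_cancel_right, comp_X, zero_comp] at h1
  exact h1

end Poly

variable {A K F k R : Type*} [CommRing A] [IsDomain A] [ValuationRing A]
  [Field K] [Algebra A K] [IsFractionRing A K] [Field F] [Algebra K F] [Algebra A F]
  [IsScalarTower A K F] [Field k] [Algebra A k] [CommRing R] [Algebra k R] [Algebra A R]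
  [IsScalarTower A k R]

section

variable {ι : Type*} (G : GaussData A K F k R ι)

theorem π_sub_const (b : A) (h : G.t - algebraMap A F b ∈ G.W) :
    G.π ⟨G.t - algebraMap A F b, h⟩ = G.π ⟨G.t, G.ht⟩ - algebraMap k R (algebraMap A k b) := by
  have e : (⟨G.t - algebraMap A F b, h⟩ : G.W) = ⟨G.t, G.ht⟩ - algebraMap A G.W b :=
    Subtype.ext rfl
  rw [e, map_sub, AlgHom.commutes, IsScalarTower.algebraMap_apply A k R]

/-- translation of the parameter -/
noncomputable def shift [Finite ι] (b : A) : GaussData A K F k R ι where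
  W := G.W
  π := G.π
  t := G.t - algebraMap A F b
  ht := sub_mem G.ht (G.W.algebraMap_mem b)
  y := G.y
  hy := G.hy
  isUnit_of := G.isUnit_of
  indep := by
    intro P hP
    have h1 := G.indep (fun i => (P i).comp (X - C (algebraMap A k b))) (by
      rw [← hP]
      refine finsum_congr fun i => ?_
      rw [π_sub_const, aeval_sub_const])
    funext i
    by_contra hPi
    exact comp_sub_ne_zero (algebraMap A k b) hPi (congrFun h1 i)
  isUnit_t := by
    intro q hq
    rw [π_sub_const, aeval_sub_const]
    exact G.isUnit_t _ (comp_sub_ne_zero _ hq)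

variable [Finite ι]

theorem shift_W (b : A) : (shift G b).W = G.W := rfl

theorem shift_t (b : A) : (shift G b).t = G.t - algebraMap A F b := rfl

theorem shift_πt (b : A) : (shift G b).π ⟨(shift G b).t, (shift G b).ht⟩ =
    G.π ⟨G.t, G.ht⟩ - algebraMap k R (algebraMap A k b) := π_sub_const G b _

end

variable {ι : Type*} [Fintype ι] (G : GaussData A K F k R ι)

theorem shift_hspan (hspan : ∀ x : F, ∃ q : K[X], q ≠ 0 ∧ ∃ P : ι → K[X],
    aeval G.t q * x = G.comb P) (b : A) (x : F) : ∃ q : K[X], q ≠ 0 ∧ ∃ P : ι → K[X],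
      aeval (shift G b).t q * x = (shift G b).comb P := by
  obtain ⟨q, hq, P, hP⟩ := hspan x
  have key : ∀ Q : K[X], aeval (shift G b).t (Q.comp (X - C (-algebraMap A K b))) = aeval G.t Q := by
    intro Q
    rw [← aeval_sub_const, shift_t, map_neg, sub_neg_eq_add,
      ← IsScalarTower.algebraMap_apply A K F, sub_add_cancel]
  refine ⟨q.comp (X - C (-algebraMap A K b)), comp_sub_ne_zero _ hq,
    fun i => (P i).comp (X - C (-algebraMap A K b)), ?_⟩
  rw [key, hP]
  simp only [GaussData.comb]
  refine Finset.sum_congr rfl fun i _ => ?_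
  rw [key]
  rfl

end Fermat.Agent.Nod
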