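import Fermat.Agent.Nod.Main

/-!
# Nodal models: a criterion with one chart
-/

set_option autoImplicit false
set_option linter.style.haveILetI false
set_option linter.unusedSectionVars false

namespace Fermat.Agent.Nod

open AlgebraicCurve Fermat.Agent.Curve Fermat.Agent.RR Fermat.Agent.Red Module Polynomial
  IntermediateField

variable {A K F k E₁ E₂ : Type*} [CommRing A] [IsDomain A] [ValuationRing A]
  [Field K] [Algebra A K] [IsFractionRing A K] [Field F] [Algebra K F] [Algebra A F]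
  [IsScalarTower A K F] [Field k] [Algebra A k] [Field E₁] [Field E₂] [Algebra k E₁]
  [Algebra k E₂] [Algebra A E₁] [Algebra A E₂] [IsScalarTower A k E₁] [IsScalarTower A k E₂]
  [IsAlgClosed K] [IsAlgClosed k] [CharZero K] [FunField K F] [FunField k E₁] [FunField k E₂]

variable {ι₀ : Type*} [Fintype ι₀] [Nonempty ι₀] (G : GaussData A K F k (E₁ × E₂) ι₀)
  (hk : Function.Surjective (algebraMap A k))
  (hspan : ∀ x : F, ∃ q : K[X], q ≠ 0 ∧ ∃ P : ι₀ → K[X], aeval G.t q * x = G.comb P)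
  {ι : Type*} [Finite ι] (𝒩 : Nodes k E₁ E₂ ι)

/-- A nodal model: the reductions of `L(aP+bZ)` are the glued spaces. -/
structure NodMod : Prop extends NodPos G 𝒩 where
  eq : ∃ n₀ : ℕ, ∀ a b, n₀ ≤ a + b → RS G hk hspan a b = GS G hk 𝒩 a b

theorem NodHyp.toMod {G : GaussData A K F k (E₁ × E₂) ι₀}
    {hk : Function.Surjective (algebraMap A k)} {𝒩 : Nodes k E₁ E₂ ι}
    (hspan : ∀ x : F, ∃ q : K[X], q ≠ 0 ∧ ∃ P : ι₀ → K[X], aeval G.t q * x = G.comb P)
    (H : NodHyp G hk 𝒩) : NodMod G hk hspan 𝒩 :=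
  ⟨H.toNodPos, exists_RS_eq_GS hspan H⟩

/-- Hypotheses for a nodal model, in terms of the chart `t ≠ ∞` and of the symbols at `t = ∞`. -/
structure NodSym : Prop extends NodPos G 𝒩 where
  glue0 : ∀ r : E₁ × E₂, Reg k (tb G).1 r.1 → Reg k (tb G).2 r.2 → r ∈ glue 𝒩 1 →
    r ∈ BB G hk G.t
  sym : ∃ n₁ : ℕ, ∀ n, n₁ ≤ n → ∀ r : E₁ × E₂, r.1 ∈ riemannRochSpace (DD k (tb G).1 (n + 1) 0) →
    r.2 ∈ riemannRochSpace (DD k (tb G).2 (n + 1) 0) → ∃ r' ∈ RS G hk hspan (n + 1) 0,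
      (r - r').1 ∈ riemannRochSpace (DD k (tb G).1 n 0) ∧
      (r - r').2 ∈ riemannRochSpace (DD k (tb G).2 n 0)

/-- `L(nP₁) × L(nP₂)` -/
noncomputable def LP (n : ℕ) : Submodule k (E₁ × E₂) :=
  (riemannRochSpace (DD k (tb G).1 n 0)).prod (riemannRochSpace (DD k (tb G).2 n 0))

theorem mem_LP {n : ℕ} {r : E₁ × E₂} : r ∈ LP G n ↔
    r.1 ∈ riemannRochSpace (DD k (tb G).1 n 0) ∧ r.2 ∈ riemannRochSpace (DD k (tb G).2 n 0) :=
  Submodule.mem_prod

theorem LP_mono {n m : ℕ} (h : n ≤ m) : LP G n ≤ LP G m := by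
  intro r hr
  rw [mem_LP] at hr ⊢
  exact ⟨L_mono (DD_mono _ h le_rfl) hr.1, L_mono (DD_mono _ h le_rfl) hr.2⟩

/-- `LP` is a product -/
noncomputable def LPequiv (n : ℕ) : LP G n ≃ₗ[k] (riemannRochSpace (DD k (tb G).1 n 0)) ×
    (riemannRochSpace (DD k (tb G).2 n 0)) where
  toFun x := (⟨x.1.1, x.2.1⟩, ⟨x.1.2, x.2.2⟩)
  map_add' := fun _ _ => rfl
  map_smul' := fun _ _ => rfl
  invFun x := ⟨(x.1.1, x.2.1), ⟨x.1.2, x.2.2⟩⟩
  left_inv := fun _ => rfl
  right_inv := fun _ => rfl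

instance finite_LP (n : ℕ) : Module.Finite k (LP G n) :=
  Module.Finite.equiv (LPequiv G n).symm

theorem finrank_LP (n : ℕ) : finrank k (LP G n) =
    ell (DD k (tb G).1 n 0) + ell (DD k (tb G).2 n 0) := by
  rw [(LPequiv G n).finrank_eq, Module.finrank_prod]
  rfl

variable {G hk hspan 𝒩}

theorem RS_le_LP (n : ℕ) : RS G hk hspan n 0 ≤ LP G n := by
  intro r hr
  obtain ⟨x, hx, hxL, rfl⟩ := (mem_RS hspan).1 hr
  exact (mem_LP G).2 (π_mem_DD G hk hspan hx hxL)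

theorem finite_RS (n : ℕ) : Module.Finite k (RS G hk hspan n 0) :=
  Submodule.finiteDimensional_of_le (RS_le_LP n)

theorem finrank_RS (a b : ℕ) : finrank k (RS G hk hspan a b) = ell (DD K G.t a b) :=
  (G.toRedModel hk hspan).finrank_rd hk _

theorem exists_inf_eq (S : NodSym G hk hspan 𝒩) : ∃ n₂ : ℕ, ∀ n, n₂ ≤ n →
    RS G hk hspan (n + 1) 0 ⊓ LP G n = RS G hk hspan n 0 := by
  classical
  obtain ⟨n₁, hn₁⟩ := S.sym
  obtain ⟨c, hc⟩ := exists_riemann (K := K) (F := F)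
  obtain ⟨c₁, hc₁⟩ := exists_riemann (K := k) (F := E₁)
  obtain ⟨c₂, hc₂⟩ := exists_riemann (K := k) (F := E₂)
  have ht := G.transcendental (K := K)
  have ht1 := transcendental_tb_fst G
  have ht2 := transcendental_tb_snd G
  set d : ℤ := ((finrank K⟮G.t⟯ F : ℕ) : ℤ) with hdef
  set d₁ : ℤ := ((finrank k⟮(tb G).1⟯ E₁ : ℕ) : ℤ) with hd₁def
  set d₂ : ℤ := ((finrank k⟮(tb G).2⟯ E₂ : ℕ) : ℤ) with hd₂def
  have hd : (1 : ℤ) ≤ d := by rw [hdef]; exact_mod_cast finrank_pos ht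
  have hd1 : (1 : ℤ) ≤ d₁ := by rw [hd₁def]; exact_mod_cast finrank_pos ht1
  have hd2 : (1 : ℤ) ≤ d₂ := by rw [hd₂def]; exact_mod_cast finrank_pos ht2
  set N := n₁ + c.toNat + c₁.toNat + c₂.toNat with hN
  have q0 := Int.self_le_toNat c
  have q1 := Int.self_le_toNat c₁
  have q2 := Int.self_le_toNat c₂
  -- dimension formulas
  have e0 : ∀ n, N ≤ n → (finrank k (RS G hk hspan n 0) : ℤ) = n * d + 1 - rrGenus K F := by
    intro n hn
    have hn' : (c.toNat : ℤ) ≤ n := by omega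
    rw [finrank_RS, hc _ (by rw [degree_DD ht]; push_cast; nlinarith), degree_DD ht]
    push_cast
    ring
  have e1 : ∀ n, N ≤ n → (finrank k (LP G n) : ℤ) =
      n * (d₁ + d₂) + 2 - rrGenus k E₁ - rrGenus k E₂ := by
    intro n hn
    have hn1 : (c₁.toNat : ℤ) ≤ n := by omega
    have hn2 : (c₂.toNat : ℤ) ≤ n := by omega
    rw [finrank_LP]
    push_cast
    rw [hc₁ _ (by rw [degree_DD ht1]; push_cast; nlinarith),
      hc₂ _ (by rw [degree_DD ht2]; push_cast; nlinarith), degree_DD ht1, degree_DD ht2]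
    push_cast
    ring
  -- growth
  have hle : d ≤ d₁ + d₂ := by
    by_contra hlt
    push Not at hlt
    have h1 : ∀ n, N ≤ n → (n : ℤ) ≤ rrGenus K F + 1 := by
      intro n hn
      have h2 : finrank k (RS G hk hspan n 0) ≤ finrank k (LP G n) :=
        Submodule.finrank_mono (RS_le_LP n)
      have h3 : (finrank k (RS G hk hspan n 0) : ℤ) ≤ finrank k (LP G n) := by exact_mod_cast h2
      rw [e0 n hn, e1 n hn] at h3
      have h4 : (0 : ℤ) ≤ n := by positivity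
      have h5 : (0 : ℤ) ≤ rrGenus k E₁ := by positivity
      have h6 : (0 : ℤ) ≤ rrGenus k E₂ := by positivity
      nlinarith
    have h2 := h1 (N + rrGenus K F + 2) (by omega)
    push_cast at h2
    have : (0 : ℤ) ≤ N := by positivity
    omega
  refine ⟨N, fun n hn => ?_⟩
  symm
  have hle' : RS G hk hspan n 0 ≤ RS G hk hspan (n + 1) 0 ⊓ LP G n :=
    le_inf (RS_mono hspan (Nat.le_succ n) le_rfl) (RS_le_LP n)
  apply Submodule.eq_of_le_of_finrank_le hle'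
  have hsup : RS G hk hspan (n + 1) 0 ⊔ LP G n = LP G (n + 1) := by
    apply le_antisymm
    · exact sup_le (RS_le_LP _) (LP_mono G (Nat.le_succ n))
    · intro r hr
      rw [mem_LP] at hr
      obtain ⟨r', hr', h1, h2⟩ := hn₁ n (by omega) r hr.1 hr.2
      have : r = r' + (r - r') := by ring
      rw [this]
      exact Submodule.add_mem_sup hr' ((mem_LP G).2 ⟨h1, h2⟩)
  haveI := finite_RS (G := G) (hk := hk) (hspan := hspan) (n + 1)
  have h1 := Submodule.finrank_sup_add_finrank_inf_eq (RS G hk hspan (n + 1) 0) (LP G n)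
  rw [hsup] at h1
  have h2 : (finrank k (LP G (n + 1)) : ℤ) +
      finrank k (RS G hk hspan (n + 1) 0 ⊓ LP G n : Submodule k (E₁ × E₂)) =
      finrank k (RS G hk hspan (n + 1) 0) + finrank k (LP G n) := by exact_mod_cast h1
  rw [e0 (n + 1) (by omega), e1 (n + 1) (by omega), e1 n hn] at h2
  have h3 := e0 n hn
  have h4 : (finrank k (RS G hk hspan (n + 1) 0 ⊓ LP G n : Submodule k (E₁ × E₂)) : ℤ) ≤
      finrank k (RS G hk hspan n 0) := by
    rw [h3]
    push_cast at h2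
    linarith
  exact_mod_cast h4

theorem NodSym.toMod (S : NodSym G hk hspan 𝒩) : NodMod G hk hspan 𝒩 := by
  refine ⟨S.toNodPos, ?_⟩
  obtain ⟨n₂, hn₂⟩ := exists_inf_eq S
  refine ⟨n₂, fun a b hab => le_antisymm (RS_le_GS hspan S.toNodPos a b) ?_⟩
  intro r hr
  have h1 : tb G ^ b * r ∈ GS G hk 𝒩 (a + b) 0 :=
    tb_pow_mul_mem_GS S.toNodPos (by rwa [zero_add])
  have h2 : tb G ^ b * r ∈ BB G hk G.t := by
    rw [mem_iff_of_glue 𝒩 (transcendental_tb_fst G) (transcendental_tb_snd G) S.hv S.hw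
      (BB G hk G.t) (fun _ hr => reg_of_mem_BB G hk hspan hr) S.glue0 (S := nodeSet G hk 𝒩 G.t)
      (fun _ => Iff.rfl)]
    exact ⟨reg_of_mem_DD h1.2.1, reg_of_mem_DD h1.2.2, h1.1⟩
  obtain ⟨n, x, hx, hxL, h⟩ := exists_DD_of_mem_BB h2
  have h3 : ∀ m, tb G ^ b * r ∈ RS G hk hspan (a + b + m) 0 → tb G ^ b * r ∈ RS G hk hspan (a + b) 0 := by
    intro m
    induction m with
    | zero => exact id
    | succ m ih =>
      intro hm
      apply ih
      rw [← hn₂ (a + b + m) (by omega)]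
      exact ⟨hm, LP_mono G (by omega) ((mem_LP G).2 ⟨h1.2.1, h1.2.2⟩)⟩
  have h4 : tb G ^ b * r ∈ RS G hk hspan (a + b) 0 :=
    h3 n (RS_mono hspan (by omega) le_rfl ((mem_RS hspan).2 ⟨x, hx, hxL, h⟩))
  have h5 := tb_inv_pow_mul_mem_RS hspan h4
  rw [← mul_assoc, mul_comm (tb G.inv ^ b), ← mul_pow, tb_mul_tb_inv, one_pow, one_mul,
    zero_add] at h5
  exact h5

end Fermat.Agent.Nod
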