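import Fermat.Agent.Nod.Rigid
import Fermat.Agent.Nod.Frob

/-!
# Semilinear automorphisms and the glueing cocycle
-/

set_option autoImplicit false
set_option linter.style.haveILetI false
set_option linter.unusedSectionVars false

namespace Fermat.Agent.Nod

open AlgebraicCurve Fermat.Agent.Curve Fermat.Agent.RR Fermat.Agent.Red Module Polynomial
  IntermediateField

variable {A K F k E₁ E₂ : Type*} [CommRing A] [IsDomain A] [ValuationRing A]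
  [Field K] [Algebra A K] [IsFractionRing A K] [Field F] [Algebra K F] [Algebra A F]
  [IsScalarTower A K F] [Field k] [Algebra A k] [Field E₁] [Field E₂] [Algebra k E₁]
  [Algebra k E₂] [Algebra A E₁] [Algebra A E₂] [IsScalarTower A k E₁] [IsScalarTower A k E₂]
  [IsAlgClosed K] [IsAlgClosed k] [CharZero K] [FunField K F] [FunField k E₁] [FunField k E₂]

variable {ι₀ : Type*} [Fintype ι₀] [Nonempty ι₀] {G : GaussData A K F k (E₁ × E₂) ι₀}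
  {hk : Function.Surjective (algebraMap A k)}
  {ι : Type*} [Finite ι] {𝒩 : Nodes k E₁ E₂ ι}
  (hspan : ∀ x : F, ∃ q : K[X], q ≠ 0 ∧ ∃ P : ι₀ → K[X], aeval G.t q * x = G.comb P)
  (H : NodMod G hk hspan 𝒩)

theorem pow_mul_mem_L_sub {t x : F} {D : Divisor K F} {a b : ℕ}
    (hx : x ∈ riemannRochSpace (DD K t a b - D)) :
    t ^ b * x ∈ riemannRochSpace (DD K t (a + b) 0 - D) := by
  rw [mem_L] at hx ⊢
  intro v
  have h1 := (Ge.of_le (le_refl (v.ord (t ^ b)))).mul (hx v)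
  refine h1.mono ?_
  rw [ord_pow, Finsupp.sub_apply, Finsupp.sub_apply, DD_apply, DD_apply]
  push_cast
  have h2 : max (-v.ord t) 0 - max (v.ord t) 0 = -v.ord t := by
    rcases le_total 0 (v.ord t) with h | h
    · rw [max_eq_right (by linarith), max_eq_left h]; ring
    · rw [max_eq_left (by linarith), max_eq_right h]; ring
  have h3 : (b : ℤ) * (max (-v.ord t) 0 - max (v.ord t) 0) = b * (-v.ord t) := by rw [h2]
  linarith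

namespace TwData

variable {m : ℕ} {f f' : F} {D D' : Divisor K F} {γ γ' : E₁ × E₂} {ζ ζ' : Nd G hk 𝒩 → k}

include hspan H in
/-- It suffices to check the twisted glueing for the sections with poles along `P` only. -/
theorem mk0 (hm : m ≠ 0) (hf : f ∈ G.W) (hπ : G.π ⟨f, hf⟩ = γ ^ m)
    (hD : ∀ v, (m : ℤ) * D v = v.ord f) (h1 : γ.1 ≠ 0) (h2 : γ.2 ≠ 0) (root : ∀ j, ζ j ^ m = 1)
    (tw0 : ∀ a x (hx : x ∈ G.W), x ∈ riemannRochSpace (DD K G.t a 0 - D) →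
      pinv γ * G.π ⟨x, hx⟩ ∈ glue (𝒩.restrict (nodeSet G hk 𝒩 G.t)) ζ) :
    TwData G hk 𝒩 m f D γ ζ := by
  refine ⟨hf, hπ, hD, h1, h2, root, fun a b x hx hxL j => ?_⟩
  have hxL' := mem_DD_pinv hspan H hm hπ h1 h2 hD hx hxL
  have g1 : Ge (𝒩.v j) 0 (pinv γ * G.π ⟨x, hx⟩).1 := ge_of_DD_fst H.toNodPos j hxL'.1
  have g2 : Ge (𝒩.w j) 0 (pinv γ * G.π ⟨x, hx⟩).2 := ge_of_DD_snd H.toNodPos j hxL'.2
  refine ⟨g1, g2, ?_⟩
  have h3 := (tw0 (a + b) _ (mul_mem (pow_mem G.ht b) hx) (pow_mul_mem_L_sub hxL) j).2.2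
  rw [pow_tb_mul hx b] at h3
  have e : pinv γ * (tb G ^ b * G.π ⟨x, hx⟩) = tb G ^ b * (pinv γ * G.π ⟨x, hx⟩) := by ring
  rw [e] at h3
  have t1 : Ge (𝒩.v j) 0 (tb G).1 := Ge.of_le (H.hv j).ge
  have t2 : Ge (𝒩.w j) 0 (tb G).2 := Ge.of_le (H.hw j).ge
  have e1 : (tb G ^ b * (pinv γ * G.π ⟨x, hx⟩)).1 = (tb G).1 ^ b * (pinv γ * G.π ⟨x, hx⟩).1 := rfl
  have e2 : (tb G ^ b * (pinv γ * G.π ⟨x, hx⟩)).2 = (tb G).2 ^ b * (pinv γ * G.π ⟨x, hx⟩).2 := rfl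
  change val (𝒩.v j) (tb G ^ b * (pinv γ * G.π ⟨x, hx⟩)).1 =
    ζ j * val (𝒩.w j) (tb G ^ b * (pinv γ * G.π ⟨x, hx⟩)).2 at h3
  rw [e1, e2, val_mul (ge_zero_pow t1 b) g1, val_mul (ge_zero_pow t2 b) g2, val_pow t1,
    val_pow t2, val_tb_eq j.2] at h3
  have h4 : val (𝒩.w j) (tb G).2 ^ b ≠ 0 := pow_ne_zero _ (val_tb_ne H.toNodPos j).2
  change val (𝒩.v j) (pinv γ * G.π ⟨x, hx⟩).1 = ζ j * val (𝒩.w j) (pinv γ * G.π ⟨x, hx⟩).2
  apply mul_left_cancel₀ h4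
  rw [h3]
  ring

end TwData

variable (G hk 𝒩) in
/-- A semilinear automorphism of a nodal model. -/
structure NodAut where
  /-- the automorphism of the function field -/
  θ : SemilinearAut K F
  /-- the automorphism of the first component -/
  g₁ : SemilinearAut k E₁
  /-- the automorphism of the second component -/
  g₂ : SemilinearAut k E₂
  base : SemilinearAut.baseAut g₁ = SemilinearAut.baseAut g₂
  hW : ∀ x ∈ G.W, θ • x ∈ G.W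
  hW' : ∀ x ∈ G.W, θ⁻¹ • x ∈ G.W
  hπ : ∀ x (hx : x ∈ G.W), G.π ⟨θ • x, hW x hx⟩ = (g₁ • (G.π ⟨x, hx⟩).1, g₂ • (G.π ⟨x, hx⟩).2)
  ht : ∃ c : K, θ • G.t = G.t + algebraMap K F c
  /-- the permutation of the nodes -/
  s : Nd G hk 𝒩 ≃ Nd G hk 𝒩
  hv : ∀ j, 𝒩.v (s j) = g₁ • 𝒩.v j
  hw : ∀ j, 𝒩.w (s j) = g₂ • 𝒩.w j

namespace NodAut

variable (Θ : NodAut G hk 𝒩)

theorem hπ' {x : F} (hx : x ∈ G.W) : G.π ⟨Θ.θ⁻¹ • x, Θ.hW' x hx⟩ =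
    (Θ.g₁⁻¹ • (G.π ⟨x, hx⟩).1, Θ.g₂⁻¹ • (G.π ⟨x, hx⟩).2) := by
  have h := Θ.hπ _ (Θ.hW' x hx)
  have e : (⟨Θ.θ • Θ.θ⁻¹ • x, Θ.hW _ (Θ.hW' x hx)⟩ : G.W) = ⟨x, hx⟩ :=
    Subtype.ext (smul_inv_smul _ _)
  rw [e] at h
  have h1 := congrArg Prod.fst h
  have h2 := congrArg Prod.snd h
  simp only at h1 h2
  rw [h1, h2, inv_smul_smul, inv_smul_smul]

theorem max_ord_t (v : Place K F) : max (-(Θ.θ⁻¹ • v).ord G.t) 0 = max (-v.ord G.t) 0 := by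
  obtain ⟨c, hc⟩ := Θ.ht
  have h1 : (Θ.θ⁻¹ • v).ord G.t = v.ord (Θ.θ • G.t) := by
    have := SemilinearAut.ord_smul Θ.θ⁻¹ v (Θ.θ • G.t)
    rwa [inv_smul_smul] at this
  rw [h1, hc]
  have h2 := (max_ord_sub (P := v) (x := G.t) (-c))
  rw [map_neg, sub_neg_eq_add] at h2
  exact h2
where
  max_ord_sub {P : Place K F} {x : F} (b : K) :
      max (-P.ord (x - algebraMap K F b)) 0 = max (-P.ord x) 0 := by
    have hiff : 0 ≤ P.ord (x - algebraMap K F b) ↔ 0 ≤ P.ord x := by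
      rw [← mem_iff_ord_nonneg, ← mem_iff_ord_nonneg]
      exact ⟨fun h => by simpa using add_mem h (P.algebraMap_mem' b),
        fun h => sub_mem h (P.algebraMap_mem' b)⟩
    rcases le_or_gt 0 (P.ord x) with h | h
    · have h1 := hiff.2 h
      rw [max_eq_right (by linarith), max_eq_right (by linarith)]
    · rcases eq_or_ne b 0 with rfl | hb
      · simp
      have hx0 : x ≠ 0 := by
        rintro rfl
        rw [P.ord_zero] at h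
        exact lt_irrefl _ h
      have hb0 : -algebraMap K F b ≠ 0 := neg_ne_zero.2 ((_root_.map_ne_zero _).2 hb)
      have h2 := ord_add_eq_of_lt P hx0 hb0 (by rw [ord_neg, ord_algebraMap]; exact h)
      rw [← sub_eq_add_neg] at h2
      rw [h2]

theorem DD_inv_smul (a : ℕ) (v : Place K F) :
    DD K G.t a 0 (Θ.θ⁻¹ • v) = DD K G.t a 0 v := by
  rw [DD_apply, DD_apply, Θ.max_ord_t]
  simp

theorem inv_smul_mem_L {a : ℕ} {D : Divisor K F} {x : F}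
    (hx : x ∈ riemannRochSpace (DD K G.t a 0 - Θ.θ • D)) :
    Θ.θ⁻¹ • x ∈ riemannRochSpace (DD K G.t a 0 - D) := by
  rw [mem_L] at hx ⊢
  intro v
  have h := hx (Θ.θ • v)
  rw [Finsupp.sub_apply, SemilinearAut.divisor_smul_apply_smul] at h
  have h1 : DD K G.t a 0 (Θ.θ • v) = DD K G.t a 0 v := by
    have := Θ.DD_inv_smul a (Θ.θ • v)
    rw [inv_smul_smul] at this
    exact this.symm
  rw [h1, ge_smul'] at h
  rw [Finsupp.sub_apply]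
  exact h

variable {m : ℕ} {f f' : F} {D D' : Divisor K F} {γ γ' : E₁ × E₂} {ζ ζ' : Nd G hk 𝒩 → k}

include hspan H in
/-- **Transport** of Kummer data under a semilinear automorphism. -/
theorem tw (hm : m ≠ 0) (T : TwData G hk 𝒩 m f D γ ζ) :
    TwData G hk 𝒩 m (Θ.θ • f) (Θ.θ • D) (Θ.g₁ • γ.1, Θ.g₂ • γ.2)
      (fun j => SemilinearAut.baseAut Θ.g₁ (ζ (Θ.s.symm j))) := by
  refine TwData.mk0 hspan H hm (Θ.hW f T.hf) ?_ ?_ ?_ ?_ ?_ ?_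
  · rw [Θ.hπ f T.hf, T.hπ]
    apply Prod.ext
    · exact smul_pow' _ _ _
    · exact smul_pow' _ _ _
  · intro v
    rw [SemilinearAut.divisor_smul_apply, T.hD]
    have := SemilinearAut.ord_smul Θ.θ (Θ.θ⁻¹ • v) f
    rw [smul_inv_smul] at this
    exact this.symm
  · exact (smul_ne_zero_iff_ne Θ.g₁).2 T.h1
  · exact (smul_ne_zero_iff_ne Θ.g₂).2 T.h2
  · intro j
    rw [← map_pow, T.root, map_one]
  · intro a x hx hxL j
    have hx' : Θ.θ⁻¹ • x ∈ G.W := Θ.hW' x hx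
    have h1 := T.tw a 0 _ hx' (Θ.inv_smul_mem_L hxL) (Θ.s.symm j)
    obtain ⟨g1, g2, g3⟩ := h1
    rw [Θ.hπ' hx] at g1 g2 g3
    have hv : 𝒩.v j = Θ.g₁ • 𝒩.v (Θ.s.symm j) := by
      rw [← Θ.hv, Equiv.apply_symm_apply]
    have hw : 𝒩.w j = Θ.g₂ • 𝒩.w (Θ.s.symm j) := by
      rw [← Θ.hw, Equiv.apply_symm_apply]
    change Ge (𝒩.v (Θ.s.symm j)) 0 (γ.1⁻¹ * (Θ.g₁⁻¹ • (G.π ⟨x, hx⟩).1)) at g1
    change Ge (𝒩.w (Θ.s.symm j)) 0 (γ.2⁻¹ * (Θ.g₂⁻¹ • (G.π ⟨x, hx⟩).2)) at g2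
    change val (𝒩.v (Θ.s.symm j)) (γ.1⁻¹ * (Θ.g₁⁻¹ • (G.π ⟨x, hx⟩).1)) =
      ζ (Θ.s.symm j) * val (𝒩.w (Θ.s.symm j)) (γ.2⁻¹ * (Θ.g₂⁻¹ • (G.π ⟨x, hx⟩).2)) at g3
    have e1 : Θ.g₁ • (γ.1⁻¹ * (Θ.g₁⁻¹ • (G.π ⟨x, hx⟩).1)) =
        (Θ.g₁ • γ.1)⁻¹ * (G.π ⟨x, hx⟩).1 := by
      rw [smul_mul', smul_inv_smul, smul_inv'']
    have e2 : Θ.g₂ • (γ.2⁻¹ * (Θ.g₂⁻¹ • (G.π ⟨x, hx⟩).2)) =
        (Θ.g₂ • γ.2)⁻¹ * (G.π ⟨x, hx⟩).2 := by
      rw [smul_mul', smul_inv_smul, smul_inv'']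
    have c1 := (ge_smul Θ.g₁).2 g1
    have c2 := (ge_smul Θ.g₂).2 g2
    have d1 := val_gsmul Θ.g₁ g1
    have d2 := val_gsmul Θ.g₂ g2
    rw [e1, ← hv] at c1 d1
    rw [e2, ← hw] at c2 d2
    refine ⟨c1, c2, ?_⟩
    change val (𝒩.v j) ((Θ.g₁ • γ.1)⁻¹ * (G.π ⟨x, hx⟩).1) = _ *
      val (𝒩.w j) ((Θ.g₂ • γ.2)⁻¹ * (G.π ⟨x, hx⟩).2)
    rw [d1, d2, g3, map_mul, Θ.base]

end NodAut

end Fermat.Agent.Nod
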