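import Fermat.Agent.RR.Riemann

/-!
# Values of functions at places
-/

set_option autoImplicit false
set_option linter.style.haveILetI false
set_option linter.unusedSectionVars false

namespace Fermat.Agent.Nod

open AlgebraicCurve Fermat.Agent.Curve Fermat.Agent.RR

variable {k E : Type*} [Field k] [Field E] [Algebra k E]

theorem eq_zero_of_ge_algebraMap {v : Place k E} {a : k} (h : Ge v 1 (algebraMap k E a)) :
    a = 0 := by
  rcases h with h | h
  · exact (map_eq_zero _).1 h
  · rw [ord_algebraMap] at h
    omega

/-- The value of `x` at the place `v` (zero if `v` is a pole of `x`). -/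
noncomputable def val (v : Place k E) (x : E) : k := by
  classical
  exact if h : ∃ a : k, Ge v 1 (x - algebraMap k E a) then h.choose else 0

theorem val_eq {v : Place k E} {x : E} {a : k} (h : Ge v 1 (x - algebraMap k E a)) :
    val v x = a := by
  classical
  have hex : ∃ a : k, Ge v 1 (x - algebraMap k E a) := ⟨a, h⟩
  have h1 : val v x = hex.choose := dif_pos hex
  rw [h1]
  have h2 := hex.choose_spec
  have h3 : Ge v 1 (algebraMap k E (a - hex.choose)) := by
    have := h2.sub h
    have e : x - algebraMap k E hex.choose - (x - algebraMap k E a) =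
        algebraMap k E (a - hex.choose) := by rw [map_sub]; ring
    rwa [e] at this
  exact (sub_eq_zero.1 (eq_zero_of_ge_algebraMap h3)).symm

theorem val_algebraMap (v : Place k E) (a : k) : val v (algebraMap k E a) = a :=
  val_eq (by rw [sub_self]; exact Ge.zero v 1)

@[simp] theorem val_zero (v : Place k E) : val v (0 : E) = 0 := by
  have := val_algebraMap v (0 : k)
  rwa [map_zero] at this

@[simp] theorem val_one (v : Place k E) : val v (1 : E) = 1 := by
  have := val_algebraMap v (1 : k)
  rwa [map_one] at this

theorem val_of_pos {v : Place k E} {x : E} (h : Ge v 1 x) : val v x = 0 :=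
  val_eq (by rw [map_zero, sub_zero]; exact h)

section

variable [IsAlgClosed k] [FunField k E]

theorem val_spec {v : Place k E} {x : E} (h : Ge v 0 x) : Ge v 1 (x - algebraMap k E (val v x)) := by
  obtain ⟨a, ha⟩ := exists_const' (K := k) v h.mem
  rw [val_eq ha]
  exact ha

theorem val_add {v : Place k E} {x y : E} (hx : Ge v 0 x) (hy : Ge v 0 y) :
    val v (x + y) = val v x + val v y := by
  apply val_eq
  have := (val_spec hx).add (val_spec hy)
  rw [map_add]
  convert this using 1
  ring

theorem val_neg {v : Place k E} {x : E} (hx : Ge v 0 x) : val v (-x) = - val v x := by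
  apply val_eq
  have := (val_spec hx).neg
  rw [map_neg]
  convert this using 1
  ring

theorem val_sub {v : Place k E} {x y : E} (hx : Ge v 0 x) (hy : Ge v 0 y) :
    val v (x - y) = val v x - val v y := by
  rw [sub_eq_add_neg, val_add hx hy.neg, val_neg hy, sub_eq_add_neg]

theorem val_mul {v : Place k E} {x y : E} (hx : Ge v 0 x) (hy : Ge v 0 y) :
    val v (x * y) = val v x * val v y := by
  apply val_eq
  have h1 := (val_spec hx).mul hy
  have h2 := (Ge.algebraMap v (val v x)).mul (val_spec hy)
  have h3 := (h1.mono (m := 1) (by norm_num)).add (h2.mono (m := 1) (by norm_num))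
  rw [map_mul]
  convert h3 using 1
  ring

theorem val_smul {v : Place k E} (c : k) {x : E} (hx : Ge v 0 x) :
    val v (c • x) = c * val v x := by
  rw [Algebra.smul_def, val_mul (Ge.algebraMap v c) hx, val_algebraMap]

theorem ge_zero_pow {v : Place k E} {x : E} (hx : Ge v 0 x) (n : ℕ) : Ge v 0 (x ^ n) :=
  (hx.pow n).mono (by simp)

theorem val_pow {v : Place k E} {x : E} (hx : Ge v 0 x) (n : ℕ) :
    val v (x ^ n) = val v x ^ n := by
  induction n with
  | zero => simp
  | succ n ih => rw [pow_succ, val_mul (ge_zero_pow hx n) hx, ih, pow_succ]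

theorem val_sum {v : Place k E} {ι : Type*} (s : Finset ι) {f : ι → E}
    (h : ∀ i ∈ s, Ge v 0 (f i)) : val v (∑ i ∈ s, f i) = ∑ i ∈ s, val v (f i) := by
  classical
  induction s using Finset.induction_on with
  | empty => simp
  | insert i s hi ih =>
    rw [Finset.sum_insert hi, Finset.sum_insert hi,
      val_add (h i (Finset.mem_insert_self i s))
        (Ge.sum s fun j hj => h j (Finset.mem_insert_of_mem hj)),
      ih fun j hj => h j (Finset.mem_insert_of_mem hj)]

theorem val_eq_zero_iff {v : Place k E} {x : E} (hx : Ge v 0 x) : val v x = 0 ↔ Ge v 1 x := by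
  constructor
  · intro h
    have := val_spec hx
    rwa [h, map_zero, sub_zero] at this
  · exact val_of_pos

theorem val_ne_zero_iff {v : Place k E} {x : E} (hx : Ge v 0 x) (hx0 : x ≠ 0) :
    val v x ≠ 0 ↔ v.ord x = 0 := by
  rw [Ne, val_eq_zero_iff hx]
  have h0 := hx.le_ord hx0
  constructor
  · intro h
    by_contra h1
    exact h (Ge.of_le (by omega))
  · intro h h1
    have := h1.le_ord hx0
    omega

theorem val_inv {v : Place k E} {x : E} (h : v.ord x = 0) (hx0 : x ≠ 0) :
    val v x⁻¹ = (val v x)⁻¹ := by
  have h1 : Ge v 0 x := Ge.of_le h.ge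
  have h2 : Ge v 0 x⁻¹ := Ge.of_le (by rw [v.ord_inv, h, neg_zero])
  have h3 := val_mul h1 h2
  rw [mul_inv_cancel₀ hx0, val_one] at h3
  exact eq_inv_of_mul_eq_one_right h3.symm

/-- Values under semilinear isomorphisms. -/
theorem val_map {E' : Type*} [Field E'] [Algebra k E'] {v : Place k E} {v' : Place k E'}
    (θk : k →+* k) (θ : E →+* E') (hθ : ∀ a, θ (algebraMap k E a) = algebraMap k E' (θk a))
    (hv : ∀ x, Ge v 1 x → Ge v' 1 (θ x)) {x : E} (hx : Ge v 0 x) :
    val v' (θ x) = θk (val v x) := by
  apply val_eq
  have := hv _ (val_spec hx)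
  rwa [map_sub, hθ] at this

/-- Two distinct places are separated by a function with prescribed behaviour elsewhere. -/
theorem exists_val {ι : Type*} [Finite ι] (v : ι → Place k E) (hv : Function.Injective v)
    (T : Finset (Place k E)) (hT : ∀ i, v i ∉ T) (c : ι → k) (n : ℤ) :
    ∃ x : E, (∀ i, Ge (v i) 1 (x - algebraMap k E (c i))) ∧ ∀ u ∈ T, Ge u n x := by
  classical
  haveI := Fintype.ofFinite ι
  let S : Finset (Place k E) := Finset.univ.image v ∪ T
  let y : Place k E → E := fun u =>
    if h : ∃ i, v i = u then algebraMap k E (c h.choose) else 0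
  obtain ⟨x, hx⟩ := exists_approx S y (max n 1)
  refine ⟨x, fun i => ?_, fun u hu => ?_⟩
  · have h1 := hx (v i) (Finset.mem_union_left _ (Finset.mem_image_of_mem v (Finset.mem_univ i)))
    have h2 : y (v i) = algebraMap k E (c i) := by
      have hex : ∃ j, v j = v i := ⟨i, rfl⟩
      have : hex.choose = i := hv hex.choose_spec
      simp only [y]
      rw [dif_pos hex, this]
    rw [h2] at h1
    exact h1.mono (le_max_right _ _)
  · have h1 := hx u (Finset.mem_union_right _ hu)
    have h2 : y u = 0 := by
      simp only [y]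
      rw [dif_neg]
      rintro ⟨i, hi⟩
      exact hT i (hi ▸ hu)
    rw [h2, sub_zero] at h1
    exact h1.mono (le_max_left _ _)

end

end Fermat.Agent.Nod
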