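import Fermat.Agent.SemiSt.Norm
import Fermat.Agent.ALCoh.Mult2
import Fermat.Agent.Kum.Frob
import Fermat.Agent.X0Genus.Full

/-!
# Algebraic and analytic Atkin-Lehner operators and norms
-/

set_option autoImplicit false
set_option linter.style.haveILetI false
set_option linter.unusedSectionVars false

noncomputable section

namespace Fermat.Agent.Nod

open ModularCurve Polynomial IntermediateField Fermat.Agent.ModPoly Fermat.Agent.Red
  Fermat.Agent.Cusp Fermat.Agent.SemiSt Fermat.Agent.ALCoh Fermat.Agent.Kum Fermat.Agent.KumF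
  Fermat.Agent.HeckeProd

variable {K : Type*} [Field K] [IsAlgClosed K] [CharZero K] [Algebra ℚ K] (ι : K →+* ℂ)

theorem coeffMap_mem_MFun_FF {N : ℕ} [NeZero N] (x : FF K N) :
    coeffMap ι (x : LaurentSeries K) ∈ MFun N := by
  apply coeffMap_mem_MFun ι
  have h : FK K N = modularFunctionFieldFullC K N := X0Genus.baseChange_eq K N
  rw [h]
  exact x.2

theorem Jc_one_mem_MFun {N : ℕ} [NeZero N] {m : ℕ+} (hm : (m : ℕ) ∣ N) :
    (Jc 1 m : LaurentSeries ℂ) ∈ MFun N := by
  have h := coeffMap_mem_MFun_FF (RingHom.id ℂ) (jm ℂ m hm)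
  have e : coeffMap (RingHom.id ℂ) ((jm ℂ m hm : FF ℂ N) : LaurentSeries ℂ) = Jc 1 m :=
    coeffMap_Jc_one (RingHom.id ℂ) m
  rwa [e] at h

variable {q M : ℕ} [hq : Fact q.Prime] [NeZero M]

instance neZero_mul_comm : NeZero (M * q) := ⟨mul_ne_zero (NeZero.ne M) hq.out.ne_zero⟩

theorem MFun_congr {N N' : ℕ} (h : N = N') {x : LaurentSeries ℂ} (hx : x ∈ MFun N) :
    x ∈ MFun N' := by rwa [← h]

/-- the algebraic Atkin-Lehner involution is the analytic one -/
theorem coeffMap_w (hco : q.Coprime M) (hqM : ¬ q ∣ M) (x : FF K (q * M)) :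
    coeffMap ι (w K hco x : LaurentSeries K) =
      wx (N := M * q) (dvd_mul_left q M) (coprime_of_not_dvd hq.out hqM)
        (coeffMap ι (x : LaurentSeries K)) := by
  have hmem : ∀ x : FF K (q * M), coeffMap ι (x : LaurentSeries K) ∈ MFun (M * q) := fun x =>
    MFun_congr (mul_comm q M) (coeffMap_mem_MFun_FF ι x)
  let c : FF K (q * M) →+* MFun (M * q) :=
    ((coeffMap ι).comp (FF K (q * M)).val.toRingHom).codRestrict (MFun (M * q)) hmem
  let G : FF K (q * M) →+* LaurentSeries ℂ :=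
    (MFun (M * q)).subtype.comp ((wRing (N := M * q) (dvd_mul_left q M)
      (coprime_of_not_dvd hq.out hqM)).comp c)
  let F : FF K (q * M) →+* LaurentSeries ℂ :=
    (coeffMap ι).comp ((FF K (q * M)).val.toRingHom.comp (w K hco).toRingEquiv.toRingHom)
  change F x = G x
  have hx : x ∈ IntermediateField.adjoin K {x : FF K (q * M) |
      ∃ (m : ℕ+) (hm : (m : ℕ) ∣ (q * M)), x = jm K m hm} := by
    rw [adjoin_jm_eq_top]; exact IntermediateField.mem_top
  induction hx using IntermediateField.adjoin_induction with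
  | mem x hx =>
    obtain ⟨m, hm, rfl⟩ := hx
    obtain ⟨r, r', d, hmd, hrr, hd⟩ := exists_factor hco hq.out.pos hm
    subst hmd
    have hm' : ((r' * d : ℕ+) : ℕ) ∣ q * M := by
      rw [PNat.mul_coe]
      exact mul_dvd_mul ⟨r, by rw [mul_comm]; exact hrr.symm⟩ hd
    have h1 : w K hco (jm K (r * d) hm) = jm K (r' * d) hm' :=
      wq_jm _ hco hrr hd hm hm'
    have h2 : F (jm K (r * d) hm) = Jc 1 (r' * d) := by
      change coeffMap ι ((w K hco (jm K (r * d) hm) : FF K (q * M)) : LaurentSeries K) = _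
      rw [h1]
      exact coeffMap_Jc_one ι _
    have h3 : G (jm K (r * d) hm) = wx (N := M * q) (dvd_mul_left q M)
        (coprime_of_not_dvd hq.out hqM) (Jc 1 (r * d)) := by
      change wx _ _ (coeffMap ι ((jm K (r * d) hm : FF K (q * M)) : LaurentSeries K)) = _
      rw [show coeffMap ι ((jm K (r * d) hm : FF K (q * M)) : LaurentSeries K) = Jc 1 (r * d) from
        coeffMap_Jc_one ι _]
    rw [h2, h3]
    have hJ : (Jc 1 d : LaurentSeries ℂ) ∈ MFun M := Jc_one_mem_MFun hd
    have hqe : qExpand ℂ q (Jc 1 d) = (Jc 1 (pn q * d) : LaurentSeries ℂ) := by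
      rw [← Sb_one_eq q (pn q) (coe_pn q), Sb_Jc, one_pow, one_mul]
    rcases (Nat.dvd_prime hq.out).1 ⟨(r' : ℕ), hrr.symm⟩ with h | h
    · have hr : r = 1 := PNat.eq (by rw [h, PNat.one_coe])
      have hr' : r' = pn q := PNat.eq (by
        rw [coe_pn]
        rw [h, one_mul] at hrr
        exact hrr)
      subst hr
      rw [one_mul, wx_of_mem hq.out hqM hJ, hqe, hr']
    · have hr : r = pn q := PNat.eq (by rw [h, coe_pn])
      have hr' : r' = 1 := PNat.eq (by
        rw [h] at hrr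
        rw [PNat.one_coe]
        exact Nat.eq_of_mul_eq_mul_left hq.out.pos (by rw [hrr, mul_one]))
      rw [hr, hr', one_mul, ← hqe, wx_qExpand hq.out hqM hJ]
  | algebraMap a =>
    have h1 : F (algebraMap K (FF K (q * M)) a) = HahnSeries.C (ι a) := by
      change coeffMap ι ((w K hco (algebraMap K (FF K (q * M)) a) : FF K (q * M)) :
        LaurentSeries K) = _
      rw [AlgEquiv.commutes]
      change coeffMap ι (algebraMap K (LaurentSeries K) a) = _
      rw [algebraMap_eq_C, coeffMap_C]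
    have h2 : G (algebraMap K (FF K (q * M)) a) = HahnSeries.C (ι a) := by
      change wx _ _ (coeffMap ι (algebraMap K (LaurentSeries K) a)) = _
      rw [algebraMap_eq_C, coeffMap_C, wx_C]
    rw [h1, h2]
  | add x y _ _ hx hy => rw [map_add, map_add, hx, hy]
  | inv x _ hx => rw [map_inv₀, map_inv₀, hx]
  | mul x y _ _ hx hy => rw [map_mul, map_mul, hx, hy]

theorem prod_fin_val {R : Type*} [CommMonoid R] {q : ℕ} [NeZero q] (F : ℕ → R) :
    ∏ j : Fin q, F j = ∏ x : ZMod q, F x.val := by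
  obtain ⟨n, rfl⟩ := Nat.exists_eq_succ_of_ne_zero (NeZero.ne q)
  rfl

/-- the norm in terms of analytic operators -/
theorem coeffMap_Nm (hco : q.Coprime M) (hqM : ¬ q ∣ M) (x : FF K (q * M)) {ζ : ℂˣ}
    (hζ : IsPrimitiveRoot ζ q) :
    coeffMap ι (Nm K q M x : LaurentSeries K) = coeffMap ι (x : LaurentSeries K) *
      NN q ζ (wx (N := M * q) (dvd_mul_left q M) (coprime_of_not_dvd hq.out hqM)
        (coeffMap ι (x : LaurentSeries K))) := by
  obtain ⟨ξ, hξ⟩ := exists_zeta (k := K) (N := q) (natCast_ne_zero_K K q)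
  apply qExpand_injective q
  rw [← coeffMap_w ι hco hqM, ← ModularCurve.coeffMap_qExpand, qExpand_Nm hco hξ, map_mul, map_mul,
    ModularCurve.coeffMap_qExpand, qExpand_NN hζ, map_prod]
  congr 1
  have hξ' : IsPrimitiveRoot (Units.map (ι : K →* ℂ) ξ) q :=
    hξ.map_of_injective (f := Units.map (ι : K →* ℂ)) (Units.map_injective ι.injective)
  rw [PP_indep hζ hξ', PP, ← prod_fin_val (fun j => twist (Units.map (ι : K →* ℂ) ξ ^ j)
    (coeffMap ι (w K hco x : LaurentSeries K)))]
  refine Finset.prod_congr rfl fun b _ => ?_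
  rw [HeckeProd.coeffMap_twist, map_pow]

section Rep

variable {m : ℕ} [NeZero m] {φ : Additive (G0 (M * q)) →+ ZMod m}

theorem exists_pow_FF {N : ℕ} [NeZero N] {x : FF K N}
    (h : Rep N (coeffMap ι (x : LaurentSeries K)) (0 : Additive (G0 N) →+ ZMod m)) :
    ∃ z : FF K N, x = z ^ m := by
  have hE : FK K N = modularFunctionFieldFullC K N := X0Genus.baseChange_eq K N
  have hx : (x : LaurentSeries K) ∈ FK K N := by rw [hE]; exact x.2
  obtain ⟨z, hz⟩ := exists_pow_of_rep_zero ι (x := ⟨x, hx⟩) h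
  have hz' : (z : LaurentSeries K) ∈ FF K N := le_of_eq hE z.2
  refine ⟨⟨z, hz'⟩, Subtype.ext ?_⟩
  have h1 : (x : LaurentSeries K) = (z : LaurentSeries K) ^ m :=
    (congrArg Subtype.val hz).trans (SubmonoidClass.coe_pow z m)
  exact h1.trans (SubmonoidClass.coe_pow (⟨z, hz'⟩ : FF K N) m).symm

/-- the norm of a function whose character has vanishing transfer is an `m`-th power -/
theorem exists_Nm_pow (hco : q.Coprime M) (hqM : ¬ q ∣ M) {x : FF K (q * M)}
    (h : Rep (M * q) (coeffMap ι (x : LaurentSeries K)) φ)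
    (htr : tr (dvd_mul_right M q) (ZMod m) φ = 0) : ∃ z : FF K M, Nm K q M x = z ^ m := by
  obtain ⟨ζ, hζ⟩ := Kum.exists_primitive q
  apply exists_pow_FF ι
  rw [coeffMap_Nm ι hco hqM x hζ, ← htr]
  exact rep_tr hq.out hqM hζ h

theorem rep_w (hco : q.Coprime M) (hqM : ¬ q ∣ M) {x : FF K (q * M)}
    (h : Rep (M * q) (coeffMap ι (x : LaurentSeries K)) φ) :
    Rep (M * q) (coeffMap ι (w K hco x : LaurentSeries K))
      (wop (dvd_mul_left q M) (coprime_of_not_dvd hq.out hqM) (ZMod m) φ) := by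
  rw [coeffMap_w ι hco hqM]
  exact rep_wx _ _ h

end Rep

end Fermat.Agent.Nod
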